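import Fermat.Agent.Sw35.Mod

set_option autoImplicit false
set_option maxHeartbeats 400000

/-!
# The 3–5 switch
-/

open WeierstrassCurve WeierstrassCurve.Affine WeierstrassCurve.Affine.Point

namespace Fermat.Agent.Sw35

open Fermat.Agent.FrobDens

lemma pow_fix {σ : Qb ≃ₐ[ℚ] Qb} {w : Qb} (h : σ w = w) (m : ℕ) : (σ ^ m) w = w := by
  induction m with
  | zero => simp
  | succ m ih => rw [pow_succ', AlgEquiv.mul_apply, ih, h]

/-- at a prime where the auxiliary level structure reduces well, the parameter can be solved -/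
theorem exists_t {W : WeierstrassCurve ℤ} {f z x y x' y' : Qb}
    (h' : Lev (cv E0) f z x' y') {ℓ : ℕ} (hℓ : ℓ.Prime) (hℓ6 : ¬ (ℓ : ℤ) ∣ 6)
    {A : ValuationSubring Qb} (hA : A.LiesOverPrime ℓ) {τ : Qb ≃ₐ[ℚ] Qb}
    (hτ : A.IsFrobeniusAt τ ℓ) (hval : ∀ b ∈ [f, x, y, x', y', kp f, h10 x y,
      al x y * x * y' + be x y * y * x'], A.valuation b = 1)
    (hfix : ∀ b ∈ [f, x, y, x', y'], τ b = b) {N : ℤ} (hN : ¬ (ℓ : ℤ) ∣ N) :
    ∃ t : ℤ, N ∣ t ∧ ∀ W' : WeierstrassCurve ℤ, Pair (cv W) (cv W') f z x y (t : Qb) →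
      W'.Δ ≠ 0 ∧ W'.IsGoodPrimeFor ℓ ∧ W'.apOfModel ℓ = E0.apOfModel ℓ := by
  haveI : Fact ℓ.Prime := ⟨hℓ⟩
  obtain ⟨B, _, ι, ρ, hinj, hlift, hunit⟩ := exists_red hℓ hA hτ
  have lift (b : Qb) (hb : A.valuation b = 1) (hf : τ b = b) : ∃ β : B, ι β = b :=
    hlift b hb.le hf
  obtain ⟨fB, hf⟩ := lift f (hval _ (by simp)) (hfix _ (by simp))
  obtain ⟨xB, hx⟩ := lift x (hval _ (by simp)) (hfix _ (by simp))
  obtain ⟨yB, hy⟩ := lift y (hval _ (by simp)) (hfix _ (by simp))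
  obtain ⟨x'B, hx'⟩ := lift x' (hval _ (by simp)) (hfix _ (by simp))
  obtain ⟨y'B, hy'⟩ := lift y' (hval _ (by simp)) (hfix _ (by simp))
  have ux : ρ xB ≠ 0 := hunit xB (by rw [hx]; exact hval _ (by simp))
  have uy : ρ yB ≠ 0 := hunit yB (by rw [hy]; exact hval _ (by simp))
  have ux' : ρ x'B ≠ 0 := hunit x'B (by rw [hx']; exact hval _ (by simp))
  have uy' : ρ y'B ≠ 0 := hunit y'B (by rw [hy']; exact hval _ (by simp))
  have ukp : kp (ρ fB) ≠ 0 := by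
    rw [kp_map]
    refine hunit _ ?_
    rw [← kp_map, hf]
    exact hval _ (by simp)
  have uh : h10 (ρ xB) (ρ yB) ≠ 0 := by
    rw [h10_map]
    refine hunit _ ?_
    rw [← h10_map, hx, hy]
    exact hval _ (by simp)
  have uD : al (ρ xB) (ρ yB) * ρ xB * ρ y'B + be (ρ xB) (ρ yB) * ρ yB * ρ x'B ≠ 0 := by
    rw [al_map, be_map, ← _root_.map_mul, ← _root_.map_mul, ← _root_.map_mul, ← _root_.map_mul,
      ← _root_.map_add]
    refine hunit _ ?_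
    rw [_root_.map_add, _root_.map_mul, _root_.map_mul, _root_.map_mul, _root_.map_mul, ← al_map,
      ← be_map, hx, hy, hx', hy']
    exact hval _ (by simp)
  have h6 : ((6 : ℤ) : ZMod ℓ) ≠ 0 := by
    rw [Ne, ZMod.intCast_zmod_eq_zero_iff_dvd]; exact hℓ6
  have h6' : (6 : ZMod ℓ) ≠ 0 := by simpa using h6
  have h2 : (2 : ZMod ℓ) ≠ 0 := by
    intro e
    apply h6'
    linear_combination 3 * e
  have h3 : (3 : ZMod ℓ) ≠ 0 := by
    intro e
    apply h6'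
    linear_combination 2 * e
  have h12 : (12 : ZMod ℓ) ≠ 0 := by
    have : (12 : ZMod ℓ) = 6 * 2 := by norm_num
    rw [this]
    exact mul_ne_zero h6' h2
  obtain ⟨t, u, hu, e4, e6⟩ := solve_t h12 ukp ux uy ux' uy' uh uD
  have hN0 : (N : ZMod ℓ) ≠ 0 := by
    rw [Ne, ZMod.intCast_zmod_eq_zero_iff_dvd]; exact hN
  obtain ⟨n, hn⟩ := ZMod.intCast_surjective (t / (N : ZMod ℓ))
  have hNt : ((N * n : ℤ) : ZMod ℓ) = t := by
    push_cast
    rw [hn]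
    field_simp
  refine ⟨N * n, dvd_mul_right _ _, fun W' hp => ?_⟩
  have ht : ι ((N * n : ℤ) : B) = ((N * n : ℤ) : Qb) := map_intCast ι _
  have ht' : ρ ((N * n : ℤ) : B) = t := by rw [map_intCast, hNt]
  -- identities over `B`
  have red4 : ((W'.c₄ : ℤ) : ZMod ℓ) = c4f (A0 (ρ fB) (Ux (ρ fB) t (ρ xB) (ρ yB))
      (Uy (ρ fB) t (ρ xB) (ρ yB))) (B0 (ρ fB) (Ux (ρ fB) t (ρ xB) (ρ yB))
      (Uy (ρ fB) t (ρ xB) (ρ yB))) := by
    have e := hp.L'.c4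
    rw [cv_c4, ← hf, ← hx, ← hy, ← ht, Ux_map, Uy_map, A0_map, B0_map, c4f_map,
      ← map_intCast ι] at e
    have e' := congrArg ρ (hinj e)
    rw [← c4f_map, ← A0_map, ← B0_map, ← Ux_map, ← Uy_map, ht', map_intCast] at e'
    exact e'
  have red6 : ((W'.c₆ : ℤ) : ZMod ℓ) = c6f (A0 (ρ fB) (Ux (ρ fB) t (ρ xB) (ρ yB))
      (Uy (ρ fB) t (ρ xB) (ρ yB))) (B0 (ρ fB) (Ux (ρ fB) t (ρ xB) (ρ yB))
      (Uy (ρ fB) t (ρ xB) (ρ yB))) := by
    have e := hp.L'.c6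
    rw [cv_c6, ← hf, ← hx, ← hy, ← ht, Ux_map, Uy_map, A0_map, B0_map, c6f_map,
      ← map_intCast ι] at e
    have e' := congrArg ρ (hinj e)
    rw [← c6f_map, ← A0_map, ← B0_map, ← Ux_map, ← Uy_map, ht', map_intCast] at e'
    exact e'
  have red4' : ((E0.c₄ : ℤ) : ZMod ℓ) = c4f (A0 (ρ fB) (ρ x'B) (ρ y'B))
      (B0 (ρ fB) (ρ x'B) (ρ y'B)) := by
    have e := h'.c4
    rw [cv_c4, ← hf, ← hx', ← hy', A0_map, B0_map, c4f_map, ← map_intCast ι] at e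
    have e' := congrArg ρ (hinj e)
    rw [← c4f_map, ← A0_map, ← B0_map, map_intCast] at e'
    exact e'
  have red6' : ((E0.c₆ : ℤ) : ZMod ℓ) = c6f (A0 (ρ fB) (ρ x'B) (ρ y'B))
      (B0 (ρ fB) (ρ x'B) (ρ y'B)) := by
    have e := h'.c6
    rw [cv_c6, ← hf, ← hx', ← hy', A0_map, B0_map, c6f_map, ← map_intCast ι] at e
    have e' := congrArg ρ (hinj e)
    rw [← c6f_map, ← A0_map, ← B0_map, map_intCast] at e'
    exact e'
  have f4 : (W'.map (Int.castRingHom (ZMod ℓ))).c₄ =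
      u ^ 4 * (E0.map (Int.castRingHom (ZMod ℓ))).c₄ := by
    rw [map_c₄, map_c₄, eq_intCast, eq_intCast, red4, red4', e4]
  have f6 : (W'.map (Int.castRingHom (ZMod ℓ))).c₆ =
      u ^ 6 * (E0.map (Int.castRingHom (ZMod ℓ))).c₆ := by
    rw [map_c₆, map_c₆, eq_intCast, eq_intCast, red6, red6', e6]
  have hΔE : (E0.map (Int.castRingHom (ZMod ℓ))).Δ ≠ 0 := by
    rw [map_Δ, E0_Δ]
    have : (Int.castRingHom (ZMod ℓ)) 64 = 2 ^ 6 := by norm_num
    rw [this]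
    exact pow_ne_zero _ h2
  have hΔW : (W'.map (Int.castRingHom (ZMod ℓ))).Δ ≠ 0 := by
    intro h0
    have r1 := (W'.map (Int.castRingHom (ZMod ℓ))).c_relation
    have r2 := (E0.map (Int.castRingHom (ZMod ℓ))).c_relation
    rw [f4, f6, h0] at r1
    have r3 : (1728 : ZMod ℓ) * (u ^ 12 * (E0.map (Int.castRingHom (ZMod ℓ))).Δ) = 0 := by
      linear_combination u ^ 12 * r2 - r1
    have h1728 : (1728 : ZMod ℓ) ≠ 0 := by
      have : (1728 : ZMod ℓ) = 12 ^ 3 := by norm_num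
      rw [this]
      exact pow_ne_zero _ h12
    exact mul_ne_zero h1728 (mul_ne_zero (pow_ne_zero _ hu) hΔE) r3
  have hgood : W'.IsGoodPrimeFor ℓ := by
    intro hd
    apply hΔW
    rw [map_Δ, eq_intCast, ZMod.intCast_zmod_eq_zero_iff_dvd]
    exact hd
  refine ⟨fun h0 => hgood (by rw [h0]; exact dvd_zero _), hgood, ?_⟩
  exact trace_eq h2 h3 hΔE hu f4 f6

/-- **the 3–5 switch** -/
theorem switch (W : WeierstrassCurve ℤ) (hΔ : W.Δ ≠ 0) (hW : W.IsSemistableModel) :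
    ∃ W' : WeierstrassCurve ℤ, W'.Δ ≠ 0 ∧ W'.IsSemistableModel ∧ W'.ModRepIsIrreducible 3 ∧
      ∀ ℓ : ℕ, ℓ.Prime → W.IsGoodPrimeFor ℓ → W'.IsGoodPrimeFor ℓ → ℓ ≠ 5 →
        (5 : ℤ) ∣ (W'.apOfModel ℓ - W.apOfModel ℓ) := by
  obtain ⟨f, z, hc⟩ := exists_cst
  obtain ⟨x, y, h⟩ := exists_lev hΔ hc
  obtain ⟨x', y', h', hD⟩ := exists_lev_D hΔ h
  obtain ⟨hx, hy, hh⟩ := h.ne (cv_Δ_ne hΔ)
  obtain ⟨hx', hy', -⟩ := h'.ne (cv_Δ_ne E0_Δ_ne)
  obtain ⟨N, hN, hfam⟩ := exists_family hΔ hW h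
  obtain ⟨s, hs⟩ : ∃ s : Qb, s ^ 2 = 3 := IsAlgClosed.exists_pow_nat_eq (3 : Qb) (n := 2)
    (by norm_num)
  have hs0 : s ≠ 0 := by
    rintro rfl
    norm_num at hs
  obtain ⟨A3, hA3, i, hi, his⟩ := exists_inertia s hs
  obtain ⟨-, ff, fx, fy⟩ := fixed_lev hΔ (hW 3 p3) hA3 hi h
  have hE3 : (3 : ℤ) ∣ E0.Δ → ¬ (3 : ℤ) ∣ E0.c₄ := by
    intro hd
    rw [E0_Δ] at hd
    norm_num at hd
  obtain ⟨-, -, fx', fy'⟩ := fixed_lev E0_Δ_ne hE3 hA3 hi h'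
  have hσs : (i ^ 25) s = -s := by
    have h2 : (i ^ 2) s = s := by
      rw [pow_two, AlgEquiv.mul_apply, his, map_neg, his, neg_neg]
    have h24 : ((i ^ 2) ^ 12) s = s := pow_fix h2 12
    rw [show (25 : ℕ) = 2 * 12 + 1 from rfl, pow_succ, pow_mul, AlgEquiv.mul_apply, his, map_neg,
      h24]
  set σ := i ^ 25 with hσ
  have hf0 : f ≠ 0 := by
    rintro rfl
    have := hc.hf
    norm_num at this
  obtain ⟨m, hm, hunit⟩ := unit_almost_list [f, x, y, x', y', kp f, h10 x y,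
      al x y * x * y' + be x y * y * x'] (by
    intro b hb
    simp only [List.mem_cons, List.not_mem_nil, or_false] at hb
    rcases hb with rfl | rfl | rfl | rfl | rfl | rfl | rfl | rfl
    · exact hf0
    · exact hx
    · exact hy
    · exact hx'
    · exact hy'
    · exact hc.kp_ne
    · exact hh
    · exact hD)
  have hM : m * (6 * N) ≠ 0 := mul_ne_zero hm (mul_ne_zero (by norm_num) hN)
  let L : IntermediateField ℚ Qb := IntermediateField.adjoin ℚ ({f, x, y, x', y', s} : Set Qb)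
  haveI : FiniteDimensional ℚ L := by
    apply IntermediateField.finiteDimensional_adjoin
    intro w _
    exact ((AlgebraicClosure.isAlgebraic ℚ).isAlgebraic w).isIntegral
  obtain ⟨ℓ, hℓ, hℓS, A, hA, τ, hτ, k, n, hk, hn⟩ := exists_frobenius L
    {ℓ : ℕ | (ℓ : ℤ) ∣ m * (6 * N)} (by
      refine (Set.finite_le_nat (m * (6 * N)).natAbs).subset fun ℓ hd => ?_
      exact Nat.le_of_dvd (Int.natAbs_pos.2 hM) (Int.natCast_dvd.1 hd)) σ
  have hℓM : ¬ (ℓ : ℤ) ∣ m * (6 * N) := hℓS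
  have memL {w : Qb} (hw : w ∈ ({f, x, y, x', y', s} : Set Qb)) : w ∈ L :=
    IntermediateField.subset_adjoin ℚ _ hw
  have fixτ {w : Qb} (hw : w ∈ ({f, x, y, x', y', s} : Set Qb)) (hw' : σ w = w) : τ w = w := by
    rw [← hn w (memL hw)]
    exact pow_fix hw' n
  have hτs : τ s ≠ s := by
    intro e
    have e1 := hk s (memL (by simp))
    rw [pow_fix e k, hσs] at e1
    apply hs0
    have : (2 : Qb) * s = 0 := by linear_combination e1
    exact (mul_eq_zero.1 this).resolve_left (by norm_num)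
  have hℓ6 : ¬ (ℓ : ℤ) ∣ 6 := fun hd => hℓM (Dvd.dvd.mul_left (Dvd.dvd.mul_right hd _) _)
  obtain ⟨t, hNt, ht⟩ := exists_t (W := W) h' hℓ hℓ6 hA hτ
    (hunit ℓ hℓ (fun hd => hℓM (Dvd.dvd.mul_right hd _)) A hA) (by
      intro b hb
      simp only [List.mem_cons, List.not_mem_nil, or_false] at hb
      rcases hb with rfl | rfl | rfl | rfl | rfl
      · exact fixτ (by simp) ff
      · exact fixτ (by simp) fx
      · exact fixτ (by simp) fy
      · exact fixτ (by simp) fx'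
      · exact fixτ (by simp) fy')
    (N := N) (fun hd => hℓM (Dvd.dvd.mul_left (Dvd.dvd.mul_left hd _) _))
  obtain ⟨W', hW', hp⟩ := hfam t hNt
  obtain ⟨hΔ', hg', hap⟩ := ht W' hp
  have h2 : ℓ ≠ 2 := by
    rintro rfl
    norm_num at hℓ6
  have h3 : ℓ ≠ 3 := by
    rintro rfl
    norm_num at hℓ6
  refine ⟨W', hΔ', hW', ?_, ?_⟩
  · refine irr_of_trace hΔ' hℓ hg' h3 ?_
    rw [hap]
    exact E0_trace hs hℓ h2 h3 hA hτ hτs
  · intro p hpr hg hgp h5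
    exact trace_congr (fun σ => map_intCast σ t) hp hΔ hΔ' hpr hg hgp h5

end Fermat.Agent.Sw35
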