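import Fermat.Agent.Sw35.Trace

set_option autoImplicit false

/-!
# The rational family with constant five-torsion
-/

open WeierstrassCurve WeierstrassCurve.Affine Polynomial

namespace Fermat.Agent.Sw35

lemma exists_cst : ∃ f z : Qb, Cst f z := by
  obtain ⟨z, hz⟩ := IsAlgClosed.exists_root (X ^ 4 + X ^ 3 + X ^ 2 + X + 1 : Qb[X]) (by
    have : (X ^ 4 + X ^ 3 + X ^ 2 + X + 1 : Qb[X]).degree = 4 := by compute_degree!
    rw [this]; norm_num)
  have h : z ^ 4 + z ^ 3 + z ^ 2 + z + 1 = 0 := by simpa using hz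
  refine ⟨1 + z + z ^ 4, z, ?_, ?_⟩
  · linear_combination (z ^ 4 - z ^ 3 + 2 * z - 1) * h
  · linear_combination (-z + 1) * h

lemma Cst.q2_ne {f z : Qb} (h : Cst f z) : 1 + (5 * f + 3) ^ 2 ≠ 0 := by
  have e : 1 + (5 * f + 3) ^ 2 = -5 * kp f := by unfold kp; linear_combination 25 * h.hf
  rw [e]
  exact mul_ne_zero (by norm_num) h.kp_ne

lemma exists_lev {W : WeierstrassCurve ℤ} (hΔ : W.Δ ≠ 0) {f z : Qb} (hc : Cst f z) :
    ∃ x y, Lev (cv W) f z x y := by
  obtain ⟨P, hP, hP5⟩ := X015.exists_five_torsion (K := Qb) (W := cv W) (by norm_num)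
    (by norm_num) (cv_Δ_ne hΔ)
  obtain ⟨A, B, h⟩ := exists_isTate (cv_Δ_ne hΔ) hP hP5
  obtain ⟨x, hx⟩ := IsAlgClosed.exists_pow_nat_eq
    ((A + (5 * f + 3) * B) / (1 + (5 * f + 3) ^ 2)) (n := 5) (by norm_num)
  obtain ⟨y, hy⟩ := IsAlgClosed.exists_pow_nat_eq
    (((5 * f + 3) * A - B) / (1 + (5 * f + 3) ^ 2)) (n := 5) (by norm_num)
  have hq := hc.q2_ne
  have hA : A0 f x y = A := by
    unfold A0; rw [hx, hy]; field_simp; ring
  have hB : B0 f x y = B := by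
    unfold B0; rw [hx, hy]; field_simp; ring
  refine ⟨x, y, hc, ?_, ?_⟩
  · rw [hA, hB]; exact h.2.1
  · rw [hA, hB]; exact h.2.2

section poly

/-- `c₄` along the family, as a polynomial. -/
noncomputable def P4 {R : Type*} [CommRing R] (A B : R) : R[X] :=
  c4f (Ff (C A) (C B) X) (Gf (C A) (C B) X)

/-- `c₆` along the family, as a polynomial. -/
noncomputable def P6 {R : Type*} [CommRing R] (A B : R) : R[X] :=
  c6f (Ff (C A) (C B) X) (Gf (C A) (C B) X)

variable {R S : Type*} [CommRing R] [CommRing S]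

lemma P4_eval (A B t : R) : (P4 A B).eval t = c4f (Ff A B t) (Gf A B t) := by
  have h := c4f_map (evalRingHom t) (Ff (C A) (C B) X) (Gf (C A) (C B) X)
  rw [← Ff_map, ← Gf_map] at h
  simp only [coe_evalRingHom, eval_C, eval_X] at h
  exact h.symm

lemma P6_eval (A B t : R) : (P6 A B).eval t = c6f (Ff A B t) (Gf A B t) := by
  have h := c6f_map (evalRingHom t) (Ff (C A) (C B) X) (Gf (C A) (C B) X)
  rw [← Ff_map, ← Gf_map] at h
  simp only [coe_evalRingHom, eval_C, eval_X] at h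
  exact h.symm

lemma P4_map (φ : R →+* S) (A B : R) : (P4 A B).map φ = P4 (φ A) (φ B) := by
  have h := c4f_map (mapRingHom φ) (Ff (C A) (C B) X) (Gf (C A) (C B) X)
  rw [← Ff_map, ← Gf_map] at h
  simp only [coe_mapRingHom, map_C, map_X] at h
  exact h.symm

lemma P6_map (φ : R →+* S) (A B : R) : (P6 A B).map φ = P6 (φ A) (φ B) := by
  have h := c6f_map (mapRingHom φ) (Ff (C A) (C B) X) (Gf (C A) (C B) X)
  rw [← Ff_map, ← Gf_map] at h
  simp only [coe_mapRingHom, map_C, map_X] at h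
  exact h.symm

lemma Ff_zero (A B : R) : Ff A B 0 = A := by unfold Ff F0; ring

lemma Gf_zero (A B : R) : Gf A B 0 = B := by unfold Gf; rw [Ff_zero]

end poly

/-- an auxiliary curve with given `c₄`, `c₆` -/
noncomputable def mk46 (c d : Qb) : WeierstrassCurve.Affine Qb := ⟨0, 0, 0, -c / 48, -d / 864⟩

lemma mk46_c4 (c d : Qb) : (mk46 c d).c₄ = c := by
  simp only [mk46, WeierstrassCurve.c₄, WeierstrassCurve.b₂, WeierstrassCurve.b₄]
  ring

lemma mk46_c6 (c d : Qb) : (mk46 c d).c₆ = d := by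
  simp only [mk46, WeierstrassCurve.c₆, WeierstrassCurve.b₂, WeierstrassCurve.b₄,
    WeierstrassCurve.b₆]
  ring

lemma mk46_Δ {c d : Qb} (h : c ^ 3 ≠ d ^ 2) : (mk46 c d).Δ ≠ 0 := by
  intro e
  have := (mk46 c d).c_relation
  rw [e, mk46_c4, mk46_c6, mul_zero] at this
  exact h (sub_eq_zero.1 this.symm)

/-- independence of the chosen point, pointwise. -/
lemma indep_pt {W : WeierstrassCurve ℤ} (hΔ : W.Δ ≠ 0) {f z x y : Qb} (h : Lev (cv W) f z x y)
    {R : (cv W).Point} {A B : Qb} (hR : IsTate (cv W) R A B) (t : Qb)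
    (hne : (P4 (A0 f x y) (B0 f x y)).eval t ^ 3 ≠ (P6 (A0 f x y) (B0 f x y)).eval t ^ 2) :
    (P4 A B).eval t = (P4 (A0 f x y) (B0 f x y)).eval t ∧
      (P6 A B).eval t = (P6 (A0 f x y) (B0 f x y)).eval t := by
  set W' := mk46 ((P4 (A0 f x y) (B0 f x y)).eval t) ((P6 (A0 f x y) (B0 f x y)).eval t)
  have hΔ' : W'.Δ ≠ 0 := mk46_Δ hne
  have hp : Pair (cv W) W' f z x y t := by
    refine ⟨h, h.cst, ?_, ?_⟩
    · rw [mk46_c4, P4_eval, F_U h.cst.hf, G_U h.cst.hf]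
    · rw [mk46_c6, P6_eval, F_U h.cst.hf, G_U h.cst.hf]
  have d := cv_Δ_ne hΔ
  obtain ⟨P, Q, P', Q', hP5, hQ5, hP5', hQ5', hgood⟩ := hp.exists_basis d hΔ'
  obtain ⟨j, k, hjk⟩ := span_of_indep d hP5 hQ5 (fun j k hjk => by
    obtain ⟨A, B, h1, -⟩ := hgood j k hjk
    exact h1.1.ne_zero) (hR.five d)
  have hn : ¬ ((5 : ℤ) ∣ j ∧ (5 : ℤ) ∣ k) := by
    intro e
    rw [comb_mod hP5 hQ5 e] at hjk
    exact hR.1.ne_zero hjk
  obtain ⟨A', B', h1, h2⟩ := hgood j k hn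
  rw [← hjk] at h1
  obtain ⟨rfl, rfl⟩ := h1.params d hR
  rw [P4_eval, P6_eval, ← h2.2.1, ← h2.2.2, mk46_c4, mk46_c6]
  exact ⟨rfl, rfl⟩

lemma P_disc_ne {W : WeierstrassCurve ℤ} (hΔ : W.Δ ≠ 0) {f z x y : Qb} (h : Lev (cv W) f z x y) :
    P4 (A0 f x y) (B0 f x y) ^ 3 - P6 (A0 f x y) (B0 f x y) ^ 2 ≠ 0 := by
  intro e
  have e0 := congrArg (eval 0) e
  rw [eval_sub, eval_pow, eval_pow, P4_eval, P6_eval, Ff_zero, Gf_zero, eval_zero, ← h.c4,
    ← h.c6] at e0
  have := (cv W).c_relation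
  rw [e0] at this
  rcases mul_eq_zero.1 this with h | h
  · norm_num at h
  · exact cv_Δ_ne hΔ h

/-- independence of the chosen point. -/
lemma indep {W : WeierstrassCurve ℤ} (hΔ : W.Δ ≠ 0) {f z x y : Qb} (h : Lev (cv W) f z x y)
    {R : (cv W).Point} {A B : Qb} (hR : IsTate (cv W) R A B) :
    P4 A B = P4 (A0 f x y) (B0 f x y) ∧ P6 A B = P6 (A0 f x y) (B0 f x y) := by
  have hD := P_disc_ne hΔ h
  constructor
  · have : (P4 A B - P4 (A0 f x y) (B0 f x y)) *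
        (P4 (A0 f x y) (B0 f x y) ^ 3 - P6 (A0 f x y) (B0 f x y) ^ 2) = 0 := by
      apply Polynomial.funext
      intro t
      rw [eval_mul, eval_zero, eval_sub, eval_sub, eval_pow, eval_pow]
      by_cases e : (P4 (A0 f x y) (B0 f x y)).eval t ^ 3 = (P6 (A0 f x y) (B0 f x y)).eval t ^ 2
      · rw [e, sub_self, mul_zero]
      · rw [(indep_pt hΔ h hR t e).1, sub_self, zero_mul]
    exact sub_eq_zero.1 ((mul_eq_zero.1 this).resolve_right hD)
  · have : (P6 A B - P6 (A0 f x y) (B0 f x y)) *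
        (P4 (A0 f x y) (B0 f x y) ^ 3 - P6 (A0 f x y) (B0 f x y) ^ 2) = 0 := by
      apply Polynomial.funext
      intro t
      rw [eval_mul, eval_zero, eval_sub, eval_sub, eval_pow, eval_pow]
      by_cases e : (P4 (A0 f x y) (B0 f x y)).eval t ^ 3 = (P6 (A0 f x y) (B0 f x y)).eval t ^ 2
      · rw [e, sub_self, mul_zero]
      · rw [(indep_pt hΔ h hR t e).2, sub_self, zero_mul]
    exact sub_eq_zero.1 ((mul_eq_zero.1 this).resolve_right hD)

lemma exists_rat_poly (p : Qb[X]) (h : ∀ σ : Qb ≃ₐ[ℚ] Qb, p.map (σ : Qb →+* Qb) = p) :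
    ∃ q : ℚ[X], q.map (algebraMap ℚ Qb) = p := by
  have : p ∈ Polynomial.lifts (algebraMap ℚ Qb) := by
    rw [Polynomial.lifts_iff_coeff_lifts]
    intro n
    obtain ⟨r, hr⟩ := X015.exists_rat_of_fixed (p.coeff n) (fun σ => by
      have := congrArg (fun q : Qb[X] => q.coeff n) (h σ)
      simpa [coeff_map] using this)
    exact ⟨r, hr.symm⟩
  rw [Polynomial.mem_lifts] at this
  exact this

/-- the family is defined over `ℚ`. -/
theorem exists_rat_family {W : WeierstrassCurve ℤ} (hΔ : W.Δ ≠ 0) {f z x y : Qb}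
    (h : Lev (cv W) f z x y) : ∃ p4 p6 : ℚ[X], p4.map (algebraMap ℚ Qb) =
      P4 (A0 f x y) (B0 f x y) ∧ p6.map (algebraMap ℚ Qb) = P6 (A0 f x y) (B0 f x y) := by
  have d := cv_Δ_ne hΔ
  have hP := h.isTate d
  obtain ⟨p4, h4⟩ := exists_rat_poly (P4 (A0 f x y) (B0 f x y)) (fun σ => by
    rw [P4_map]
    exact (indep hΔ h (isTate_smul σ hP)).1)
  obtain ⟨p6, h6⟩ := exists_rat_poly (P6 (A0 f x y) (B0 f x y)) (fun σ => by
    rw [P6_map]
    exact (indep hΔ h (isTate_smul σ hP)).2)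
  exact ⟨p4, p6, h4, h6⟩

lemma common_zero {K : Type*} [Field K] [CharZero K] {A B : K} (h4 : c4f A B = 0)
    (h6 : c6f A B = 0) : A = 0 ∧ B = 0 := by
  have hd := disc_f A B
  rw [h4, h6] at hd
  have key : A = 0 ∨ B = 0 := by
    have h5 : (1728 : K) * (A ^ 5 * B ^ 5 * (B ^ 2 - 11 * A * B - A ^ 2)) = 0 := by
      rw [← hd]; ring
    rcases mul_eq_zero.1 h5 with e | e
    · norm_num at e
    rcases mul_eq_zero.1 e with e | e
    · rcases mul_eq_zero.1 e with e | e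
      · exact Or.inl (pow_eq_zero_iff (by norm_num)|>.1 e)
      · exact Or.inr (pow_eq_zero_iff (by norm_num)|>.1 e)
    · have : (5 : K) * (A ^ 2 * B ^ 2) = 0 := by
        unfold c4f at h4
        linear_combination h4 - (B ^ 2 - A * B - A ^ 2) * e
      rcases mul_eq_zero.1 this with e | e
      · norm_num at e
      rcases mul_eq_zero.1 e with e | e
      · exact Or.inl (pow_eq_zero_iff (by norm_num)|>.1 e)
      · exact Or.inr (pow_eq_zero_iff (by norm_num)|>.1 e)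
  unfold c4f at h4
  rcases key with rfl | rfl
  · refine ⟨rfl, ?_⟩
    have : B ^ 4 = 0 := by linear_combination h4
    exact pow_eq_zero_iff (by norm_num)|>.1 this
  · refine ⟨?_, rfl⟩
    have : A ^ 4 = 0 := by linear_combination h4
    exact pow_eq_zero_iff (by norm_num)|>.1 this

/-- the moved vector does not vanish -/
lemma U_ne {f z x y t : Qb} (hc : Cst f z) (hx : x ≠ 0) (hy : y ≠ 0) (hh : h10 x y ≠ 0)
    (h1 : Ux f t x y = 0) (h2 : Uy f t x y = 0) : False := by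
  unfold Ux at h1
  unfold Uy at h2
  have e1 := (mul_eq_zero.1 h1).resolve_left hx
  have e2 := (mul_eq_zero.1 h2).resolve_left hy
  have e3 : t * kp f * (12 * h10 x y) = 0 := by
    unfold al at e1
    unfold be at e2
    unfold h10
    linear_combination e2 - e1
  rcases mul_eq_zero.1 e3 with e | e
  · rw [e] at e1
    norm_num at e1
  · exact (mul_ne_zero (by norm_num) hh) e

/-- `c₄` and `c₆` are coprime along the family. -/
theorem coprime {W : WeierstrassCurve ℤ} (hΔ : W.Δ ≠ 0) {f z x y : Qb}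
    (h : Lev (cv W) f z x y) {p4 p6 : ℚ[X]} (h4 : p4.map (algebraMap ℚ Qb) =
      P4 (A0 f x y) (B0 f x y)) (h6 : p6.map (algebraMap ℚ Qb) = P6 (A0 f x y) (B0 f x y)) :
    IsCoprime p4 p6 := by
  have d := cv_Δ_ne hΔ
  obtain ⟨hx, hy, hh⟩ := h.ne d
  rw [isCoprime_iff_aeval_ne_zero_of_isAlgClosed ℚ Qb]
  intro t
  by_contra hcon
  push Not at hcon
  obtain ⟨a, b⟩ := hcon
  rw [← eval_map_algebraMap, h4, P4_eval] at a
  rw [← eval_map_algebraMap, h6, P6_eval] at b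
  rw [F_U h.cst.hf, G_U h.cst.hf] at a b
  obtain ⟨e1, e2⟩ := common_zero a b
  have hq := h.cst.q2_ne
  unfold A0 at e1
  unfold B0 at e2
  have u1 : (1 + (5 * f + 3) ^ 2) * Ux f t x y ^ 5 = 0 := by
    linear_combination e1 + (5 * f + 3) * e2
  have u2 : (1 + (5 * f + 3) ^ 2) * Uy f t x y ^ 5 = 0 := by
    linear_combination (5 * f + 3) * e1 - e2
  exact U_ne h.cst hx hy hh
    (pow_eq_zero_iff (by norm_num)|>.1 ((mul_eq_zero.1 u1).resolve_left hq))
    (pow_eq_zero_iff (by norm_num)|>.1 ((mul_eq_zero.1 u2).resolve_left hq))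

end Fermat.Agent.Sw35
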