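import Fermat.Agent.Sw35.Iso

set_option autoImplicit false

open WeierstrassCurve WeierstrassCurve.Affine

namespace Fermat.Agent.Sw35

variable {K : Type*} [Field K] [CharZero K]

/-- `R` and `R'` correspond under the isomorphism of the five-torsion. -/
def Good (W W' : WeierstrassCurve.Affine K) (t : K) (R : W.Point) (R' : W'.Point) : Prop :=
  ∃ A B, IsTate W R A B ∧ IsTate W' R' (Ff A B t) (Gf A B t)

variable {W W' : WeierstrassCurve.Affine K} {t : K}

lemma Good.unique (hΔ : W.Δ ≠ 0) {R : W.Point} {R' R'' : W'.Point} (h : Good W W' t R R')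
    (h' : Good W W' t R R'') : R' = R'' := by
  obtain ⟨A, B, h1, h2⟩ := h
  obtain ⟨A', B', h1', h2'⟩ := h'
  obtain ⟨rfl, rfl⟩ := h1.params hΔ h1'
  exact h2.unique h2'

variable [DecidableEq K]

lemma Good.neg {R : W.Point} {R' : W'.Point} (h : Good W W' t R R') :
    Good W W' t (-R) (-R') := by
  obtain ⟨A, B, h1, h2⟩ := h
  refine ⟨-A, -B, h1.neg, ?_⟩
  rw [Ff_neg, Gf_neg]
  exact h2.neg

lemma Good.dbl (hΔ : W.Δ ≠ 0) (hΔ' : W'.Δ ≠ 0) {R : W.Point} {R' : W'.Point}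
    (h : Good W W' t R R') : Good W W' t (R + R) (R' + R') := by
  obtain ⟨A, B, h1, h2⟩ := h
  refine ⟨B, -A, h1.two hΔ, ?_⟩
  rw [Ff_swap, Gf_swap]
  exact h2.two hΔ'

lemma Good.five (hΔ : W.Δ ≠ 0) {R : W.Point} {R' : W'.Point}
    (h : Good W W' t R R') : (5 : ℕ) • R = 0 := by
  obtain ⟨A, B, h1, h2⟩ := h
  exact h1.five hΔ

lemma Good.five' (hΔ' : W'.Δ ≠ 0) {R : W.Point} {R' : W'.Point}
    (h : Good W W' t R R') : (5 : ℕ) • R' = 0 := by
  obtain ⟨A, B, h1, h2⟩ := h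
  exact h2.five hΔ'

lemma smul_mod {G : Type*} [AddCommGroup G] {R : G} (h5 : (5 : ℕ) • R = 0) (k : ℤ) :
    k • R = (k % 5) • R := by
  conv_lhs => rw [← Int.mul_ediv_add_emod k 5]
  have : (5 : ℤ) • R = 0 := by rw [← h5]; norm_cast
  rw [add_smul, mul_comm, mul_smul, this, smul_zero, zero_add]

lemma Good.zsmul (hΔ : W.Δ ≠ 0) (hΔ' : W'.Δ ≠ 0) {R : W.Point} {R' : W'.Point}
    (h : Good W W' t R R') {k : ℤ} (hk : ¬ (5 : ℤ) ∣ k) : Good W W' t (k • R) (k • R') := by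
  have h5 := h.five hΔ
  have h5' := h.five' hΔ'
  rw [smul_mod h5, smul_mod h5']
  have h0 : 0 ≤ k % 5 := Int.emod_nonneg k (by norm_num)
  have h1 : k % 5 < 5 := Int.emod_lt_of_pos k (by norm_num)
  have h2 : k % 5 ≠ 0 := fun e => hk (Int.dvd_of_emod_eq_zero e)
  have hR : (2 : ℤ) • R = R + R := by rw [two_smul]
  have hR' : (2 : ℤ) • R' = R' + R' := by rw [two_smul]
  have d5 : (5 : ℤ) • R = 0 := by rw [← h5]; norm_cast
  have d5' : (5 : ℤ) • R' = 0 := by rw [← h5']; norm_cast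
  have hd := h.dbl hΔ hΔ'
  generalize k % 5 = m at h0 h1 h2
  interval_cases m
  · exact absurd rfl h2
  · rw [one_smul, one_smul]; exact h
  · rw [hR, hR']; exact hd
  · have e : (3 : ℤ) • R = -(R + R) := by
      apply eq_neg_of_add_eq_zero_left
      rw [← hR, ← add_smul]; exact d5
    have e' : (3 : ℤ) • R' = -(R' + R') := by
      apply eq_neg_of_add_eq_zero_left
      rw [← hR', ← add_smul]; exact d5'
    rw [e, e']
    exact hd.neg
  · have e : (4 : ℤ) • R = -R := by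
      apply eq_neg_of_add_eq_zero_left
      nth_rewrite 2 [← one_smul ℤ R]
      rw [← add_smul]; exact d5
    have e' : (4 : ℤ) • R' = -R' := by
      apply eq_neg_of_add_eq_zero_left
      nth_rewrite 2 [← one_smul ℤ R']
      rw [← add_smul]; exact d5'
    rw [e, e']
    exact h.neg

/-- Level structures on `W` and `W'` related by the covariant. -/
structure Pair (W W' : WeierstrassCurve.Affine K) (f z x y t : K) : Prop where
  L : Lev W f z x y
  L' : Lev W' f z (Ux f t x y) (Uy f t x y)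

variable {f z x y : K}

omit [DecidableEq K] in
lemma Pair.S (h : Pair W W' f z x y t) : Pair W W' f z (Sx f z x y) (Sy f z x y) t := by
  refine ⟨h.L.S, ?_⟩
  rw [S_Ux h.L.cst.hf h.L.cst.hz, S_Uy h.L.cst.hf h.L.cst.hz]
  exact h.L'.S

omit [DecidableEq K] in
lemma Pair.T (h : Pair W W' f z x y t) {c d : K} (hc : c ^ 5 = 1) (hd : d ^ 5 = 1) :
    Pair W W' f z (c * x) (d * y) t := by
  refine ⟨h.L.T hc hd, ?_⟩
  rw [Ux_T hc hd, Uy_T hc hd]
  exact h.L'.T hc hd

/-- the first point of the pair -/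
noncomputable def p1 (W : WeierstrassCurve.Affine K) (f x y : K) : W.Point := pv W f x y

lemma Pair.good (h : Pair W W' f z x y t) (hΔ : W.Δ ≠ 0) (hΔ' : W'.Δ ≠ 0) :
    Good W W' t (pv W f x y) (pv W' f (Ux f t x y) (Uy f t x y)) := by
  refine ⟨A0 f x y, B0 f x y, h.L.isTate hΔ, ?_⟩
  rw [F_U h.L.cst.hf, G_U h.L.cst.hf]
  exact h.L'.isTate hΔ'

/-- the iterates of the chord relation -/
lemma Lev.seq (h : Lev W f z x y) (hΔ : W.Δ ≠ 0) (m : ℕ) :
    pv W f (Sx f z (z ^ (3 * m) * x) (z ^ (2 * m) * y)) (Sy f z (z ^ (3 * m) * x)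
      (z ^ (2 * m) * y)) = m • pv W f x y + pv W f (Sx f z x y) (Sy f z x y) := by
  have z5 := h.cst.z5
  have cc (n : ℕ) : (z ^ n) ^ 5 = 1 := by rw [← pow_mul, mul_comm, pow_mul, z5, one_pow]
  induction m with
  | zero => simp
  | succ m ih =>
    have h' := h.T (cc (3 * m)) (cc (2 * m))
    have := h'.chord hΔ
    rw [pv_T (cc _) (cc _), ih] at this
    have e1 : z ^ 3 * (z ^ (3 * m) * x) = z ^ (3 * (m + 1)) * x := by ring
    have e2 : z ^ 2 * (z ^ (2 * m) * y) = z ^ (2 * (m + 1)) * y := by ring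
    rw [e1, e2] at this
    rw [this, add_smul, one_smul]
    abel

/-- A basis of the five torsion, with the corresponding basis on the other curve. -/
theorem Pair.exists_basis (h : Pair W W' f z x y t) (hΔ : W.Δ ≠ 0) (hΔ' : W'.Δ ≠ 0) :
    ∃ (P Q : W.Point) (P' Q' : W'.Point), (5 : ℕ) • P = 0 ∧ (5 : ℕ) • Q = 0 ∧
      (5 : ℕ) • P' = 0 ∧ (5 : ℕ) • Q' = 0 ∧
      (∀ j k : ℤ, ¬ ((5 : ℤ) ∣ j ∧ (5 : ℤ) ∣ k) →
        Good W W' t (j • P + k • Q) (j • P' + k • Q')) := by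
  have z5 := h.L.cst.z5
  have cc (n : ℕ) : (z ^ n) ^ 5 = 1 := by rw [← pow_mul, mul_comm, pow_mul, z5, one_pow]
  have g0 := h.good hΔ hΔ'
  have g1 := h.S.good hΔ hΔ'
  set P := pv W f x y
  set Q := pv W f (Sx f z x y) (Sy f z x y)
  set P' := pv W' f (Ux f t x y) (Uy f t x y)
  have eS : pv W' f (Ux f t (Sx f z x y) (Sy f z x y)) (Uy f t (Sx f z x y) (Sy f z x y)) =
      pv W' f (Sx f z (Ux f t x y) (Uy f t x y)) (Sy f z (Ux f t x y) (Uy f t x y)) := by
    rw [S_Ux h.L.cst.hf h.L.cst.hz, S_Uy h.L.cst.hf h.L.cst.hz]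
  rw [eS] at g1
  set Q' := pv W' f (Sx f z (Ux f t x y) (Uy f t x y)) (Sy f z (Ux f t x y) (Uy f t x y))
  refine ⟨P, Q, P', Q', g0.five hΔ, g1.five hΔ, g0.five' hΔ', g1.five' hΔ', ?_⟩
  have hm (m : ℕ) : Good W W' t (m • P + Q) (m • P' + Q') := by
    have hT := (h.T (cc (3 * m)) (cc (2 * m))).S
    have g := hT.good hΔ hΔ'
    rw [h.L.seq hΔ m, S_Ux h.L.cst.hf h.L.cst.hz, S_Uy h.L.cst.hf h.L.cst.hz,
      Ux_T (cc _) (cc _), Uy_T (cc _) (cc _), h.L'.seq hΔ' m] at g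
    exact g
  intro j k hjk
  by_cases hk : (5 : ℤ) ∣ k
  · have hj : ¬ (5 : ℤ) ∣ j := fun hj => hjk ⟨hj, hk⟩
    rw [smul_mod (g1.five hΔ) k, smul_mod (g1.five' hΔ') k, Int.emod_eq_zero_of_dvd hk, zero_smul,
      zero_smul, add_zero, add_zero]
    exact g0.zsmul hΔ hΔ' hj
  · -- inverse of k modulo 5
    have hcop : IsCoprime k 5 := by
      rw [Int.isCoprime_iff_gcd_eq_one, Int.gcd_comm]
      have hp : Nat.Prime 5 := by norm_num
      have : ¬ 5 ∣ k.natAbs := fun hh => hk (Int.natCast_dvd.2 hh)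
      exact (Nat.Prime.coprime_iff_not_dvd hp).2 this
    obtain ⟨u, v, huv⟩ := hcop
    set m : ℕ := ((u * j) % 5).toNat with hmdef
    have hmz : (m : ℤ) = (u * j) % 5 := Int.toNat_of_nonneg (Int.emod_nonneg _ (by norm_num))
    have hdiv : (5 : ℤ) ∣ k * m - j := by
      have e1 : k * m - j = k * ((u * j) % 5 - u * j) - j * (5 * v) := by
        rw [hmz]
        have : k * u = 1 - v * 5 := by linear_combination huv
        linear_combination j * this
      rw [e1]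
      apply dvd_sub
      · apply Dvd.dvd.mul_left
        have := Int.emod_emod_of_dvd (u * j) (dvd_refl (5 : ℤ))
        exact Int.dvd_of_emod_eq_zero (by omega)
      · exact Dvd.dvd.mul_left (dvd_mul_right 5 v) j
    have key {G : Type _} [AddCommGroup G] {P Q : G} (h5 : (5 : ℕ) • P = 0) :
        j • P + k • Q = k • (m • P + Q) := by
      rw [smul_add, ← natCast_zsmul, ← mul_smul]
      congr 1
      rw [smul_mod h5 j, smul_mod h5 (k * m)]
      congr 1
      obtain ⟨c, hc⟩ := hdiv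
      have : k * (m : ℤ) = j + 5 * c := by linarith
      rw [this, Int.add_mul_emod_self_left]
    rw [key (g0.five hΔ), key (g0.five' hΔ')]
    exact (hm m).zsmul hΔ hΔ' hk

end Fermat.Agent.Sw35
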