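import Fermat.Agent.Sw35.Trace
import Fermat.Agent.CondLev.Node
import Fermat.Agent.ECRed.Unram
import Fermat.Agent.GalRep.Cyclo
import Fermat.Agent.FU.Grp

set_option autoImplicit false
set_option maxHeartbeats 400000

/-!
# Inertia at 3
-/

open WeierstrassCurve WeierstrassCurve.Affine WeierstrassCurve.Affine.Point

namespace Fermat.Agent.Sw35

open Fermat.Agent.ECRed Fermat.Agent.ECFrob Fermat.Agent.CondLev Fermat.Agent.GalRep

attribute [local instance] Fermat.Agent.Frob.isAlgebraic_Qbar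

variable {W : WeierstrassCurve ℤ} {A : ValuationSubring Qb}

lemma p3 : Nat.Prime 3 := by norm_num

/-- fifth powers in inertia at 3 fix the five torsion of a semistable curve -/
theorem fixed_five (hΔ : W.Δ ≠ 0) (h3 : (3 : ℤ) ∣ W.Δ → ¬ (3 : ℤ) ∣ W.c₄)
    (hA : A.LiesOverPrime 3) {i : Qb ≃ₐ[ℚ] Qb} (hi : i ∈ A.inertiaSubgroupIn ℚ)
    {P : (cv W).Point} (hP : (5 : ℕ) • P = 0) : (i ^ 5) • P = P := by
  have hq : Nat.Prime 3 := p3
  set v := ordFnAt A hq hA with hv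
  set σ := i ^ 5 with hσd
  have hσ' : σ ∈ A.inertiaSubgroupIn ℚ := pow_mem hi 5
  have hσ : ∀ z, v.Ge 0 z → v.Gt 0 (σ z - z) := fun z hz =>
    (ordFnAt_gt A hq hA _).2 (inertia_sub A hσ' ((ordFnAt_ge A hq hA z).1 hz))
  have h2 : v.Eq 0 (2 : Qb) := by
    have := nat_unit hq hA (n := 2) (by norm_num)
    simpa using this
  have h5 : v.Eq 0 ((5 : ℕ) : Qb) := nat_unit hq hA (by norm_num)
  let κ₀ := KummerLine.ofCurve ((W.map (Int.castRingHom ℚ))⁄Qb)
  have hb2 : κ₀.b₂ = ((W.b₂ : ℤ) : Qb) := by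
    change (WQ W).b₂ = _
    simp [WQ]
  have hb4 : κ₀.b₄ = ((W.b₄ : ℤ) : Qb) := by
    change (WQ W).b₄ = _
    simp [WQ]
  have hb6 : κ₀.b₆ = ((W.b₆ : ℤ) : Qb) := by
    change (WQ W).b₆ = _
    simp [WQ]
  have hb8 : κ₀.b₈ = ((W.b₈ : ℤ) : Qb) := by
    change (WQ W).b₈ = _
    simp [WQ]
  have hdisc : κ₀.disc = ((W.Δ : ℤ) : Qb) := by
    rw [KummerLine.disc, hb2, hb4, hb6, hb8, WeierstrassCurve.Δ]
    push_cast
    ring
  have unit_int {n : ℤ} (hn : ¬ (3 : ℤ) ∣ n) : v.Eq 0 (n : Qb) := by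
    have hn0 : n ≠ 0 := fun h => hn (h ▸ dvd_zero _)
    have h0 : ((n : ℤ) : Qb) ≠ 0 := by exact_mod_cast hn0
    have h1 : v.Ge 0 ((n : ℤ) : Qb) := OrdFn.ge_intCast _
    have h2 : ¬ v.Gt 0 ((n : ℤ) : Qb) := by
      intro h
      have h3 := (ordFnAt_gt A hq hA _).1 h
      rw [ValuationSubring.mem_nonunits_iff] at h3
      rw [val_int_of_coprime A hq hA hn] at h3
      exact lt_irrefl _ h3
    rw [OrdFn.not_gt_iff] at h2
    rw [OrdFn.ge_iff h0] at h1
    exact ⟨h0, le_antisymm h2.2 h1⟩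
  by_cases hd : (3 : ℤ) ∣ W.Δ
  · have hqc := h3 hd
    have hc4 : W.c₄ ≠ 0 := fun h => hqc (h ▸ dvd_zero _)
    let r : ℚ := (18 * (W.b₆ : ℚ) - W.b₂ * W.b₄) / (W.c₄ : ℚ)
    have hc : κ₀.b₂ ^ 2 - 24 * κ₀.b₄ = ((W.c₄ : ℤ) : Qb) := by
      rw [hb2, hb4, WeierstrassCurve.c₄]
      push_cast
      ring
    have hnode : nodeX κ₀ = algebraMap ℚ Qb r := by
      rw [nodeX, hc, hb2, hb4, hb6]
      simp only [r, map_div₀, map_sub, map_mul, map_ofNat, map_intCast]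
    have hvc : v.Eq 0 (κ₀.b₂ ^ 2 - 24 * κ₀.b₄) := by
      rw [hc]; exact unit_int hqc
    have hΔ0 : ((W.Δ : ℤ) : Qb) ≠ 0 := by exact_mod_cast hΔ
    have hvΔ : v.Gt 0 ((W.Δ : ℤ) : Qb) := by
      obtain ⟨z, hz⟩ := hd
      rw [hz, Int.cast_mul]
      have h1 : v.Gt 0 (((3 : ℤ) : ℤ) : Qb) := by
        rw [show ((3 : ℤ) : Qb) = ((3 : ℕ) : Qb) by norm_num]
        exact (ordFnAt_gt A hq hA _).2 hA
      have h2 : v.Ge 0 ((z : ℤ) : Qb) := OrdFn.ge_intCast _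
      simpa using h1.mul_ge h2
    obtain ⟨m, hm, hm'⟩ : ∃ m : ℝ, 0 < m ∧ v.Eq (2 * m) κ₀.disc := by
      refine ⟨v.ord ((W.Δ : ℤ) : Qb) / 2, ?_, ?_⟩
      · rw [OrdFn.gt_iff hΔ0] at hvΔ
        linarith
      · rw [hdisc]
        exact ⟨hΔ0, by ring⟩
    have hmult : (κ₀.translate (nodeX κ₀)).MultAt v m :=
      multAt_node (integralK (W := W) hq hA) hm hvc hm'
    rw [hnode] at hmult
    -- the fifth root of the discriminant
    obtain ⟨r₁, hr₁⟩ := IsAlgClosed.exists_pow_nat_eq ((W.Δ : ℤ) : Qb) (n := 5) (by norm_num)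
    have hr0 : r₁ ≠ 0 := by
      rintro rfl
      apply hΔ0
      rw [← hr₁]; ring
    have hζ : (i r₁ / r₁) ^ 5 = 1 := by
      rw [div_pow, ← map_pow, hr₁, map_intCast, div_self hΔ0]
    have hζf : i (i r₁ / r₁) = i r₁ / r₁ := inertia_rootOfUnity hq hA hi (by norm_num) hζ
    set ζ := i r₁ / r₁ with hζd
    have hir : i r₁ = ζ * r₁ := by rw [hζd, div_mul_cancel₀ _ hr0]
    have hpow (n : ℕ) : (i ^ n) r₁ = ζ ^ n * r₁ := by
      induction n with
      | zero => simp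
      | succ n ih =>
        rw [pow_succ', AlgEquiv.mul_apply, ih, map_mul, map_pow, hζf, hir]
        ring
    have hfix : σ r₁ = r₁ := by rw [hσd, hpow 5, hζ, one_mul]
    have hρ : v.Eq (2 * m / 5) r₁ := by
      refine ⟨hr0, ?_⟩
      have h1 := hm'.2
      rw [hdisc, ← hr₁, OrdFn.ord_pow hr0] at h1
      push_cast at h1
      linarith
    exact fixed_of_mult (W := W.map (Int.castRingHom ℚ)) (v := v) r hmult hσ h2 h5
      (by decide) hfix hρ (by push_cast; ring) hP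
  · exact fixed_of_good (W := W.map (Int.castRingHom ℚ)) (v := v) (integralK (W := W) hq hA)
      (by rw [show (KummerLine.ofCurve ((W.map (Int.castRingHom ℚ))⁄Qb)).disc =
            ((W.Δ : ℤ) : Qb) from hdisc]; exact unit_int hd) hσ h2 h5 (by decide) hP

/-- twenty-fifth powers of inertia at 3 fix the level structure -/
theorem fixed_lev (hΔ : W.Δ ≠ 0) (h3 : (3 : ℤ) ∣ W.Δ → ¬ (3 : ℤ) ∣ W.c₄)
    (hA : A.LiesOverPrime 3) {i : Qb ≃ₐ[ℚ] Qb} (hi : i ∈ A.inertiaSubgroupIn ℚ) {f z x y : Qb}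
    (h : Lev (cv W) f z x y) :
    (i ^ 25) z = z ∧ (i ^ 25) f = f ∧ (i ^ 25) x = x ∧ (i ^ 25) y = y := by
  have hq : Nat.Prime 3 := p3
  have d := cv_Δ_ne hΔ
  obtain ⟨hx, hy, hh⟩ := h.ne d
  have hmem (n : ℕ) : i ^ n ∈ A.inertiaSubgroupIn ℚ := pow_mem hi n
  have hroot {ζ : Qb} (hζ : ζ ^ 5 = 1) (n : ℕ) : (i ^ n) ζ = ζ :=
    inertia_rootOfUnity hq hA (hmem n) (by norm_num) hζ
  have z5 := h.cst.z5
  have hf (n : ℕ) : (i ^ n) f = f := by
    have e : f = 1 + z + z ^ 4 := by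
      have hz0 : z ≠ 0 := by
        rintro rfl
        norm_num at z5
      apply mul_left_cancel₀ hz0
      linear_combination -h.cst.hz - z5
    rw [e, map_add, map_add, map_one, map_pow, hroot z5]
  -- the Tate parameters are fixed by `i ^ 5`
  have hP := h.isTate d
  have h1 := isTate_smul (i ^ 5) hP
  rw [fixed_five hΔ h3 hA hi (hP.five d)] at h1
  obtain ⟨eA, eB⟩ := h1.params d hP
  have hq2 := h.cst.q2_ne'
  have hx5 : (i ^ 5) (x ^ 5) = x ^ 5 := by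
    have e : (1 + (5 * f + 3) ^ 2) * x ^ 5 = A0 f x y + (5 * f + 3) * B0 f x y := by
      unfold A0 B0; ring
    have e' := congrArg (fun w => (i ^ 5) w) e
    simp only [map_mul, map_add, map_one, map_pow, map_ofNat, hf, eA, eB] at e'
    rw [← e, ← map_pow] at e'
    exact mul_left_cancel₀ hq2 e'
  have hy5 : (i ^ 5) (y ^ 5) = y ^ 5 := by
    have e : (1 + (5 * f + 3) ^ 2) * y ^ 5 = (5 * f + 3) * A0 f x y - B0 f x y := by
      unfold A0 B0; ring
    have e' := congrArg (fun w => (i ^ 5) w) e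
    simp only [map_mul, map_add, map_sub, map_one, map_pow, map_ofNat, hf, eA, eB] at e'
    rw [← e, ← map_pow] at e'
    exact mul_left_cancel₀ hq2 e'
  have key {w : Qb} (hw : w ≠ 0) (h5 : (i ^ 5) (w ^ 5) = w ^ 5) : (i ^ 25) w = w := by
    have hζ : ((i ^ 5) w / w) ^ 5 = 1 := by
      rw [div_pow, ← map_pow, h5, div_self (pow_ne_zero 5 hw)]
    set ζ := (i ^ 5) w / w with hζd
    have hir : (i ^ 5) w = ζ * w := by rw [hζd, div_mul_cancel₀ _ hw]
    have hpow (n : ℕ) : ((i ^ 5) ^ n) w = ζ ^ n * w := by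
      induction n with
      | zero => simp
      | succ n ih =>
        rw [pow_succ', AlgEquiv.mul_apply, ih, map_mul, map_pow, hroot hζ, hir]
        ring
    rw [show (25 : ℕ) = 5 * 5 from rfl, pow_mul, hpow 5, hζ, one_mul]
  exact ⟨hroot z5 25, hf 25, key hx hx5, key hy hy5⟩

/-- an inertia element at 3 moving `√3` -/
theorem exists_inertia (s : Qb) (hs : s ^ 2 = 3) : ∃ A : ValuationSubring Qb, A.LiesOverPrime 3 ∧
    ∃ i ∈ A.inertiaSubgroupIn ℚ, i s = -s := by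
  obtain ⟨A, hA, -⟩ := Fermat.Agent.Frob.exists_place_frobenius p3
  refine ⟨A, hA, ?_⟩
  by_contra hcon
  push Not at hcon
  have hs0 : s ≠ 0 := by rintro rfl; norm_num at hs
  have hfix : ∀ σ ∈ A.inertiaSubgroupIn ℚ, σ s = s := by
    intro σ hσ
    have h1 : (σ s - s) * (σ s + s) = 0 := by
      have := congrArg σ hs
      rw [map_pow, map_ofNat] at this
      linear_combination this - hs
    rcases mul_eq_zero.1 h1 with e | e
    · exact sub_eq_zero.1 e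
    · exact absurd (eq_neg_of_add_eq_zero_left e) (hcon σ hσ)
  obtain ⟨n, hn⟩ := FU.ord_int p3 hA hs0 hfix
  have h3 : (ordFnAt A p3 hA).ord ((3 : ℕ) : Qb) = 1 := by
    have := ordAt_eq A p3 hA (x := ((3 : ℕ) : Qb)) (by norm_num) (e := 1) one_pos (f := 1) (by simp)
    rw [Nat.cast_one, Int.cast_one, div_one] at this
    exact this
  have h4 : (2 : ℝ) * n = 1 := by
    have h5 := OrdFn.ord_pow (v := ordFnAt A p3 hA) hs0 2
    rw [hs, show (3 : Qb) = ((3 : ℕ) : Qb) by norm_num, h3, hn] at h5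
    push_cast at h5
    exact h5.symm
  have h5 : (2 : ℤ) * n = 1 := by exact_mod_cast h4
  omega

end Fermat.Agent.Sw35
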