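import Fermat.Agent.Sw35.Klein2

set_option autoImplicit false

open WeierstrassCurve WeierstrassCurve.Affine

namespace Fermat.Agent.Sw35

variable {K : Type*} [Field K] [CharZero K]

/-- `z` and `f`: fifth root of unity and golden ratio. -/
structure Cst (f z : K) : Prop where
  hf : f ^ 2 = f + 1
  hz : z ^ 2 = (f - 1) * z - 1

variable {f z : K}

lemma Cst.z5 (h : Cst f z) : z ^ 5 = 1 := by
  have hf := h.hf
  have hz := h.hz
  linear_combination (z * f ^ 2 - 3 * z * f + z - f + 2) * hf + (z ^ 3 + z ^ 2 * f - z ^ 2 +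
    z * f ^ 2 - 2 * z * f + f ^ 3 - 3 * f ^ 2 + f + 1) * hz

lemma Cst.two_f (h : Cst f z) : (2 * f - 1) ^ 2 = 5 := by linear_combination 4 * h.hf

lemma Cst.kp_ne (h : Cst f z) : kp f ≠ 0 := by
  intro e
  have h1 : (18 - 11 * f) * kp f = -5 := by
    unfold kp; linear_combination 121 * h.hf
  rw [e, mul_zero] at h1
  norm_num at h1

lemma Cst.q_ne (h : Cst f z) : (5 * f + 3) ≠ 0 := by
  intro e
  have h1 : (8 - 5 * f) * (5 * f + 3) = -1 := by linear_combination -25 * h.hf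
  rw [e, mul_zero] at h1
  norm_num at h1

lemma Cst.q_ne' (h : Cst f z) : (625 * f + 375) ≠ 0 := by
  intro e
  apply h.q_ne
  have : (125 : K) * (5 * f + 3) = 0 := by linear_combination e
  rcases mul_eq_zero.1 this with h | h
  · norm_num at h
  · exact h

lemma Cst.q2_ne' (h : Cst f z) : 1 + (5 * f + 3) ^ 2 ≠ 0 := by
  have e : 1 + (5 * f + 3) ^ 2 = -5 * kp f := by unfold kp; linear_combination 25 * h.hf
  rw [e]
  exact mul_ne_zero (by norm_num) h.kp_ne

/-- `v = (x, y)` is a level structure on `W`. -/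
structure Lev (W : WeierstrassCurve.Affine K) (f z x y : K) : Prop where
  cst : Cst f z
  c4 : W.c₄ = c4f (A0 f x y) (B0 f x y)
  c6 : W.c₆ = c6f (A0 f x y) (B0 f x y)

variable {W : WeierstrassCurve.Affine K} {x y : K}

lemma Lev.disc (h : Lev W f z x y) :
    W.Δ = -((5 * f + 3) ^ 5 * (625 * f + 375) * h10 x y ^ 5 * (x * y) ^ 5) := by
  have h1 := disc_f (A0 f x y) (B0 f x y)
  rw [← h.c4, ← h.c6] at h1
  have h2 := W.c_relation
  have h3 := A0B0 h.cst.hf x y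
  have h4 := B0sq h.cst.hf x y
  have e1 : W.Δ = A0 f x y ^ 5 * B0 f x y ^ 5 *
      (B0 f x y ^ 2 - 11 * A0 f x y * B0 f x y - A0 f x y ^ 2) := by
    have : (1728 : K) * (W.Δ - A0 f x y ^ 5 * B0 f x y ^ 5 *
      (B0 f x y ^ 2 - 11 * A0 f x y * B0 f x y - A0 f x y ^ 2)) = 0 := by
      linear_combination h2 + h1
    rcases mul_eq_zero.1 this with h | h
    · norm_num at h
    · exact sub_eq_zero.1 h
  rw [e1, h4, ← mul_pow, h3]
  ring

lemma Lev.ne (h : Lev W f z x y) (hΔ : W.Δ ≠ 0) : x ≠ 0 ∧ y ≠ 0 ∧ h10 x y ≠ 0 := by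
  rw [h.disc] at hΔ
  refine ⟨?_, ?_, ?_⟩
  · rintro rfl; exact hΔ (by ring)
  · rintro rfl; exact hΔ (by ring)
  · intro e; rw [e] at hΔ; exact hΔ (by ring)

lemma Lev.S (h : Lev W f z x y) : Lev W f z (Sx f z x y) (Sy f z x y) := by
  refine ⟨h.cst, ?_, ?_⟩
  · rw [A0_S h.cst.hf h.cst.hz, B0_S h.cst.hf h.cst.hz, c4_Q h.cst.hf h.cst.hz]; exact h.c4
  · rw [A0_S h.cst.hf h.cst.hz, B0_S h.cst.hf h.cst.hz, c6_Q h.cst.hf h.cst.hz]; exact h.c6

lemma A0_T {c d : K} (hc : c ^ 5 = 1) (hd : d ^ 5 = 1) : A0 f (c * x) (d * y) = A0 f x y := by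
  unfold A0; rw [mul_pow, mul_pow, hc, hd]; ring

lemma B0_T {c d : K} (hc : c ^ 5 = 1) (hd : d ^ 5 = 1) : B0 f (c * x) (d * y) = B0 f x y := by
  unfold B0; rw [mul_pow, mul_pow, hc, hd]; ring

lemma Ux_T {c d t : K} (hc : c ^ 5 = 1) (hd : d ^ 5 = 1) :
    Ux f t (c * x) (d * y) = c * Ux f t x y := by
  unfold Ux al
  have h1 : (c * x) ^ 10 = x ^ 10 := by
    rw [mul_pow, show (10 : ℕ) = 5 * 2 from rfl, pow_mul c, hc, one_pow, one_mul]
  have h2 : (d * y) ^ 10 = y ^ 10 := by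
    rw [mul_pow, show (10 : ℕ) = 5 * 2 from rfl, pow_mul d, hd, one_pow, one_mul]
  rw [h1, h2, mul_pow, mul_pow, hc, hd]; ring

lemma Uy_T {c d t : K} (hc : c ^ 5 = 1) (hd : d ^ 5 = 1) :
    Uy f t (c * x) (d * y) = d * Uy f t x y := by
  unfold Uy be
  have h1 : (c * x) ^ 10 = x ^ 10 := by
    rw [mul_pow, show (10 : ℕ) = 5 * 2 from rfl, pow_mul c, hc, one_pow, one_mul]
  have h2 : (d * y) ^ 10 = y ^ 10 := by
    rw [mul_pow, show (10 : ℕ) = 5 * 2 from rfl, pow_mul d, hd, one_pow, one_mul]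
  rw [h1, h2, mul_pow, mul_pow, hc, hd]; ring

lemma Lev.T (h : Lev W f z x y) {c d : K} (hc : c ^ 5 = 1) (hd : d ^ 5 = 1) :
    Lev W f z (c * x) (d * y) := by
  refine ⟨h.cst, ?_, ?_⟩
  · rw [A0_T hc hd, B0_T hc hd]; exact h.c4
  · rw [A0_T hc hd, B0_T hc hd]; exact h.c6

open Classical in
/-- the point with Tate parameters `(A, B)`. -/
noncomputable def pt (W : WeierstrassCurve.Affine K) (A B : K) : W.Point :=
  if h : ∃ P, IsTate W P A B then h.choose else 0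

lemma pt_eq {P : W.Point} {A B : K} (h : IsTate W P A B) : pt W A B = P := by
  have h' : ∃ P, IsTate W P A B := ⟨P, h⟩
  unfold pt
  rw [dif_pos h']
  exact h'.choose_spec.unique h

/-- the point attached to the level structure `(x, y)`. -/
noncomputable def pv (W : WeierstrassCurve.Affine K) (f x y : K) : W.Point :=
  pt W (A0 f x y) (B0 f x y)

lemma pv_T {c d : K} (hc : c ^ 5 = 1) (hd : d ^ 5 = 1) : pv W f (c * x) (d * y) = pv W f x y := by
  unfold pv; rw [A0_T hc hd, B0_T hc hd]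

variable [DecidableEq K]

lemma Lev.isTate (h : Lev W f z x y) (hΔ : W.Δ ≠ 0) :
    IsTate W (pv W f x y) (A0 f x y) (B0 f x y) := by
  obtain ⟨P, hP⟩ := exists_pt_tate hΔ h.c4 h.c6
  unfold pv
  rw [pt_eq hP]
  exact hP

/-- The chord relation. -/
lemma Lev.chord (h : Lev W f z x y) (hΔ : W.Δ ≠ 0) :
    pv W f (Sx f z (z ^ 3 * x) (z ^ 2 * y)) (Sy f z (z ^ 3 * x) (z ^ 2 * y)) =
      pv W f x y + pv W f (Sx f z x y) (Sy f z x y) := by
  have hf := h.cst.hf
  have hz := h.cst.hz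
  have z5 := h.cst.z5
  have c3 : (z ^ 3) ^ 5 = 1 := by rw [← pow_mul, mul_comm, pow_mul, z5, one_pow]
  have c2 : (z ^ 2) ^ 5 = 1 := by rw [← pow_mul, mul_comm, pow_mul, z5, one_pow]
  have hP := (h.isTate hΔ).1
  have hQ := (h.S.isTate hΔ).1
  have hR := ((h.T c3 c2).S.isTate hΔ).1
  rw [A0_S hf hz, B0_S hf hz] at hQ hR
  have hu : uf (z ^ 3 * x) (z ^ 2 * y) = uf (z * x) y := by
    have : uf (z ^ 3 * x) (z ^ 2 * y) = (z ^ 2) ^ 5 * uf (z * x) y := by unfold uf; ring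
    rw [this, c2, one_mul]
  have hv : vf (z ^ 3 * x) (z ^ 2 * y) = vf (z * x) y := by
    have : vf (z ^ 3 * x) (z ^ 2 * y) = (z ^ 2) ^ 5 * vf (z * x) y := by unfold vf; ring
    rw [this, c2, one_mul]
  rw [hu, hv] at hR
  have hP1 : IsPt W (pv W f x y) (rX0 f z x y) (rY0 f z x y) := by
    rw [← X0_eq hf, ← Y0_eq hf]; exact hP
  have hQ1 : IsPt W (pv W f (Sx f z x y) (Sy f z x y)) (rXQ f z x y) (rYQ f z x y) := by
    rw [← XQ_eq hf hz, ← YQ_eq hf hz]
    convert hQ using 1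
    · rw [← ta_sq hf hz]; ring
    · rw [← ta_sq hf hz]; ring
  have hR1 : IsPt W (pv W f (Sx f z (z ^ 3 * x) (z ^ 2 * y)) (Sy f z (z ^ 3 * x) (z ^ 2 * y)))
      (rXR f z x y) (rYR f z x y) := by
    rw [← XR_eq hf hz, ← YR_eq hf hz]
    convert hR using 1
    · rw [← ta_sq hf hz]; ring
    · rw [← ta_sq hf hz]; ring
  have hne : rXQ f z x y - rX0 f z x y ≠ 0 := by
    intro e
    have := diff_cof (z := z) hf x y
    rw [e, zero_mul] at this
    exact (h.ne hΔ).2.2 (pow_eq_zero_iff (two_ne_zero)|>.1 this.symm)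
  obtain ⟨M, hM⟩ : ∃ M : K, M * (rXQ f z x y - rX0 f z x y) = 12 * (rYQ f z x y - rY0 f z x y) :=
    ⟨12 * (rYQ f z x y - rY0 f z x y) / (rXQ f z x y - rX0 f z x y), by field_simp⟩
  have h1 := chord1 hf hz x y
  have h2 := chord2 hf hz x y
  have key := hP1.add hQ1 (fun e => hne (by rw [e, sub_self])) hM
  have hX : 3 * M ^ 2 - rX0 f z x y - rXQ f z x y = rXR f z x y := by
    have : (rXQ f z x y - rX0 f z x y) ^ 2 *
        (3 * M ^ 2 - rX0 f z x y - rXQ f z x y - rXR f z x y) = 0 := by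
      linear_combination 3 * (M * (rXQ f z x y - rX0 f z x y) +
        12 * (rYQ f z x y - rY0 f z x y)) * hM - h1
    rcases mul_eq_zero.1 this with e | e
    · exact absurd (pow_eq_zero_iff (two_ne_zero)|>.1 e) hne
    · exact sub_eq_zero.1 e
  have hY : -rY0 f z x y - M * (3 * M ^ 2 - 2 * rX0 f z x y - rXQ f z x y) / 12 = rYR f z x y := by
    have e1 : 3 * M ^ 2 - 2 * rX0 f z x y - rXQ f z x y = rXR f z x y - rX0 f z x y := by
      rw [← hX]; ring
    rw [e1]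
    have : (rXQ f z x y - rX0 f z x y) *
        (-rY0 f z x y - M * (rXR f z x y - rX0 f z x y) / 12 - rYR f z x y) = 0 := by
      linear_combination -h2 - (rXR f z x y - rX0 f z x y) / 12 * hM
    rcases mul_eq_zero.1 this with e | e
    · exact absurd e hne
    · exact sub_eq_zero.1 e
  rw [hX, hY] at key
  exact hR1.unique key

end Fermat.Agent.Sw35
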