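import Fermat.Agent.Sw35.Tate2

set_option autoImplicit false
set_option maxHeartbeats 4000000

/-!
# The icosahedral forms (level five structure), explicit identities

`f` is the golden ratio, `z` a fifth root of unity with `z² = (f − 1) z − 1`.
Generated by a computer algebra script.
-/

namespace Fermat.Agent.Sw35

section defs
variable {R : Type*} [CommRing R]

def uf (x y : R) : R := x ^ 4 * y + 2 * x ^ 3 * y ^ 2 + 4 * x ^ 2 * y ^ 3 + 3 * x * y ^ 4 + y ^ 5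

def vf (x y : R) : R :=
  x ^ 5 - 3 * x ^ 4 * y + 4 * x ^ 3 * y ^ 2 - 2 * x ^ 2 * y ^ 3 + x * y ^ 4

/-- `κ = −√5 φ⁵`. -/
def kp (f : R) : R := -(11 * f + 7)

/-- `τ = (ζ − ζ⁻¹) φ²`, `τ² = κ`. -/
def ta (f z : R) : R := (2 * z - f + 1) * (f + 1)

def A0 (f x y : R) : R := x ^ 5 + (5 * f + 3) * y ^ 5

def B0 (f x y : R) : R := (5 * f + 3) * x ^ 5 - y ^ 5

/-- `c₄` as a form of degree 20 (up to the constant `κ²`). -/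
def H20 (x y : R) : R :=
  x ^ 20 - 228 * x ^ 15 * y ^ 5 + 494 * x ^ 10 * y ^ 10 + 228 * x ^ 5 * y ^ 15 + y ^ 20

/-- `c₆` as a form of degree 30 (up to the constant `κ³`). -/
def T30 (x y : R) : R :=
  -x ^ 30 - 522 * x ^ 25 * y ^ 5 + 10005 * x ^ 20 * y ^ 10 + 10005 * x ^ 10 * y ^ 20
    + 522 * x ^ 5 * y ^ 25 - y ^ 30

/-- the form `h` of degree 10: the ten cusps different from `0, ∞`. -/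
def h10 (x y : R) : R := x ^ 10 + 11 * x ^ 5 * y ^ 5 - y ^ 10

end defs

variable {K : Type*} [Field K] [CharZero K] {f z : K}

lemma ta_sq (hf : f ^ 2 = f + 1) (hz : z ^ 2 = (f - 1) * z - 1) : ta f z ^ 2 = kp f := by
  unfold ta kp
  linear_combination (f ^ 2 + f - 4) * hf +
    (4 * f ^ 2 + 8 * f + 4) * hz

lemma c4_uv (x y : K) : c4f (-uf x y) (vf x y) = H20 x y := by
  unfold c4f uf vf H20; ring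

lemma c6_uv (x y : K) : c6f (-uf x y) (vf x y) = T30 x y := by
  unfold c6f uf vf T30; ring

lemma c4_v (hf : f ^ 2 = f + 1) (x y : K) :
    c4f (A0 f x y) (B0 f x y) = kp f ^ 2 * H20 x y := by
  unfold c4f A0 B0 kp H20
  linear_combination (625 * x ^ 20 * f ^ 2 + 625 * x ^ 20 * f + 129 * x ^ 20 - 7500 * x ^ 15 * y ^ 5 * f ^ 2
      - 22500 * x ^ 15 * y ^ 5 * f - 11412 * x ^ 15 * y ^ 5 + 8750 * x ^ 10 * y ^ 10 * f ^ 2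
      + 38750 * x ^ 10 * y ^ 10 * f + 21726 * x ^ 10 * y ^ 10 + 7500 * x ^ 5 * y ^ 15 * f ^ 2
      + 22500 * x ^ 5 * y ^ 15 * f + 11412 * x ^ 5 * y ^ 15 + 625 * y ^ 20 * f ^ 2 + 625 * y ^ 20 * f
      + 129 * y ^ 20) * hf

lemma c6_v (hf : f ^ 2 = f + 1) (x y : K) :
    c6f (A0 f x y) (B0 f x y) = kp f ^ 3 * T30 x y := by
  unfold c6f A0 B0 kp T30
  linear_combination (-15625 * x ^ 30 * f ^ 4 - 15625 * x ^ 30 * f ^ 3 + 6250 * x ^ 30 * f ^ 2 + 11794 * x ^ 30 * f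
      + 3503 * x ^ 30 + 281250 * x ^ 25 * y ^ 5 * f ^ 4 + 843750 * x ^ 25 * y ^ 5 * f ^ 3
      + 1237500 * x ^ 25 * y ^ 5 * f ^ 2 + 846468 * x ^ 25 * y ^ 5 * f + 208566 * x ^ 25 * y ^ 5
      - 1171875 * x ^ 20 * y ^ 10 * f ^ 4 - 5671875 * x ^ 20 * y ^ 10 * f ^ 3
      - 13931250 * x ^ 20 * y ^ 10 * f ^ 2 - 12158970 * x ^ 20 * y ^ 10 * f
      - 3367515 * x ^ 20 * y ^ 10 - 1171875 * x ^ 10 * y ^ 20 * f ^ 4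
      - 5671875 * x ^ 10 * y ^ 20 * f ^ 3 - 13931250 * x ^ 10 * y ^ 20 * f ^ 2
      - 12158970 * x ^ 10 * y ^ 20 * f - 3367515 * x ^ 10 * y ^ 20 - 281250 * x ^ 5 * y ^ 25 * f ^ 4
      - 843750 * x ^ 5 * y ^ 25 * f ^ 3 - 1237500 * x ^ 5 * y ^ 25 * f ^ 2
      - 846468 * x ^ 5 * y ^ 25 * f - 208566 * x ^ 5 * y ^ 25 - 15625 * y ^ 30 * f ^ 4
      - 15625 * y ^ 30 * f ^ 3 + 6250 * y ^ 30 * f ^ 2 + 11794 * y ^ 30 * f + 3503 * y ^ 30) * hf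

lemma c4_Q (hf : f ^ 2 = f + 1) (hz : z ^ 2 = (f - 1) * z - 1) (x y : K) :
    c4f (-(ta f z * uf x y)) (ta f z * vf x y) = c4f (A0 f x y) (B0 f x y) := by
  rw [c4_v hf, ← ta_sq hf hz, ← c4_uv]
  unfold c4f; ring

lemma c6_Q (hf : f ^ 2 = f + 1) (hz : z ^ 2 = (f - 1) * z - 1) (x y : K) :
    c6f (-(ta f z * uf x y)) (ta f z * vf x y) = c6f (A0 f x y) (B0 f x y) := by
  rw [c6_v hf, ← ta_sq hf hz, ← c6_uv]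
  unfold c6f; ring

lemma A0B0 (hf : f ^ 2 = f + 1) (x y : K) :
    A0 f x y * B0 f x y = (5 * f + 3) * h10 x y := by
  unfold A0 B0 h10
  linear_combination (25 * x ^ 5 * y ^ 5) * hf

lemma B0sq (hf : f ^ 2 = f + 1) (x y : K) :
    B0 f x y ^ 2 - 11 * A0 f x y * B0 f x y - A0 f x y ^ 2 = -625 * x ^ 5 * y ^ 5 * f - 375 * x ^ 5 * y ^ 5 := by
  unfold A0 B0
  linear_combination (25 * x ^ 10 - 275 * x ^ 5 * y ^ 5 - 25 * y ^ 10) * hf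

lemma uR_eq (hf : f ^ 2 = f + 1) (hz : z ^ 2 = (f - 1) * z - 1) (x y : K) :
    uf (z * x) y = -x ^ 4 * y * z + x ^ 4 * y * f - x ^ 4 * y - 2 * x ^ 3 * y ^ 2 * z * f + 2 * x ^ 3 * y ^ 2 * z
      - 2 * x ^ 3 * y ^ 2 * f + 2 * x ^ 3 * y ^ 2 + 4 * x ^ 2 * y ^ 3 * z * f - 4 * x ^ 2 * y ^ 3 * z
      - 4 * x ^ 2 * y ^ 3 + 3 * x * y ^ 4 * z + y ^ 5 := by
  unfold uf
  linear_combination (x ^ 4 * y * z * f - 2 * x ^ 4 * y * z - x ^ 4 * y + 2 * x ^ 3 * y ^ 2 * z) * hf +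
    (x ^ 4 * y * z ^ 2 + x ^ 4 * y * z * f - x ^ 4 * y * z + x ^ 4 * y * f ^ 2 - 2 * x ^ 4 * y * f
      + 2 * x ^ 3 * y ^ 2 * z + 2 * x ^ 3 * y ^ 2 * f - 2 * x ^ 3 * y ^ 2 + 4 * x ^ 2 * y ^ 3) * hz

lemma vR_eq (hf : f ^ 2 = f + 1) (hz : z ^ 2 = (f - 1) * z - 1) (x y : K) :
    vf (z * x) y = x ^ 5 + 3 * x ^ 4 * y * z - 3 * x ^ 4 * y * f + 3 * x ^ 4 * y - 4 * x ^ 3 * y ^ 2 * z * f
      + 4 * x ^ 3 * y ^ 2 * z - 4 * x ^ 3 * y ^ 2 * f + 4 * x ^ 3 * y ^ 2 - 2 * x ^ 2 * y ^ 3 * z * f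
      + 2 * x ^ 2 * y ^ 3 * z + 2 * x ^ 2 * y ^ 3 + x * y ^ 4 * z := by
  unfold vf
  linear_combination (x ^ 5 * z * f ^ 2 - 3 * x ^ 5 * z * f + x ^ 5 * z - x ^ 5 * f + 2 * x ^ 5
      - 3 * x ^ 4 * y * z * f + 6 * x ^ 4 * y * z + 3 * x ^ 4 * y + 4 * x ^ 3 * y ^ 2 * z) * hf +
    (x ^ 5 * z ^ 3 + x ^ 5 * z ^ 2 * f - x ^ 5 * z ^ 2 + x ^ 5 * z * f ^ 2 - 2 * x ^ 5 * z * f
      + x ^ 5 * f ^ 3 - 3 * x ^ 5 * f ^ 2 + x ^ 5 * f + x ^ 5 - 3 * x ^ 4 * y * z ^ 2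
      - 3 * x ^ 4 * y * z * f + 3 * x ^ 4 * y * z - 3 * x ^ 4 * y * f ^ 2 + 6 * x ^ 4 * y * f
      + 4 * x ^ 3 * y ^ 2 * z + 4 * x ^ 3 * y ^ 2 * f - 4 * x ^ 3 * y ^ 2 - 2 * x ^ 2 * y ^ 3) * hz

def rXQ (f z x y : K) : K :=
  -11 * x ^ 10 * f - 7 * x ^ 10 - 132 * x ^ 8 * y ^ 2 * f - 84 * x ^ 8 * y ^ 2
      + 132 * x ^ 7 * y ^ 3 * f + 84 * x ^ 7 * y ^ 3 - 264 * x ^ 6 * y ^ 4 * f - 168 * x ^ 6 * y ^ 4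
      - 330 * x ^ 5 * y ^ 5 * f - 210 * x ^ 5 * y ^ 5 - 660 * x ^ 4 * y ^ 6 * f - 420 * x ^ 4 * y ^ 6
      - 396 * x ^ 3 * y ^ 7 * f - 252 * x ^ 3 * y ^ 7 - 264 * x ^ 2 * y ^ 8 * f - 168 * x ^ 2 * y ^ 8
      - 132 * x * y ^ 9 * f - 84 * x * y ^ 9 - 11 * y ^ 10 * f - 7 * y ^ 10

def rXR (f z x y : K) : K :=
  -11 * x ^ 10 * f - 7 * x ^ 10 + 84 * x ^ 8 * y ^ 2 * z * f + 48 * x ^ 8 * y ^ 2 * z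
      + 84 * x ^ 8 * y ^ 2 * f + 48 * x ^ 8 * y ^ 2 + 84 * x ^ 7 * y ^ 3 * z * f
      + 48 * x ^ 7 * y ^ 3 * z - 132 * x ^ 7 * y ^ 3 * f - 84 * x ^ 7 * y ^ 3
      - 264 * x ^ 6 * y ^ 4 * z * f - 168 * x ^ 6 * y ^ 4 * z - 330 * x ^ 5 * y ^ 5 * f
      - 210 * x ^ 5 * y ^ 5 + 660 * x ^ 4 * y ^ 6 * z * f + 420 * x ^ 4 * y ^ 6 * z
      - 420 * x ^ 4 * y ^ 6 * f - 240 * x ^ 4 * y ^ 6 + 252 * x ^ 3 * y ^ 7 * z * f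
      + 144 * x ^ 3 * y ^ 7 * z + 252 * x ^ 3 * y ^ 7 * f + 144 * x ^ 3 * y ^ 7
      - 168 * x ^ 2 * y ^ 8 * z * f - 96 * x ^ 2 * y ^ 8 * z + 264 * x ^ 2 * y ^ 8 * f
      + 168 * x ^ 2 * y ^ 8 - 132 * x * y ^ 9 * z * f - 84 * x * y ^ 9 * z - 11 * y ^ 10 * f
      - 7 * y ^ 10

def rYQ (f z x y : K) : K :=
  58 * x ^ 13 * y ^ 2 * z * f + 36 * x ^ 13 * y ^ 2 * z - 18 * x ^ 13 * y ^ 2 * f
      - 11 * x ^ 13 * y ^ 2 + 58 * x ^ 12 * y ^ 3 * z * f + 36 * x ^ 12 * y ^ 3 * z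
      - 18 * x ^ 12 * y ^ 3 * f - 11 * x ^ 12 * y ^ 3 + 232 * x ^ 11 * y ^ 4 * z * f
      + 144 * x ^ 11 * y ^ 4 * z - 72 * x ^ 11 * y ^ 4 * f - 44 * x ^ 11 * y ^ 4
      + 290 * x ^ 9 * y ^ 6 * z * f + 180 * x ^ 9 * y ^ 6 * z - 90 * x ^ 9 * y ^ 6 * f
      - 55 * x ^ 9 * y ^ 6 + 348 * x ^ 8 * y ^ 7 * z * f + 216 * x ^ 8 * y ^ 7 * z
      - 108 * x ^ 8 * y ^ 7 * f - 66 * x ^ 8 * y ^ 7 + 1218 * x ^ 7 * y ^ 8 * z * f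
      + 756 * x ^ 7 * y ^ 8 * z - 378 * x ^ 7 * y ^ 8 * f - 231 * x ^ 7 * y ^ 8
      + 1682 * x ^ 6 * y ^ 9 * z * f + 1044 * x ^ 6 * y ^ 9 * z - 522 * x ^ 6 * y ^ 9 * f
      - 319 * x ^ 6 * y ^ 9 + 1450 * x ^ 5 * y ^ 10 * z * f + 900 * x ^ 5 * y ^ 10 * z
      - 450 * x ^ 5 * y ^ 10 * f - 275 * x ^ 5 * y ^ 10 + 870 * x ^ 4 * y ^ 11 * z * f
      + 540 * x ^ 4 * y ^ 11 * z - 270 * x ^ 4 * y ^ 11 * f - 165 * x ^ 4 * y ^ 11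
      + 522 * x ^ 3 * y ^ 12 * z * f + 324 * x ^ 3 * y ^ 12 * z - 162 * x ^ 3 * y ^ 12 * f
      - 99 * x ^ 3 * y ^ 12 + 232 * x ^ 2 * y ^ 13 * z * f + 144 * x ^ 2 * y ^ 13 * z
      - 72 * x ^ 2 * y ^ 13 * f - 44 * x ^ 2 * y ^ 13 + 58 * x * y ^ 14 * z * f + 36 * x * y ^ 14 * z
      - 18 * x * y ^ 14 * f - 11 * x * y ^ 14

def rWR (f z x y : K) : K :=
  -x ^ 13 * y ^ 2 * z * f + x ^ 13 * y ^ 2 * z - x ^ 13 * y ^ 2 * f + x ^ 13 * y ^ 2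
      + x ^ 12 * y ^ 3 * z * f - x ^ 12 * y ^ 3 * z - x ^ 12 * y ^ 3 + 4 * x ^ 11 * y ^ 4 * z
      - 5 * x ^ 9 * y ^ 6 * z + 5 * x ^ 9 * y ^ 6 * f - 5 * x ^ 9 * y ^ 6 - 6 * x ^ 8 * y ^ 7 * z * f
      + 6 * x ^ 8 * y ^ 7 * z - 6 * x ^ 8 * y ^ 7 * f + 6 * x ^ 8 * y ^ 7
      + 21 * x ^ 7 * y ^ 8 * z * f - 21 * x ^ 7 * y ^ 8 * z - 21 * x ^ 7 * y ^ 8
      + 29 * x ^ 6 * y ^ 9 * z + 25 * x ^ 5 * y ^ 10 - 15 * x ^ 4 * y ^ 11 * z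
      + 15 * x ^ 4 * y ^ 11 * f - 15 * x ^ 4 * y ^ 11 - 9 * x ^ 3 * y ^ 12 * z * f
      + 9 * x ^ 3 * y ^ 12 * z - 9 * x ^ 3 * y ^ 12 * f + 9 * x ^ 3 * y ^ 12
      + 4 * x ^ 2 * y ^ 13 * z * f - 4 * x ^ 2 * y ^ 13 * z - 4 * x ^ 2 * y ^ 13 + x * y ^ 14 * z

def rYR (f z x y : K) : K :=
  -47 * x ^ 13 * y ^ 2 * z * f - 29 * x ^ 13 * y ^ 2 * z + 47 * x ^ 13 * y ^ 2 * f
      + 29 * x ^ 13 * y ^ 2 - 47 * x ^ 12 * y ^ 3 * z * f - 29 * x ^ 12 * y ^ 3 * z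
      - 18 * x ^ 12 * y ^ 3 * f - 11 * x ^ 12 * y ^ 3 + 72 * x ^ 11 * y ^ 4 * z * f
      + 44 * x ^ 11 * y ^ 4 * z - 232 * x ^ 11 * y ^ 4 * f - 144 * x ^ 11 * y ^ 4
      + 90 * x ^ 9 * y ^ 6 * z * f + 55 * x ^ 9 * y ^ 6 * z + 235 * x ^ 9 * y ^ 6 * f
      + 145 * x ^ 9 * y ^ 6 - 282 * x ^ 8 * y ^ 7 * z * f - 174 * x ^ 8 * y ^ 7 * z
      + 282 * x ^ 8 * y ^ 7 * f + 174 * x ^ 8 * y ^ 7 - 987 * x ^ 7 * y ^ 8 * z * f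
      - 609 * x ^ 7 * y ^ 8 * z - 378 * x ^ 7 * y ^ 8 * f - 231 * x ^ 7 * y ^ 8
      + 522 * x ^ 6 * y ^ 9 * z * f + 319 * x ^ 6 * y ^ 9 * z - 1682 * x ^ 6 * y ^ 9 * f
      - 1044 * x ^ 6 * y ^ 9 + 1450 * x ^ 5 * y ^ 10 * z * f + 900 * x ^ 5 * y ^ 10 * z
      - 450 * x ^ 5 * y ^ 10 * f - 275 * x ^ 5 * y ^ 10 + 270 * x ^ 4 * y ^ 11 * z * f
      + 165 * x ^ 4 * y ^ 11 * z + 705 * x ^ 4 * y ^ 11 * f + 435 * x ^ 4 * y ^ 11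
      - 423 * x ^ 3 * y ^ 12 * z * f - 261 * x ^ 3 * y ^ 12 * z + 423 * x ^ 3 * y ^ 12 * f
      + 261 * x ^ 3 * y ^ 12 - 188 * x ^ 2 * y ^ 13 * z * f - 116 * x ^ 2 * y ^ 13 * z
      - 72 * x ^ 2 * y ^ 13 * f - 44 * x ^ 2 * y ^ 13 + 18 * x * y ^ 14 * z * f + 11 * x * y ^ 14 * z
      - 58 * x * y ^ 14 * f - 36 * x * y ^ 14

def rX0 (f z x y : K) : K :=
  25 * x ^ 10 * f + 17 * x ^ 10 - 330 * x ^ 5 * y ^ 5 * f - 198 * x ^ 5 * y ^ 5 + 85 * y ^ 10 * f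
      + 53 * y ^ 10

def rY0 (f z x y : K) : K :=
  -5 * x ^ 15 * f - 3 * x ^ 15 - 110 * x ^ 10 * y ^ 5 * f - 67 * x ^ 10 * y ^ 5
      - 600 * x ^ 5 * y ^ 10 * f - 371 * x ^ 5 * y ^ 10 + 55 * y ^ 15 * f + 34 * y ^ 15

lemma XQ_eq (hf : f ^ 2 = f + 1) (hz : z ^ 2 = (f - 1) * z - 1) (x y : K) :
    kp f * (uf x y ^ 2 + 6 * uf x y * vf x y + vf x y ^ 2) = rXQ f z x y := by
  unfold kp uf vf rXQ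
  linear_combination (0) * hf + (0) * hz

lemma XR_eq (hf : f ^ 2 = f + 1) (hz : z ^ 2 = (f - 1) * z - 1) (x y : K) :
    kp f * (uf (z * x) y ^ 2 + 6 * uf (z * x) y * vf (z * x) y + vf (z * x) y ^ 2) =
      rXR f z x y := by
  rw [uR_eq hf hz, vR_eq hf hz]
  unfold kp rXR
  linear_combination (132 * x ^ 8 * y ^ 2 * z + 88 * x ^ 8 * y ^ 2 * f + 188 * x ^ 8 * y ^ 2
      + 132 * x ^ 7 * y ^ 3 * z - 352 * x ^ 7 * y ^ 3 * f - 224 * x ^ 7 * y ^ 3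
      - 748 * x ^ 6 * y ^ 4 * z * f ^ 2 - 476 * x ^ 6 * y ^ 4 * z * f
      + 792 * x ^ 5 * y ^ 5 * z * f ^ 2 - 288 * x ^ 5 * y ^ 5 * z * f - 504 * x ^ 5 * y ^ 5 * z
      - 792 * x ^ 5 * y ^ 5 * f - 504 * x ^ 5 * y ^ 5 + 308 * x ^ 4 * y ^ 6 * z * f ^ 2
      + 724 * x ^ 4 * y ^ 6 * z * f + 336 * x ^ 4 * y ^ 6 * z - 308 * x ^ 4 * y ^ 6 * f
      - 856 * x ^ 4 * y ^ 6 - 88 * x ^ 3 * y ^ 7 * z * f + 340 * x ^ 3 * y ^ 7 * z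
      + 396 * x ^ 3 * y ^ 7 - 264 * x ^ 2 * y ^ 8 * z) * hf +
    (88 * x ^ 8 * y ^ 2 * f + 56 * x ^ 8 * y ^ 2 + 352 * x ^ 7 * y ^ 3 * f ^ 2
      - 128 * x ^ 7 * y ^ 3 * f - 224 * x ^ 7 * y ^ 3 - 748 * x ^ 6 * y ^ 4 * f ^ 3
      + 316 * x ^ 6 * y ^ 4 * f ^ 2 + 460 * x ^ 6 * y ^ 4 * f - 28 * x ^ 6 * y ^ 4
      + 792 * x ^ 5 * y ^ 5 * f ^ 3 - 1080 * x ^ 5 * y ^ 5 * f ^ 2 - 744 * x ^ 5 * y ^ 5 * f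
      + 168 * x ^ 5 * y ^ 5 + 308 * x ^ 4 * y ^ 6 * f ^ 3 + 724 * x ^ 4 * y ^ 6 * f ^ 2
      - 500 * x ^ 4 * y ^ 6 * f - 532 * x ^ 4 * y ^ 6 - 88 * x ^ 3 * y ^ 7 * f ^ 2
      + 32 * x ^ 3 * y ^ 7 * f + 56 * x ^ 3 * y ^ 7 - 308 * x ^ 2 * y ^ 8 * f - 196 * x ^ 2 * y ^ 8) * hz

lemma YQ_eq (hf : f ^ 2 = f + 1) (hz : z ^ 2 = (f - 1) * z - 1) (x y : K) :
    -(kp f * ta f z * (uf x y ^ 2 * vf x y)) = rYQ f z x y := by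
  unfold kp ta uf vf rYQ
  linear_combination (22 * x ^ 13 * y ^ 2 * z - 11 * x ^ 13 * y ^ 2 * f - 18 * x ^ 13 * y ^ 2
      + 22 * x ^ 12 * y ^ 3 * z - 11 * x ^ 12 * y ^ 3 * f - 18 * x ^ 12 * y ^ 3
      + 88 * x ^ 11 * y ^ 4 * z - 44 * x ^ 11 * y ^ 4 * f - 72 * x ^ 11 * y ^ 4
      + 110 * x ^ 9 * y ^ 6 * z - 55 * x ^ 9 * y ^ 6 * f - 90 * x ^ 9 * y ^ 6
      + 132 * x ^ 8 * y ^ 7 * z - 66 * x ^ 8 * y ^ 7 * f - 108 * x ^ 8 * y ^ 7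
      + 462 * x ^ 7 * y ^ 8 * z - 231 * x ^ 7 * y ^ 8 * f - 378 * x ^ 7 * y ^ 8
      + 638 * x ^ 6 * y ^ 9 * z - 319 * x ^ 6 * y ^ 9 * f - 522 * x ^ 6 * y ^ 9
      + 550 * x ^ 5 * y ^ 10 * z - 275 * x ^ 5 * y ^ 10 * f - 450 * x ^ 5 * y ^ 10
      + 330 * x ^ 4 * y ^ 11 * z - 165 * x ^ 4 * y ^ 11 * f - 270 * x ^ 4 * y ^ 11
      + 198 * x ^ 3 * y ^ 12 * z - 99 * x ^ 3 * y ^ 12 * f - 162 * x ^ 3 * y ^ 12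
      + 88 * x ^ 2 * y ^ 13 * z - 44 * x ^ 2 * y ^ 13 * f - 72 * x ^ 2 * y ^ 13 + 22 * x * y ^ 14 * z
      - 11 * x * y ^ 14 * f - 18 * x * y ^ 14) * hf +
    (0) * hz

lemma WR_eq (hf : f ^ 2 = f + 1) (hz : z ^ 2 = (f - 1) * z - 1) (x y : K) :
    uf (z * x) y ^ 2 * vf (z * x) y = rWR f z x y := by
  rw [uR_eq hf hz, vR_eq hf hz]
  unfold rWR
  linear_combination (x ^ 13 * y ^ 2 + 3 * x ^ 12 * y ^ 3 * z - 3 * x ^ 12 * y ^ 3 * f + 2 * x ^ 12 * y ^ 3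
      + 4 * x ^ 11 * y ^ 4 * z * f - 8 * x ^ 11 * y ^ 4 * z + 8 * x ^ 11 * y ^ 4 * f
      - 8 * x ^ 11 * y ^ 4 - 16 * x ^ 10 * y ^ 5 * z * f + 16 * x ^ 10 * y ^ 5 * z
      + 4 * x ^ 10 * y ^ 5 * f + 16 * x ^ 10 * y ^ 5 - 16 * x ^ 9 * y ^ 6 * z * f ^ 3
      + 16 * x ^ 9 * y ^ 6 * z * f ^ 2 + 16 * x ^ 9 * y ^ 6 * z * f - 36 * x ^ 9 * y ^ 6 * z
      + 16 * x ^ 9 * y ^ 6 * f ^ 2 - 16 * x ^ 9 * y ^ 6 * f - 16 * x ^ 9 * y ^ 6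
      + 56 * x ^ 8 * y ^ 7 * z * f ^ 3 - 112 * x ^ 8 * y ^ 7 * z * f ^ 2 + 16 * x ^ 8 * y ^ 7 * z
      - 56 * x ^ 8 * y ^ 7 * f ^ 2 + 56 * x ^ 8 * y ^ 7 * f - 6 * x ^ 8 * y ^ 7
      - 32 * x ^ 7 * y ^ 8 * z * f ^ 3 + 148 * x ^ 7 * y ^ 8 * z * f ^ 2 - 84 * x ^ 7 * y ^ 8 * z * f
      - 32 * x ^ 7 * y ^ 8 * z + 32 * x ^ 7 * y ^ 8 * f ^ 2 - 116 * x ^ 7 * y ^ 8 * f
      + 4 * x ^ 7 * y ^ 8 - 32 * x ^ 6 * y ^ 9 * z * f ^ 3 + 40 * x ^ 6 * y ^ 9 * z * f ^ 2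
      + 96 * x ^ 6 * y ^ 9 * z * f - 32 * x ^ 6 * y ^ 9 * z + 32 * x ^ 6 * y ^ 9 * f ^ 2
      - 8 * x ^ 6 * y ^ 9 * f - 56 * x ^ 6 * y ^ 9 - 32 * x ^ 5 * y ^ 10 * z * f ^ 2
      + 24 * x ^ 5 * y ^ 10 * z * f + 40 * x ^ 5 * y ^ 10 * z + 32 * x ^ 5 * y ^ 10 * f
      + 8 * x ^ 5 * y ^ 10 - 10 * x ^ 4 * y ^ 11 * z * f - 8 * x ^ 4 * y ^ 11 * z
      + 10 * x ^ 4 * y ^ 11 + 5 * x ^ 3 * y ^ 12 * z) * hf +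
    (x ^ 13 * y ^ 2 + 3 * x ^ 12 * y ^ 3 * z - 2 * x ^ 12 * y ^ 3 * f + 2 * x ^ 12 * y ^ 3
      + 8 * x ^ 11 * y ^ 4 * z * f - 8 * x ^ 11 * y ^ 4 * z - 4 * x ^ 11 * y ^ 4 * f ^ 2
      + 8 * x ^ 11 * y ^ 4 * f - 4 * x ^ 11 * y ^ 4 - 4 * x ^ 10 * y ^ 5 * z * f ^ 2
      - 18 * x ^ 10 * y ^ 5 * z * f + 22 * x ^ 10 * y ^ 5 * z + 2 * x ^ 10 * y ^ 5 * f ^ 2
      - 4 * x ^ 10 * y ^ 5 * f + 22 * x ^ 10 * y ^ 5 - 16 * x ^ 9 * y ^ 6 * z * f ^ 3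
      + 24 * x ^ 9 * y ^ 6 * z * f ^ 2 - 25 * x ^ 9 * y ^ 6 * z - 16 * x ^ 9 * y ^ 6 * f ^ 4
      + 16 * x ^ 9 * y ^ 6 * f ^ 3 + 40 * x ^ 9 * y ^ 6 * f ^ 2 - 35 * x ^ 9 * y ^ 6 * f
      - 5 * x ^ 9 * y ^ 6 + 56 * x ^ 8 * y ^ 7 * z * f ^ 3 - 104 * x ^ 8 * y ^ 7 * z * f ^ 2
      + 32 * x ^ 8 * y ^ 7 * z * f + 16 * x ^ 8 * y ^ 7 * z + 56 * x ^ 8 * y ^ 7 * f ^ 4
      - 112 * x ^ 8 * y ^ 7 * f ^ 3 - 56 * x ^ 8 * y ^ 7 * f ^ 2 + 112 * x ^ 8 * y ^ 7 * f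
      - 6 * x ^ 8 * y ^ 7 - 32 * x ^ 7 * y ^ 8 * z * f ^ 3 + 148 * x ^ 7 * y ^ 8 * z * f ^ 2
      - 124 * x ^ 7 * y ^ 8 * z * f + 8 * x ^ 7 * y ^ 8 * z - 32 * x ^ 7 * y ^ 8 * f ^ 4
      + 148 * x ^ 7 * y ^ 8 * f ^ 3 - 84 * x ^ 7 * y ^ 8 * f ^ 2 - 152 * x ^ 7 * y ^ 8 * f
      + 53 * x ^ 7 * y ^ 8 - 32 * x ^ 6 * y ^ 9 * z * f ^ 3 + 8 * x ^ 6 * y ^ 9 * z * f ^ 2
      + 80 * x ^ 6 * y ^ 9 * z * f - 35 * x ^ 6 * y ^ 9 * z - 32 * x ^ 6 * y ^ 9 * f ^ 4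
      + 40 * x ^ 6 * y ^ 9 * f ^ 3 + 96 * x ^ 6 * y ^ 9 * f ^ 2 - 68 * x ^ 6 * y ^ 9 * f
      - 36 * x ^ 6 * y ^ 9 - 32 * x ^ 5 * y ^ 10 * z * f ^ 2 + 16 * x ^ 5 * y ^ 10 * z * f
      + 16 * x ^ 5 * y ^ 10 * z - 32 * x ^ 5 * y ^ 10 * f ^ 3 + 24 * x ^ 5 * y ^ 10 * f ^ 2
      + 64 * x ^ 5 * y ^ 10 * f - 40 * x ^ 5 * y ^ 10 + 6 * x ^ 4 * y ^ 11 * z * f
      - 6 * x ^ 4 * y ^ 11 * z - 10 * x ^ 4 * y ^ 11 * f ^ 2 - 8 * x ^ 4 * y ^ 11 * f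
      + 12 * x ^ 4 * y ^ 11 + 9 * x ^ 3 * y ^ 12 * z + 5 * x ^ 3 * y ^ 12 * f - 5 * x ^ 3 * y ^ 12
      + 6 * x ^ 2 * y ^ 13) * hz

lemma YR_eq (hf : f ^ 2 = f + 1) (hz : z ^ 2 = (f - 1) * z - 1) (x y : K) :
    -(kp f * ta f z * (uf (z * x) y ^ 2 * vf (z * x) y)) = rYR f z x y := by
  rw [WR_eq hf hz]
  unfold kp ta rYR rWR
  linear_combination (-11 * x ^ 13 * y ^ 2 * z * f ^ 2 - 29 * x ^ 13 * y ^ 2 * z * f - 36 * x ^ 13 * y ^ 2 * z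
      + 11 * x ^ 13 * y ^ 2 * f ^ 2 + 29 * x ^ 13 * y ^ 2 * f + 36 * x ^ 13 * y ^ 2
      + 11 * x ^ 12 * y ^ 3 * z * f ^ 2 + 7 * x ^ 12 * y ^ 3 * z * f - 22 * x ^ 12 * y ^ 3 * z
      - 11 * x ^ 12 * y ^ 3 * f - 18 * x ^ 12 * y ^ 3 + 44 * x ^ 11 * y ^ 4 * z * f
      + 72 * x ^ 11 * y ^ 4 * z - 88 * x ^ 11 * y ^ 4 + 55 * x ^ 9 * y ^ 6 * z * f
      + 90 * x ^ 9 * y ^ 6 * z - 55 * x ^ 9 * y ^ 6 * f ^ 2 - 35 * x ^ 9 * y ^ 6 * f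
      + 110 * x ^ 9 * y ^ 6 - 66 * x ^ 8 * y ^ 7 * z * f ^ 2 - 174 * x ^ 8 * y ^ 7 * z * f
      - 216 * x ^ 8 * y ^ 7 * z + 66 * x ^ 8 * y ^ 7 * f ^ 2 + 174 * x ^ 8 * y ^ 7 * f
      + 216 * x ^ 8 * y ^ 7 + 231 * x ^ 7 * y ^ 8 * z * f ^ 2 + 147 * x ^ 7 * y ^ 8 * z * f
      - 462 * x ^ 7 * y ^ 8 * z - 231 * x ^ 7 * y ^ 8 * f - 378 * x ^ 7 * y ^ 8
      + 319 * x ^ 6 * y ^ 9 * z * f + 522 * x ^ 6 * y ^ 9 * z - 638 * x ^ 6 * y ^ 9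
      + 550 * x ^ 5 * y ^ 10 * z - 275 * x ^ 5 * y ^ 10 * f - 450 * x ^ 5 * y ^ 10
      + 165 * x ^ 4 * y ^ 11 * z * f + 270 * x ^ 4 * y ^ 11 * z - 165 * x ^ 4 * y ^ 11 * f ^ 2
      - 105 * x ^ 4 * y ^ 11 * f + 330 * x ^ 4 * y ^ 11 - 99 * x ^ 3 * y ^ 12 * z * f ^ 2
      - 261 * x ^ 3 * y ^ 12 * z * f - 324 * x ^ 3 * y ^ 12 * z + 99 * x ^ 3 * y ^ 12 * f ^ 2
      + 261 * x ^ 3 * y ^ 12 * f + 324 * x ^ 3 * y ^ 12 + 44 * x ^ 2 * y ^ 13 * z * f ^ 2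
      + 28 * x ^ 2 * y ^ 13 * z * f - 88 * x ^ 2 * y ^ 13 * z - 44 * x ^ 2 * y ^ 13 * f
      - 72 * x ^ 2 * y ^ 13 + 11 * x * y ^ 14 * z * f + 18 * x * y ^ 14 * z - 22 * x * y ^ 14) * hf +
    (-22 * x ^ 13 * y ^ 2 * f ^ 3 - 14 * x ^ 13 * y ^ 2 * f ^ 2 + 22 * x ^ 13 * y ^ 2 * f
      + 14 * x ^ 13 * y ^ 2 + 22 * x ^ 12 * y ^ 3 * f ^ 3 + 14 * x ^ 12 * y ^ 3 * f ^ 2
      - 22 * x ^ 12 * y ^ 3 * f - 14 * x ^ 12 * y ^ 3 + 88 * x ^ 11 * y ^ 4 * f ^ 2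
      + 144 * x ^ 11 * y ^ 4 * f + 56 * x ^ 11 * y ^ 4 - 110 * x ^ 9 * y ^ 6 * f ^ 2
      - 180 * x ^ 9 * y ^ 6 * f - 70 * x ^ 9 * y ^ 6 - 132 * x ^ 8 * y ^ 7 * f ^ 3
      - 84 * x ^ 8 * y ^ 7 * f ^ 2 + 132 * x ^ 8 * y ^ 7 * f + 84 * x ^ 8 * y ^ 7
      + 462 * x ^ 7 * y ^ 8 * f ^ 3 + 294 * x ^ 7 * y ^ 8 * f ^ 2 - 462 * x ^ 7 * y ^ 8 * f
      - 294 * x ^ 7 * y ^ 8 + 638 * x ^ 6 * y ^ 9 * f ^ 2 + 1044 * x ^ 6 * y ^ 9 * f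
      + 406 * x ^ 6 * y ^ 9 - 330 * x ^ 4 * y ^ 11 * f ^ 2 - 540 * x ^ 4 * y ^ 11 * f
      - 210 * x ^ 4 * y ^ 11 - 198 * x ^ 3 * y ^ 12 * f ^ 3 - 126 * x ^ 3 * y ^ 12 * f ^ 2
      + 198 * x ^ 3 * y ^ 12 * f + 126 * x ^ 3 * y ^ 12 + 88 * x ^ 2 * y ^ 13 * f ^ 3
      + 56 * x ^ 2 * y ^ 13 * f ^ 2 - 88 * x ^ 2 * y ^ 13 * f - 56 * x ^ 2 * y ^ 13
      + 22 * x * y ^ 14 * f ^ 2 + 36 * x * y ^ 14 * f + 14 * x * y ^ 14) * hz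

lemma X0_eq (hf : f ^ 2 = f + 1) (x y : K) :
    A0 f x y ^ 2 - 6 * A0 f x y * B0 f x y + B0 f x y ^ 2 = rX0 f z x y := by
  unfold A0 B0 rX0
  linear_combination (25 * x ^ 10 - 150 * x ^ 5 * y ^ 5 + 25 * y ^ 10) * hf

lemma Y0_eq (hf : f ^ 2 = f + 1) (x y : K) :
    -(A0 f x y ^ 2 * B0 f x y) = rY0 f z x y := by
  unfold A0 B0 rY0
  linear_combination (-50 * x ^ 10 * y ^ 5 - 125 * x ^ 5 * y ^ 10 * f - 350 * x ^ 5 * y ^ 10 + 25 * y ^ 15) * hf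

lemma chord1 (hf : f ^ 2 = f + 1) (hz : z ^ 2 = (f - 1) * z - 1) (x y : K) :
    (rXR f z x y + rX0 f z x y + rXQ f z x y) * (rXQ f z x y - rX0 f z x y) ^ 2 =
      432 * (rYQ f z x y - rY0 f z x y) ^ 2 := by
  unfold rXR rX0 rXQ rYQ rY0
  linear_combination (3888 * x ^ 30 * f + 2160 * x ^ 30 + 108864 * x ^ 28 * y ^ 2 * z * f
      + 65664 * x ^ 28 * y ^ 2 * z - 33696 * x ^ 28 * y ^ 2 * f - 19872 * x ^ 28 * y ^ 2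
      + 108864 * x ^ 27 * y ^ 3 * z * f + 65664 * x ^ 27 * y ^ 3 * z - 28512 * x ^ 27 * y ^ 3 * f
      - 16416 * x ^ 27 * y ^ 3 - 997056 * x ^ 26 * y ^ 4 * z * f - 625536 * x ^ 26 * y ^ 4 * z
      - 689040 * x ^ 26 * y ^ 4 * f - 425088 * x ^ 26 * y ^ 4 - 2906496 * x ^ 25 * y ^ 5 * z * f
      - 1804032 * x ^ 25 * y ^ 5 * z - 931392 * x ^ 25 * y ^ 5 * f - 590112 * x ^ 25 * y ^ 5
      - 12470976 * x ^ 24 * y ^ 6 * z * f - 7748352 * x ^ 24 * y ^ 6 * z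
      - 5253552 * x ^ 24 * y ^ 6 * f - 3275424 * x ^ 24 * y ^ 6 - 8657280 * x ^ 23 * y ^ 7 * z * f
      - 5408640 * x ^ 23 * y ^ 7 * z - 5537376 * x ^ 23 * y ^ 7 * f - 3436992 * x ^ 23 * y ^ 7
      - 32965056 * x ^ 22 * y ^ 8 * z * f - 20518272 * x ^ 22 * y ^ 8 * z
      - 16147296 * x ^ 22 * y ^ 8 * f - 10042272 * x ^ 22 * y ^ 8 - 18969984 * x ^ 21 * y ^ 9 * z * f
      - 11899008 * x ^ 21 * y ^ 9 * z - 16346880 * x ^ 21 * y ^ 9 * f - 10095840 * x ^ 21 * y ^ 9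
      - 133468992 * x ^ 20 * y ^ 10 * z * f - 82880064 * x ^ 20 * y ^ 10 * z
      - 50601456 * x ^ 20 * y ^ 10 * f - 31672512 * x ^ 20 * y ^ 10
      - 200653632 * x ^ 19 * y ^ 11 * z * f - 124654464 * x ^ 19 * y ^ 11 * z
      - 87873984 * x ^ 19 * y ^ 11 * f - 54775008 * x ^ 19 * y ^ 11
      - 409760640 * x ^ 18 * y ^ 12 * z * f - 254508480 * x ^ 18 * y ^ 12 * z
      - 180874512 * x ^ 18 * y ^ 12 * f - 112891104 * x ^ 18 * y ^ 12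
      - 475362432 * x ^ 17 * y ^ 13 * z * f - 295458624 * x ^ 17 * y ^ 13 * z
      - 231403392 * x ^ 17 * y ^ 13 * f - 144137664 * x ^ 17 * y ^ 13
      - 595245888 * x ^ 16 * y ^ 14 * z * f - 370020096 * x ^ 16 * y ^ 14 * z
      - 321662880 * x ^ 16 * y ^ 14 * f - 200253600 * x ^ 16 * y ^ 14
      - 935017344 * x ^ 15 * y ^ 15 * z * f - 580765248 * x ^ 15 * y ^ 15 * z
      - 382231872 * x ^ 15 * y ^ 15 * f - 238702464 * x ^ 15 * y ^ 15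
      - 1526390784 * x ^ 14 * y ^ 16 * z * f - 947688768 * x ^ 14 * y ^ 16 * z
      - 671172048 * x ^ 14 * y ^ 16 * f - 418810176 * x ^ 14 * y ^ 16
      - 2373053760 * x ^ 13 * y ^ 17 * z * f - 1473137280 * x ^ 13 * y ^ 17 * z
      - 999143424 * x ^ 13 * y ^ 17 * f - 623978208 * x ^ 13 * y ^ 17
      - 2870169984 * x ^ 12 * y ^ 18 * z * f - 1781552448 * x ^ 12 * y ^ 18 * z
      - 1333729584 * x ^ 12 * y ^ 18 * f - 832418208 * x ^ 12 * y ^ 18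
      - 2856326976 * x ^ 11 * y ^ 19 * z * f - 1772857152 * x ^ 11 * y ^ 19 * z
      - 1398513600 * x ^ 11 * y ^ 19 * f - 872553600 * x ^ 11 * y ^ 19
      - 2475862848 * x ^ 10 * y ^ 20 * z * f - 1536705216 * x ^ 10 * y ^ 20 * z
      - 1147116384 * x ^ 10 * y ^ 20 * f - 716071968 * x ^ 10 * y ^ 20
      - 1917546048 * x ^ 9 * y ^ 21 * z * f - 1190172096 * x ^ 9 * y ^ 21 * z
      - 895362336 * x ^ 9 * y ^ 21 * f - 558889632 * x ^ 9 * y ^ 21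
      - 1267237440 * x ^ 8 * y ^ 22 * z * f - 786533760 * x ^ 8 * y ^ 22 * z
      - 582158448 * x ^ 8 * y ^ 22 * f - 363436416 * x ^ 8 * y ^ 22
      - 738998208 * x ^ 7 * y ^ 23 * z * f - 458675136 * x ^ 7 * y ^ 23 * z
      - 312510528 * x ^ 7 * y ^ 23 * f - 195237216 * x ^ 7 * y ^ 23
      - 386681472 * x ^ 6 * y ^ 24 * z * f - 240007104 * x ^ 6 * y ^ 24 * z
      - 137641680 * x ^ 6 * y ^ 24 * f - 86136480 * x ^ 6 * y ^ 24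
      - 178549056 * x ^ 5 * y ^ 25 * z * f - 110823552 * x ^ 5 * y ^ 25 * z
      - 61880544 * x ^ 5 * y ^ 25 * f - 38727936 * x ^ 5 * y ^ 25 - 67620096 * x ^ 4 * y ^ 26 * z * f
      - 41971392 * x ^ 4 * y ^ 26 * z - 13878432 * x ^ 4 * y ^ 26 * f - 8753184 * x ^ 4 * y ^ 26
      - 22552128 * x ^ 3 * y ^ 27 * z * f - 13998528 * x ^ 3 * y ^ 27 * z
      - 1137024 * x ^ 3 * y ^ 27 * f - 757728 * x ^ 3 * y ^ 27 - 6346944 * x ^ 2 * y ^ 28 * z * f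
      - 3939840 * x ^ 2 * y ^ 28 * z + 945648 * x ^ 2 * y ^ 28 * f + 570240 * x ^ 2 * y ^ 28
      - 1216512 * x * y ^ 29 * z * f - 755136 * x * y ^ 29 * z + 380160 * x * y ^ 29 * f
      + 232416 * x * y ^ 29 + 580608 * y ^ 30 * f + 358992 * y ^ 30) * hf +
    (-1453248 * x ^ 26 * y ^ 4 * f ^ 2 - 1804032 * x ^ 26 * y ^ 4 * f - 559872 * x ^ 26 * y ^ 4
      - 2906496 * x ^ 25 * y ^ 5 * f ^ 2 - 3608064 * x ^ 25 * y ^ 5 * f - 1119744 * x ^ 25 * y ^ 5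
      - 13079232 * x ^ 24 * y ^ 6 * f ^ 2 - 16236288 * x ^ 24 * y ^ 6 * f - 5038848 * x ^ 24 * y ^ 6
      - 11625984 * x ^ 23 * y ^ 7 * f ^ 2 - 14432256 * x ^ 23 * y ^ 7 * f - 4478976 * x ^ 23 * y ^ 7
      - 37784448 * x ^ 22 * y ^ 8 * f ^ 2 - 46904832 * x ^ 22 * y ^ 8 * f - 14556672 * x ^ 22 * y ^ 8
      - 31971456 * x ^ 21 * y ^ 9 * f ^ 2 - 39688704 * x ^ 21 * y ^ 9 * f - 12317184 * x ^ 21 * y ^ 9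
      - 136605312 * x ^ 20 * y ^ 10 * f ^ 2 - 169579008 * x ^ 20 * y ^ 10 * f
      - 52627968 * x ^ 20 * y ^ 10 - 215080704 * x ^ 19 * y ^ 11 * f ^ 2
      - 266996736 * x ^ 19 * y ^ 11 * f - 82861056 * x ^ 19 * y ^ 11
      - 437427648 * x ^ 18 * y ^ 12 * f ^ 2 - 543013632 * x ^ 18 * y ^ 12 * f
      - 168521472 * x ^ 18 * y ^ 12 - 540608256 * x ^ 17 * y ^ 13 * f ^ 2
      - 671099904 * x ^ 17 * y ^ 13 * f - 208272384 * x ^ 17 * y ^ 13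
      - 717904512 * x ^ 16 * y ^ 14 * f ^ 2 - 891191808 * x ^ 16 * y ^ 14 * f
      - 276576768 * x ^ 16 * y ^ 14 - 999834624 * x ^ 15 * y ^ 15 * f ^ 2
      - 1241174016 * x ^ 15 * y ^ 15 * f - 385191936 * x ^ 15 * y ^ 15
      - 1629091008 * x ^ 14 * y ^ 16 * f ^ 2 - 2022319872 * x ^ 14 * y ^ 16 * f
      - 627616512 * x ^ 14 * y ^ 16 - 2473428096 * x ^ 13 * y ^ 17 * f ^ 2
      - 3070462464 * x ^ 13 * y ^ 17 * f - 952902144 * x ^ 13 * y ^ 17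
      - 3152094912 * x ^ 12 * y ^ 18 * f ^ 2 - 3912945408 * x ^ 12 * y ^ 18 * f
      - 1214362368 * x ^ 12 * y ^ 18 - 3237836544 * x ^ 11 * y ^ 19 * f ^ 2
      - 4019383296 * x ^ 11 * y ^ 19 * f - 1247394816 * x ^ 11 * y ^ 19
      - 2806221888 * x ^ 10 * y ^ 20 * f ^ 2 - 3483585792 * x ^ 10 * y ^ 20 * f
      - 1081112832 * x ^ 10 * y ^ 20 - 2110116096 * x ^ 9 * y ^ 21 * f ^ 2
      - 2619454464 * x ^ 9 * y ^ 21 * f - 812934144 * x ^ 9 * y ^ 21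
      - 1379132352 * x ^ 8 * y ^ 22 * f ^ 2 - 1712026368 * x ^ 8 * y ^ 22 * f
      - 531318528 * x ^ 8 * y ^ 22 - 767314944 * x ^ 7 * y ^ 23 * f ^ 2
      - 952528896 * x ^ 7 * y ^ 23 * f - 295612416 * x ^ 7 * y ^ 23
      - 364765248 * x ^ 6 * y ^ 24 * f ^ 2 - 452812032 * x ^ 6 * y ^ 24 * f
      - 140527872 * x ^ 6 * y ^ 24 - 148231296 * x ^ 5 * y ^ 25 * f ^ 2
      - 184011264 * x ^ 5 * y ^ 25 * f - 57106944 * x ^ 5 * y ^ 25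
      - 49410432 * x ^ 4 * y ^ 26 * f ^ 2 - 61337088 * x ^ 4 * y ^ 26 * f - 19035648 * x ^ 4 * y ^ 26
      - 11625984 * x ^ 3 * y ^ 27 * f ^ 2 - 14432256 * x ^ 3 * y ^ 27 * f - 4478976 * x ^ 3 * y ^ 27
      - 1453248 * x ^ 2 * y ^ 28 * f ^ 2 - 1804032 * x ^ 2 * y ^ 28 * f - 559872 * x ^ 2 * y ^ 28) * hz

lemma chord2 (hf : f ^ 2 = f + 1) (hz : z ^ 2 = (f - 1) * z - 1) (x y : K) :
    (rYR f z x y + rY0 f z x y) * (rXQ f z x y - rX0 f z x y) +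
      (rYQ f z x y - rY0 f z x y) * (rXR f z x y - rX0 f z x y) = 0 := by
  unfold rXR rX0 rXQ rYQ rY0 rYR
  linear_combination (24 * x ^ 23 * y ^ 2 * z + 36 * x ^ 23 * y ^ 2 + 24 * x ^ 22 * y ^ 3 * z - 24 * x ^ 22 * y ^ 3
      + 4872 * x ^ 21 * y ^ 4 * z * f + 3108 * x ^ 21 * y ^ 4 * z - 324 * x ^ 21 * y ^ 4
      + 9744 * x ^ 20 * y ^ 5 * z * f + 5808 * x ^ 20 * y ^ 5 * z - 300 * x ^ 20 * y ^ 5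
      + 9048 * x ^ 19 * y ^ 6 * z * f + 5136 * x ^ 19 * y ^ 6 * z - 900 * x ^ 19 * y ^ 6
      + 4176 * x ^ 18 * y ^ 7 * z * f + 2100 * x ^ 18 * y ^ 7 * z + 192 * x ^ 18 * y ^ 7
      + 1392 * x ^ 17 * y ^ 8 * z * f - 48 * x ^ 17 * y ^ 8 * z - 1368 * x ^ 17 * y ^ 8
      + 106488 * x ^ 16 * y ^ 9 * z * f + 67284 * x ^ 16 * y ^ 9 * z - 4548 * x ^ 16 * y ^ 9
      + 212976 * x ^ 15 * y ^ 10 * z * f + 130032 * x ^ 15 * y ^ 10 * z - 4200 * x ^ 15 * y ^ 10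
      + 192792 * x ^ 14 * y ^ 11 * z * f + 114744 * x ^ 14 * y ^ 11 * z - 10800 * x ^ 14 * y ^ 11
      + 86304 * x ^ 13 * y ^ 12 * z * f + 45744 * x ^ 13 * y ^ 12 * z - 2016 * x ^ 13 * y ^ 12
      + 22968 * x ^ 12 * y ^ 13 * z * f + 1152 * x ^ 12 * y ^ 13 * z - 12216 * x ^ 12 * y ^ 13
      + 576984 * x ^ 11 * y ^ 14 * z * f + 360984 * x ^ 11 * y ^ 14 * z - 10536 * x ^ 11 * y ^ 14
      + 1153968 * x ^ 10 * y ^ 15 * z * f + 721776 * x ^ 10 * y ^ 15 * z - 9600 * x ^ 10 * y ^ 15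
      + 1016856 * x ^ 9 * y ^ 16 * z * f + 635592 * x ^ 9 * y ^ 16 * z - 9000 * x ^ 9 * y ^ 16
      + 439872 * x ^ 8 * y ^ 17 * z * f + 279456 * x ^ 8 * y ^ 17 * z + 3108 * x ^ 8 * y ^ 17
      + 82824 * x ^ 7 * y ^ 18 * z * f + 51000 * x ^ 7 * y ^ 18 * z + 48 * x ^ 7 * y ^ 18
      - 52896 * x ^ 6 * y ^ 19 * z * f - 32700 * x ^ 6 * y ^ 19 * z + 588 * x ^ 6 * y ^ 19
      - 105792 * x ^ 5 * y ^ 20 * z * f - 66144 * x ^ 5 * y ^ 20 * z + 900 * x ^ 5 * y ^ 20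
      - 93264 * x ^ 4 * y ^ 21 * z * f - 58248 * x ^ 4 * y ^ 21 * z + 900 * x ^ 4 * y ^ 21
      - 40368 * x ^ 3 * y ^ 22 * z * f - 25572 * x ^ 3 * y ^ 22 * z - 264 * x ^ 3 * y ^ 22
      - 7656 * x ^ 2 * y ^ 23 * z * f - 4608 * x ^ 2 * y ^ 23 * z + 96 * x ^ 2 * y ^ 23
      - 36 * x * y ^ 24 * z + 36 * x * y ^ 24) * hf +
    (4872 * x ^ 21 * y ^ 4 * f ^ 2 + 5808 * x ^ 21 * y ^ 4 * f + 1728 * x ^ 21 * y ^ 4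
      + 9744 * x ^ 20 * y ^ 5 * f ^ 2 + 11616 * x ^ 20 * y ^ 5 * f + 3456 * x ^ 20 * y ^ 5
      + 9048 * x ^ 19 * y ^ 6 * f ^ 2 + 9792 * x ^ 19 * y ^ 6 * f + 2592 * x ^ 19 * y ^ 6
      + 4176 * x ^ 18 * y ^ 7 * f ^ 2 + 3984 * x ^ 18 * y ^ 7 * f + 864 * x ^ 18 * y ^ 7
      + 1392 * x ^ 17 * y ^ 8 * f ^ 2 + 168 * x ^ 17 * y ^ 8 * f - 432 * x ^ 17 * y ^ 8
      + 106488 * x ^ 16 * y ^ 9 * f ^ 2 + 129432 * x ^ 16 * y ^ 9 * f + 39312 * x ^ 16 * y ^ 9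
      + 212976 * x ^ 15 * y ^ 10 * f ^ 2 + 258864 * x ^ 15 * y ^ 10 * f + 78624 * x ^ 15 * y ^ 10
      + 192792 * x ^ 14 * y ^ 11 * f ^ 2 + 223368 * x ^ 14 * y ^ 11 * f + 64368 * x ^ 14 * y ^ 11
      + 86304 * x ^ 13 * y ^ 12 * f ^ 2 + 93936 * x ^ 13 * y ^ 12 * f + 25056 * x ^ 13 * y ^ 12
      + 22968 * x ^ 12 * y ^ 13 * f ^ 2 + 11472 * x ^ 12 * y ^ 13 * f - 1728 * x ^ 12 * y ^ 13
      + 576984 * x ^ 11 * y ^ 14 * f ^ 2 + 715176 * x ^ 11 * y ^ 14 * f + 221616 * x ^ 11 * y ^ 14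
      + 1153968 * x ^ 10 * y ^ 15 * f ^ 2 + 1430352 * x ^ 10 * y ^ 15 * f + 443232 * x ^ 10 * y ^ 15
      + 1016856 * x ^ 9 * y ^ 16 * f ^ 2 + 1262424 * x ^ 9 * y ^ 16 * f + 391824 * x ^ 9 * y ^ 16
      + 439872 * x ^ 8 * y ^ 17 * f ^ 2 + 547248 * x ^ 8 * y ^ 17 * f + 170208 * x ^ 8 * y ^ 17
      + 82824 * x ^ 7 * y ^ 18 * f ^ 2 + 105696 * x ^ 7 * y ^ 18 * f + 33696 * x ^ 7 * y ^ 18
      - 52896 * x ^ 6 * y ^ 19 * f ^ 2 - 65544 * x ^ 6 * y ^ 19 * f - 20304 * x ^ 6 * y ^ 19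
      - 105792 * x ^ 5 * y ^ 20 * f ^ 2 - 131088 * x ^ 5 * y ^ 20 * f - 40608 * x ^ 5 * y ^ 20
      - 93264 * x ^ 4 * y ^ 21 * f ^ 2 - 115656 * x ^ 4 * y ^ 21 * f - 35856 * x ^ 4 * y ^ 21
      - 40368 * x ^ 3 * y ^ 22 * f ^ 2 - 50112 * x ^ 3 * y ^ 22 * f - 15552 * x ^ 3 * y ^ 22
      - 7656 * x ^ 2 * y ^ 23 * f ^ 2 - 9624 * x ^ 2 * y ^ 23 * f - 3024 * x ^ 2 * y ^ 23) * hz

lemma diff_cof (hf : f ^ 2 = f + 1) (x y : K) :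
    (rXQ f z x y - rX0 f z x y) * ((1 / 4) * x ^ 10 * f - (5 / 12) * x ^ 10 - (1 / 3) * x ^ 8 * y ^ 2 * f
      + (7 / 12) * x ^ 8 * y ^ 2 + (1 / 3) * x ^ 7 * y ^ 3 * f - (7 / 12) * x ^ 7 * y ^ 3
      - (1 / 4) * x ^ 6 * y ^ 4 * f + (1 / 3) * x ^ 6 * y ^ 4 + (35 / 12) * x ^ 5 * y ^ 5 * f
      - (14 / 3) * x ^ 5 * y ^ 5 - (47 / 12) * x ^ 3 * y ^ 7 * f + (19 / 3) * x ^ 3 * y ^ 7
      + (47 / 12) * x ^ 2 * y ^ 8 * f - (19 / 3) * x ^ 2 * y ^ 8 - (29 / 12) * x * y ^ 9 * f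
      + (47 / 12) * x * y ^ 9 + (2 / 3) * y ^ 10 * f - (13 / 12) * y ^ 10) =
      h10 x y ^ 2 := by
  unfold rXQ rX0 h10
  linear_combination (-9 * x ^ 20 - 21 * x ^ 18 * y ^ 2 + 21 * x ^ 17 * y ^ 3 - 13 * x ^ 16 * y ^ 4
      - 193 * x ^ 15 * y ^ 5 - 464 * x ^ 13 * y ^ 7 + 464 * x ^ 12 * y ^ 8 - 287 * x ^ 11 * y ^ 9
      - 961 * x ^ 10 * y ^ 10 - 2542 * x ^ 8 * y ^ 12 + 2542 * x ^ 7 * y ^ 13 - 1571 * x ^ 6 * y ^ 14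
      + 798 * x ^ 5 * y ^ 15 + 233 * x ^ 3 * y ^ 17 - 233 * x ^ 2 * y ^ 18 + 144 * x * y ^ 19
      - 64 * y ^ 20) * hf

end Fermat.Agent.Sw35
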