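import Fermat.Agent.Sw35.Klein

set_option autoImplicit false
set_option maxHeartbeats 8000000

/-!
# The family of curves with constant five torsion: explicit covariants

Generated by a computer algebra script.
-/

namespace Fermat.Agent.Sw35

section defs
variable {R : Type*} [CommRing R]

def F0 (A B : R) : R := A

def F1 (A B : R) : R := -5 * A ^ 3 - 66 * A ^ 2 * B + 7 * A * B ^ 2

def F2 (A B : R) : R := 10 * A ^ 5 + 264 * A ^ 4 * B + 1772 * A ^ 3 * B ^ 2 + 264 * A ^ 2 * B ^ 3 - 38 * A * B ^ 4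

def F3 (A B : R) : R := -10 * A ^ 7 - 396 * A ^ 6 * B - 5358 * A ^ 5 * B ^ 2 - 24552 * A ^ 4 * B ^ 3
      - 966 * A ^ 3 * B ^ 4 - 396 * A ^ 2 * B ^ 5 + 62 * A * B ^ 6

def F4 (A B : R) : R := 5 * A ^ 9 + 264 * A ^ 8 * B + 5372 * A ^ 7 * B ^ 2 + 48312 * A ^ 6 * B ^ 3
      + 164046 * A ^ 5 * B ^ 4 + 48312 * A ^ 4 * B ^ 5 - 3364 * A ^ 3 * B ^ 6 + 264 * A ^ 2 * B ^ 7
      - 43 * A * B ^ 8

def F5 (A B : R) : R := -A ^ 11 - 66 * A ^ 10 * B - 1793 * A ^ 9 * B ^ 2 - 24024 * A ^ 8 * B ^ 3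
      - 163042 * A ^ 7 * B ^ 4 - 475596 * A ^ 6 * B ^ 5 - 80938 * A ^ 5 * B ^ 6
      - 24024 * A ^ 4 * B ^ 7 + 2563 * A ^ 3 * B ^ 8 - 66 * A ^ 2 * B ^ 9 + 11 * A * B ^ 10

/-- the first Tate parameter of the transformed point -/
def Ff (A B t : R) : R :=
  F0 A B + t * F1 A B + t ^ 2 * F2 A B + t ^ 3 * F3 A B + t ^ 4 * F4 A B + t ^ 5 * F5 A B

/-- the second Tate parameter of the transformed point -/
def Gf (A B t : R) : R := Ff B (-A) t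

def al (x y : R) : R := x ^ 10 + 66 * x ^ 5 * y ^ 5 - 11 * y ^ 10

def be (x y : R) : R := 11 * x ^ 10 + 66 * x ^ 5 * y ^ 5 - y ^ 10

def Ux (f t x y : R) : R := x * (1 - t * kp f * al x y)

def Uy (f t x y : R) : R := y * (1 + t * kp f * be x y)

end defs

lemma Ff_neg {R : Type*} [CommRing R] (A B t : R) : Ff (-A) (-B) t = -Ff A B t := by
  unfold Ff F0 F1 F2 F3 F4 F5; ring

lemma Gf_swap {R : Type*} [CommRing R] (A B t : R) : Gf B (-A) t = -Ff A B t := by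
  unfold Gf; rw [Ff_neg]

lemma Ff_swap {R : Type*} [CommRing R] (A B t : R) : Ff B (-A) t = Gf A B t := rfl

lemma Gf_neg {R : Type*} [CommRing R] (A B t : R) : Gf (-A) (-B) t = -Gf A B t := by
  unfold Gf; rw [Ff_neg]

lemma Ff_map {R S : Type*} [CommRing R] [CommRing S] (φ : R →+* S) (A B t : R) :
    Ff (φ A) (φ B) (φ t) = φ (Ff A B t) := by
  simp only [Ff, F0, F1, F2, F3, F4, F5, map_add, map_mul, map_sub, map_neg, map_pow, map_ofNat]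

lemma Gf_map {R S : Type*} [CommRing R] [CommRing S] (φ : R →+* S) (A B t : R) :
    Gf (φ A) (φ B) (φ t) = φ (Gf A B t) := by
  unfold Gf; rw [← map_neg, Ff_map]

variable {K : Type*} [Field K] [CharZero K] {f z : K}

/-- first entry of the matrix `S` -/
def sc (f z : K) : K := (2 * z - f + 1) * (2 * f - 1) / 5

def Sx (f z x y : K) : K := sc f z * (x - (f - 1) * y)

def Sy (f z x y : K) : K := -(sc f z * ((f - 1) * x + y))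

lemma sc_sq (hf : f ^ 2 = f + 1) (hz : z ^ 2 = (f - 1) * z - 1) :
    sc f z ^ 2 = -(f + 2) / 5 := by
  unfold sc
  linear_combination ((4 / 25) * f ^ 2 - (8 / 25) * f - (7 / 25)) * hf +
    ((16 / 25) * f ^ 2 - (16 / 25) * f + (4 / 25)) * hz

lemma sc_ten (hf : f ^ 2 = f + 1) (hz : z ^ 2 = (f - 1) * z - 1) :
    sc f z ^ 10 = kp f / 125 := by
  have : sc f z ^ 10 = (sc f z ^ 2) ^ 5 := by ring
  rw [this, sc_sq hf hz]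
  unfold kp
  linear_combination (-(1 / 3125) * f ^ 3 - (11 / 3125) * f ^ 2 - (52 / 3125) * f - (143 / 3125)) * hf

lemma sc_five (hf : f ^ 2 = f + 1) (hz : z ^ 2 = (f - 1) * z - 1) :
    sc f z ^ 5 = (6 / 25) * z * f + (2 / 25) * z - (1 / 25) * f - (2 / 25) := by
  have : sc f z ^ 5 = sc f z * (sc f z ^ 2) ^ 2 := by ring
  rw [this, sc_sq hf hz]
  unfold sc
  linear_combination ((4 / 125) * z * f + (18 / 125) * z - (2 / 125) * f ^ 2 - (7 / 125) * f - (6 / 125)) * hf +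
    (0) * hz

lemma m5_eq (hf : f ^ 2 = f + 1) (x y : K) :
    (x - (f - 1) * y) ^ 5 = x ^ 5 - 5 * x ^ 4 * y * f + 5 * x ^ 4 * y - 10 * x ^ 3 * y ^ 2 * f + 20 * x ^ 3 * y ^ 2
      - 20 * x ^ 2 * y ^ 3 * f + 30 * x ^ 2 * y ^ 3 - 15 * x * y ^ 4 * f + 25 * x * y ^ 4
      - 5 * y ^ 5 * f + 8 * y ^ 5 := by
  linear_combination (10 * x ^ 3 * y ^ 2 - 10 * x ^ 2 * y ^ 3 * f + 20 * x ^ 2 * y ^ 3 + 5 * x * y ^ 4 * f ^ 2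
      - 15 * x * y ^ 4 * f + 20 * x * y ^ 4 - y ^ 5 * f ^ 3 + 4 * y ^ 5 * f ^ 2 - 7 * y ^ 5 * f
      + 7 * y ^ 5) * hf

lemma n5_eq (hf : f ^ 2 = f + 1) (x y : K) :
    ((f - 1) * x + y) ^ 5 = 5 * x ^ 5 * f - 8 * x ^ 5 - 15 * x ^ 4 * y * f + 25 * x ^ 4 * y + 20 * x ^ 3 * y ^ 2 * f
      - 30 * x ^ 3 * y ^ 2 - 10 * x ^ 2 * y ^ 3 * f + 20 * x ^ 2 * y ^ 3 + 5 * x * y ^ 4 * f
      - 5 * x * y ^ 4 + y ^ 5 := by
  linear_combination (x ^ 5 * f ^ 3 - 4 * x ^ 5 * f ^ 2 + 7 * x ^ 5 * f - 7 * x ^ 5 + 5 * x ^ 4 * y * f ^ 2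
      - 15 * x ^ 4 * y * f + 20 * x ^ 4 * y + 10 * x ^ 3 * y ^ 2 * f - 20 * x ^ 3 * y ^ 2
      + 10 * x ^ 2 * y ^ 3) * hf

lemma A0_S (hf : f ^ 2 = f + 1) (hz : z ^ 2 = (f - 1) * z - 1) (x y : K) :
    A0 f (Sx f z x y) (Sy f z x y) = -(ta f z * uf x y) := by
  have : A0 f (Sx f z x y) (Sy f z x y) = sc f z ^ 5 *
      ((x - (f - 1) * y) ^ 5 - (5 * f + 3) * ((f - 1) * x + y) ^ 5) := by
    unfold A0 Sx Sy; ring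
  rw [this, sc_five hf hz, m5_eq hf, n5_eq hf]
  unfold ta uf
  linear_combination (-6 * x ^ 5 * z * f - 2 * x ^ 5 * z + x ^ 5 * f + 2 * x ^ 5 + 18 * x ^ 4 * y * z * f
      + (18 / 5) * x ^ 4 * y * z - 3 * x ^ 4 * y * f - (33 / 5) * x ^ 4 * y
      - 24 * x ^ 3 * y ^ 2 * z * f - (64 / 5) * x ^ 3 * y ^ 2 * z + 4 * x ^ 3 * y ^ 2 * f
      + (34 / 5) * x ^ 3 * y ^ 2 + 12 * x ^ 2 * y ^ 3 * z * f - (28 / 5) * x ^ 2 * y ^ 3 * z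
      - 2 * x ^ 2 * y ^ 3 * f - (32 / 5) * x ^ 2 * y ^ 3 - 6 * x * y ^ 4 * z * f
      - (46 / 5) * x * y ^ 4 * z + x * y ^ 4 * f + (1 / 5) * x * y ^ 4 - (12 / 5) * y ^ 5 * z
      - (3 / 5) * y ^ 5) * hf +
    (0) * hz

lemma B0_S (hf : f ^ 2 = f + 1) (hz : z ^ 2 = (f - 1) * z - 1) (x y : K) :
    B0 f (Sx f z x y) (Sy f z x y) = ta f z * vf x y := by
  have : B0 f (Sx f z x y) (Sy f z x y) = sc f z ^ 5 *
      ((5 * f + 3) * (x - (f - 1) * y) ^ 5 + ((f - 1) * x + y) ^ 5) := by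
    unfold B0 Sx Sy; ring
  rw [this, sc_five hf hz, m5_eq hf, n5_eq hf]
  unfold ta vf
  linear_combination ((12 / 5) * x ^ 5 * z + (3 / 5) * x ^ 5 - 6 * x ^ 4 * y * z * f - (46 / 5) * x ^ 4 * y * z
      + x ^ 4 * y * f + (1 / 5) * x ^ 4 * y - 12 * x ^ 3 * y ^ 2 * z * f
      + (28 / 5) * x ^ 3 * y ^ 2 * z + 2 * x ^ 3 * y ^ 2 * f + (32 / 5) * x ^ 3 * y ^ 2
      - 24 * x ^ 2 * y ^ 3 * z * f - (64 / 5) * x ^ 2 * y ^ 3 * z + 4 * x ^ 2 * y ^ 3 * f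
      + (34 / 5) * x ^ 2 * y ^ 3 - 18 * x * y ^ 4 * z * f - (18 / 5) * x * y ^ 4 * z
      + 3 * x * y ^ 4 * f + (33 / 5) * x * y ^ 4 - 6 * y ^ 5 * z * f - 2 * y ^ 5 * z + y ^ 5 * f
      + 2 * y ^ 5) * hf +
    (0) * hz

lemma mm_eq (hf : f ^ 2 = f + 1) (x y : K) :
    (x - (f - 1) * y) ^ 10 = x ^ 10 - 10 * x ^ 9 * y * f + 10 * x ^ 9 * y - 45 * x ^ 8 * y ^ 2 * f + 90 * x ^ 8 * y ^ 2
      - 240 * x ^ 7 * y ^ 3 * f + 360 * x ^ 7 * y ^ 3 - 630 * x ^ 6 * y ^ 4 * f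
      + 1050 * x ^ 6 * y ^ 4 - 1260 * x ^ 5 * y ^ 5 * f + 2016 * x ^ 5 * y ^ 5
      - 1680 * x ^ 4 * y ^ 6 * f + 2730 * x ^ 4 * y ^ 6 - 1560 * x ^ 3 * y ^ 7 * f
      + 2520 * x ^ 3 * y ^ 7 - 945 * x ^ 2 * y ^ 8 * f + 1530 * x ^ 2 * y ^ 8 - 340 * x * y ^ 9 * f
      + 550 * x * y ^ 9 - 55 * y ^ 10 * f + 89 * y ^ 10 := by
  have : (x - (f - 1) * y) ^ 10 = ((x - (f - 1) * y) ^ 5) ^ 2 := by ring
  rw [this, m5_eq hf]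
  linear_combination (25 * x ^ 8 * y ^ 2 + 100 * x ^ 7 * y ^ 3 + 300 * x ^ 6 * y ^ 4 + 550 * x ^ 5 * y ^ 5
      + 750 * x ^ 4 * y ^ 6 + 700 * x ^ 3 * y ^ 7 + 425 * x ^ 2 * y ^ 8 + 150 * x * y ^ 9
      + 25 * y ^ 10) * hf

lemma mn_eq (hf : f ^ 2 = f + 1) (x y : K) :
    (x - (f - 1) * y) ^ 5 * (-((f - 1) * x + y)) ^ 5 = -5 * x ^ 10 * f + 8 * x ^ 10 - 25 * x ^ 9 * y * f + 40 * x ^ 9 * y - 25 * x ^ 8 * y ^ 2 * f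
      + 40 * x ^ 8 * y ^ 2 + 50 * x ^ 7 * y ^ 3 * f - 80 * x ^ 7 * y ^ 3 + 75 * x ^ 6 * y ^ 4 * f
      - 120 * x ^ 6 * y ^ 4 - 55 * x ^ 5 * y ^ 5 * f + 88 * x ^ 5 * y ^ 5 - 75 * x ^ 4 * y ^ 6 * f
      + 120 * x ^ 4 * y ^ 6 + 50 * x ^ 3 * y ^ 7 * f - 80 * x ^ 3 * y ^ 7 + 25 * x ^ 2 * y ^ 8 * f
      - 40 * x ^ 2 * y ^ 8 - 25 * x * y ^ 9 * f + 40 * x * y ^ 9 + 5 * y ^ 10 * f - 8 * y ^ 10 := by
  have : (x - (f - 1) * y) ^ 5 * (-((f - 1) * x + y)) ^ 5 =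
    -((x - (f - 1) * y) ^ 5 * ((f - 1) * x + y) ^ 5) := by ring
  rw [this, m5_eq hf, n5_eq hf]
  linear_combination (25 * x ^ 9 * y - 25 * x ^ 8 * y ^ 2 + 50 * x ^ 7 * y ^ 3 - 75 * x ^ 6 * y ^ 4
      + 125 * x ^ 5 * y ^ 5 + 75 * x ^ 4 * y ^ 6 + 50 * x ^ 3 * y ^ 7 + 25 * x ^ 2 * y ^ 8
      + 25 * x * y ^ 9) * hf

lemma nn_eq (hf : f ^ 2 = f + 1) (x y : K) :
    (-((f - 1) * x + y)) ^ 10 = -55 * x ^ 10 * f + 89 * x ^ 10 + 340 * x ^ 9 * y * f - 550 * x ^ 9 * y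
      - 945 * x ^ 8 * y ^ 2 * f + 1530 * x ^ 8 * y ^ 2 + 1560 * x ^ 7 * y ^ 3 * f
      - 2520 * x ^ 7 * y ^ 3 - 1680 * x ^ 6 * y ^ 4 * f + 2730 * x ^ 6 * y ^ 4
      + 1260 * x ^ 5 * y ^ 5 * f - 2016 * x ^ 5 * y ^ 5 - 630 * x ^ 4 * y ^ 6 * f
      + 1050 * x ^ 4 * y ^ 6 + 240 * x ^ 3 * y ^ 7 * f - 360 * x ^ 3 * y ^ 7 - 45 * x ^ 2 * y ^ 8 * f
      + 90 * x ^ 2 * y ^ 8 + 10 * x * y ^ 9 * f - 10 * x * y ^ 9 + y ^ 10 := by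
  have : (-((f - 1) * x + y)) ^ 10 = (((f - 1) * x + y) ^ 5) ^ 2 := by ring
  rw [this, n5_eq hf]
  linear_combination (25 * x ^ 10 - 150 * x ^ 9 * y + 425 * x ^ 8 * y ^ 2 - 700 * x ^ 7 * y ^ 3 + 750 * x ^ 6 * y ^ 4
      - 550 * x ^ 5 * y ^ 5 + 300 * x ^ 4 * y ^ 6 - 100 * x ^ 3 * y ^ 7 + 25 * x ^ 2 * y ^ 8) * hf

lemma w_eq1 (hf : f ^ 2 = f + 1) (x y : K) :
    kp f / 125 * ((x - (f - 1) * y) * al (x - (f - 1) * y) (-((f - 1) * x + y))) =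
      x * al x y + (f - 1) * (y * be x y) := by
  unfold al be
  rw [mul_assoc (66 : K) ((x - (f - 1) * y) ^ 5), mul_assoc (66 : K) (x ^ 5), mm_eq hf, mn_eq hf, nn_eq hf]
  unfold kp
  linear_combination (-(121 / 5) * x ^ 11 + (121 / 5) * x ^ 10 * y * f + 451 * x ^ 10 * y
      - (2376 / 5) * x ^ 9 * y ^ 2 * f - (1512 / 5) * x ^ 9 * y ^ 2 + (3828 / 5) * x ^ 8 * y ^ 3 * f
      + (2436 / 5) * x ^ 8 * y ^ 3 - (6204 / 5) * x ^ 7 * y ^ 4 * f - (3948 / 5) * x ^ 7 * y ^ 4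
      + (10032 / 5) * x ^ 6 * y ^ 5 * f - (1602 / 5) * x ^ 6 * y ^ 5 - 1650 * x ^ 5 * y ^ 6 * f
      + (7818 / 5) * x ^ 5 * y ^ 6 + (132 / 5) * x ^ 4 * y ^ 7 * f + (84 / 5) * x ^ 4 * y ^ 7
      - (396 / 5) * x ^ 3 * y ^ 8 * f - (252 / 5) * x ^ 3 * y ^ 8 + (528 / 5) * x ^ 2 * y ^ 9 * f
      + (336 / 5) * x ^ 2 * y ^ 9 - (924 / 5) * x * y ^ 10 * f + (743 / 5) * x * y ^ 10
      + (121 / 5) * y ^ 11 * f - (121 / 5) * y ^ 11) * hf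

lemma w_eq2 (hf : f ^ 2 = f + 1) (x y : K) :
    kp f / 125 * (-((f - 1) * x + y) * be (x - (f - 1) * y) (-((f - 1) * x + y))) =
      (f - 1) * (x * al x y) - y * be x y := by
  unfold al be
  rw [mul_assoc (66 : K) ((x - (f - 1) * y) ^ 5), mul_assoc (66 : K) (x ^ 5), mm_eq hf, mn_eq hf, nn_eq hf]
  unfold kp
  linear_combination (-(121 / 5) * x ^ 11 * f + (121 / 5) * x ^ 11 - (924 / 5) * x ^ 10 * y * f
      + (743 / 5) * x ^ 10 * y - (528 / 5) * x ^ 9 * y ^ 2 * f - (336 / 5) * x ^ 9 * y ^ 2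
      - (396 / 5) * x ^ 8 * y ^ 3 * f - (252 / 5) * x ^ 8 * y ^ 3 - (132 / 5) * x ^ 7 * y ^ 4 * f
      - (84 / 5) * x ^ 7 * y ^ 4 - 1650 * x ^ 6 * y ^ 5 * f + (7818 / 5) * x ^ 6 * y ^ 5
      - (10032 / 5) * x ^ 5 * y ^ 6 * f + (1602 / 5) * x ^ 5 * y ^ 6 - (6204 / 5) * x ^ 4 * y ^ 7 * f
      - (3948 / 5) * x ^ 4 * y ^ 7 - (3828 / 5) * x ^ 3 * y ^ 8 * f - (2436 / 5) * x ^ 3 * y ^ 8
      - (2376 / 5) * x ^ 2 * y ^ 9 * f - (1512 / 5) * x ^ 2 * y ^ 9 - (121 / 5) * x * y ^ 10 * f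
      - 451 * x * y ^ 10 - (121 / 5) * y ^ 11) * hf

lemma S_Ux (hf : f ^ 2 = f + 1) (hz : z ^ 2 = (f - 1) * z - 1) (t x y : K) :
    Ux f t (Sx f z x y) (Sy f z x y) = Sx f z (Ux f t x y) (Uy f t x y) := by
  have h1 : al (Sx f z x y) (Sy f z x y) =
      sc f z ^ 10 * al (x - (f - 1) * y) (-((f - 1) * x + y)) := by
    unfold al Sx Sy; ring
  have h2 := w_eq1 hf x y
  unfold Ux
  rw [h1, sc_ten hf hz]
  unfold Sx Uy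
  linear_combination -(sc f z * t * kp f) * h2

lemma S_Uy (hf : f ^ 2 = f + 1) (hz : z ^ 2 = (f - 1) * z - 1) (t x y : K) :
    Uy f t (Sx f z x y) (Sy f z x y) = Sy f z (Ux f t x y) (Uy f t x y) := by
  have h1 : be (Sx f z x y) (Sy f z x y) =
      sc f z ^ 10 * be (x - (f - 1) * y) (-((f - 1) * x + y)) := by
    unfold be Sx Sy; ring
  have h2 := w_eq2 hf x y
  unfold Uy
  rw [h1, sc_ten hf hz]
  unfold Sy Ux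
  linear_combination (sc f z * t * kp f) * h2

/-! reduced powers -/

lemma pA1 (x y : K) :
    (x + (5 * f + 3) * y) ^ 1 = x + 5 * y * f + 3 * y := by
  ring

lemma pB1 (x y : K) :
    ((5 * f + 3) * x - y) ^ 1 = 5 * x * f + 3 * x - y := by
  ring

lemma pA2 (hf : f ^ 2 = f + 1) (x y : K) :
    (x + (5 * f + 3) * y) ^ 2 = x ^ 2 + 10 * x * y * f + 6 * x * y + 55 * y ^ 2 * f + 34 * y ^ 2 := by
  rw [pow_succ, pA1]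
  linear_combination (25 * y ^ 2) * hf

lemma pB2 (hf : f ^ 2 = f + 1) (x y : K) :
    ((5 * f + 3) * x - y) ^ 2 = 55 * x ^ 2 * f + 34 * x ^ 2 - 10 * x * y * f - 6 * x * y + y ^ 2 := by
  rw [pow_succ, pB1]
  linear_combination (25 * x ^ 2) * hf

lemma pA3 (hf : f ^ 2 = f + 1) (x y : K) :
    (x + (5 * f + 3) * y) ^ 3 = x ^ 3 + 15 * x ^ 2 * y * f + 9 * x ^ 2 * y + 165 * x * y ^ 2 * f + 102 * x * y ^ 2
      + 610 * y ^ 3 * f + 377 * y ^ 3 := by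
  rw [pow_succ, pA2 hf]
  linear_combination (50 * x * y ^ 2 + 275 * y ^ 3) * hf

lemma pB3 (hf : f ^ 2 = f + 1) (x y : K) :
    ((5 * f + 3) * x - y) ^ 3 = 610 * x ^ 3 * f + 377 * x ^ 3 - 165 * x ^ 2 * y * f - 102 * x ^ 2 * y + 15 * x * y ^ 2 * f
      + 9 * x * y ^ 2 - y ^ 3 := by
  rw [pow_succ, pB2 hf]
  linear_combination (275 * x ^ 3 - 50 * x ^ 2 * y) * hf

lemma pA4 (hf : f ^ 2 = f + 1) (x y : K) :
    (x + (5 * f + 3) * y) ^ 4 = x ^ 4 + 20 * x ^ 3 * y * f + 12 * x ^ 3 * y + 330 * x ^ 2 * y ^ 2 * f + 204 * x ^ 2 * y ^ 2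
      + 2440 * x * y ^ 3 * f + 1508 * x * y ^ 3 + 6765 * y ^ 4 * f + 4181 * y ^ 4 := by
  rw [pow_succ, pA3 hf]
  linear_combination (75 * x ^ 2 * y ^ 2 + 825 * x * y ^ 3 + 3050 * y ^ 4) * hf

lemma pB4 (hf : f ^ 2 = f + 1) (x y : K) :
    ((5 * f + 3) * x - y) ^ 4 = 6765 * x ^ 4 * f + 4181 * x ^ 4 - 2440 * x ^ 3 * y * f - 1508 * x ^ 3 * y
      + 330 * x ^ 2 * y ^ 2 * f + 204 * x ^ 2 * y ^ 2 - 20 * x * y ^ 3 * f - 12 * x * y ^ 3 + y ^ 4 := by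
  rw [pow_succ, pB3 hf]
  linear_combination (3050 * x ^ 4 - 825 * x ^ 3 * y + 75 * x ^ 2 * y ^ 2) * hf

lemma pA5 (hf : f ^ 2 = f + 1) (x y : K) :
    (x + (5 * f + 3) * y) ^ 5 = x ^ 5 + 25 * x ^ 4 * y * f + 15 * x ^ 4 * y + 550 * x ^ 3 * y ^ 2 * f + 340 * x ^ 3 * y ^ 2
      + 6100 * x ^ 2 * y ^ 3 * f + 3770 * x ^ 2 * y ^ 3 + 33825 * x * y ^ 4 * f + 20905 * x * y ^ 4
      + 75025 * y ^ 5 * f + 46368 * y ^ 5 := by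
  rw [pow_succ, pA4 hf]
  linear_combination (100 * x ^ 3 * y ^ 2 + 1650 * x ^ 2 * y ^ 3 + 12200 * x * y ^ 4 + 33825 * y ^ 5) * hf

lemma pB5 (hf : f ^ 2 = f + 1) (x y : K) :
    ((5 * f + 3) * x - y) ^ 5 = 75025 * x ^ 5 * f + 46368 * x ^ 5 - 33825 * x ^ 4 * y * f - 20905 * x ^ 4 * y
      + 6100 * x ^ 3 * y ^ 2 * f + 3770 * x ^ 3 * y ^ 2 - 550 * x ^ 2 * y ^ 3 * f
      - 340 * x ^ 2 * y ^ 3 + 25 * x * y ^ 4 * f + 15 * x * y ^ 4 - y ^ 5 := by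
  rw [pow_succ, pB4 hf]
  linear_combination (33825 * x ^ 5 - 12200 * x ^ 4 * y + 1650 * x ^ 3 * y ^ 2 - 100 * x ^ 2 * y ^ 3) * hf

lemma pA6 (hf : f ^ 2 = f + 1) (x y : K) :
    (x + (5 * f + 3) * y) ^ 6 = x ^ 6 + 30 * x ^ 5 * y * f + 18 * x ^ 5 * y + 825 * x ^ 4 * y ^ 2 * f + 510 * x ^ 4 * y ^ 2
      + 12200 * x ^ 3 * y ^ 3 * f + 7540 * x ^ 3 * y ^ 3 + 101475 * x ^ 2 * y ^ 4 * f
      + 62715 * x ^ 2 * y ^ 4 + 450150 * x * y ^ 5 * f + 278208 * x * y ^ 5 + 832040 * y ^ 6 * f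
      + 514229 * y ^ 6 := by
  rw [pow_succ, pA5 hf]
  linear_combination (125 * x ^ 4 * y ^ 2 + 2750 * x ^ 3 * y ^ 3 + 30500 * x ^ 2 * y ^ 4 + 169125 * x * y ^ 5
      + 375125 * y ^ 6) * hf

lemma pB6 (hf : f ^ 2 = f + 1) (x y : K) :
    ((5 * f + 3) * x - y) ^ 6 = 832040 * x ^ 6 * f + 514229 * x ^ 6 - 450150 * x ^ 5 * y * f - 278208 * x ^ 5 * y
      + 101475 * x ^ 4 * y ^ 2 * f + 62715 * x ^ 4 * y ^ 2 - 12200 * x ^ 3 * y ^ 3 * f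
      - 7540 * x ^ 3 * y ^ 3 + 825 * x ^ 2 * y ^ 4 * f + 510 * x ^ 2 * y ^ 4 - 30 * x * y ^ 5 * f
      - 18 * x * y ^ 5 + y ^ 6 := by
  rw [pow_succ, pB5 hf]
  linear_combination (375125 * x ^ 6 - 169125 * x ^ 5 * y + 30500 * x ^ 4 * y ^ 2 - 2750 * x ^ 3 * y ^ 3
      + 125 * x ^ 2 * y ^ 4) * hf

lemma pA7 (hf : f ^ 2 = f + 1) (x y : K) :
    (x + (5 * f + 3) * y) ^ 7 = x ^ 7 + 35 * x ^ 6 * y * f + 21 * x ^ 6 * y + 1155 * x ^ 5 * y ^ 2 * f + 714 * x ^ 5 * y ^ 2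
      + 21350 * x ^ 4 * y ^ 3 * f + 13195 * x ^ 4 * y ^ 3 + 236775 * x ^ 3 * y ^ 4 * f
      + 146335 * x ^ 3 * y ^ 4 + 1575525 * x ^ 2 * y ^ 5 * f + 973728 * x ^ 2 * y ^ 5
      + 5824280 * x * y ^ 6 * f + 3599603 * x * y ^ 6 + 9227465 * y ^ 7 * f + 5702887 * y ^ 7 := by
  rw [pow_succ, pA6 hf]
  linear_combination (150 * x ^ 5 * y ^ 2 + 4125 * x ^ 4 * y ^ 3 + 61000 * x ^ 3 * y ^ 4 + 507375 * x ^ 2 * y ^ 5
      + 2250750 * x * y ^ 6 + 4160200 * y ^ 7) * hf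

lemma pB7 (hf : f ^ 2 = f + 1) (x y : K) :
    ((5 * f + 3) * x - y) ^ 7 = 9227465 * x ^ 7 * f + 5702887 * x ^ 7 - 5824280 * x ^ 6 * y * f - 3599603 * x ^ 6 * y
      + 1575525 * x ^ 5 * y ^ 2 * f + 973728 * x ^ 5 * y ^ 2 - 236775 * x ^ 4 * y ^ 3 * f
      - 146335 * x ^ 4 * y ^ 3 + 21350 * x ^ 3 * y ^ 4 * f + 13195 * x ^ 3 * y ^ 4
      - 1155 * x ^ 2 * y ^ 5 * f - 714 * x ^ 2 * y ^ 5 + 35 * x * y ^ 6 * f + 21 * x * y ^ 6 - y ^ 7 := by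
  rw [pow_succ, pB6 hf]
  linear_combination (4160200 * x ^ 7 - 2250750 * x ^ 6 * y + 507375 * x ^ 5 * y ^ 2 - 61000 * x ^ 4 * y ^ 3
      + 4125 * x ^ 3 * y ^ 4 - 150 * x ^ 2 * y ^ 5) * hf

lemma pA8 (hf : f ^ 2 = f + 1) (x y : K) :
    (x + (5 * f + 3) * y) ^ 8 = x ^ 8 + 40 * x ^ 7 * y * f + 24 * x ^ 7 * y + 1540 * x ^ 6 * y ^ 2 * f + 952 * x ^ 6 * y ^ 2
      + 34160 * x ^ 5 * y ^ 3 * f + 21112 * x ^ 5 * y ^ 3 + 473550 * x ^ 4 * y ^ 4 * f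
      + 292670 * x ^ 4 * y ^ 4 + 4201400 * x ^ 3 * y ^ 5 * f + 2596608 * x ^ 3 * y ^ 5
      + 23297120 * x ^ 2 * y ^ 6 * f + 14398412 * x ^ 2 * y ^ 6 + 73819720 * x * y ^ 7 * f
      + 45623096 * x * y ^ 7 + 102334155 * y ^ 8 * f + 63245986 * y ^ 8 := by
  rw [pow_succ, pA7 hf]
  linear_combination (175 * x ^ 6 * y ^ 2 + 5775 * x ^ 5 * y ^ 3 + 106750 * x ^ 4 * y ^ 4 + 1183875 * x ^ 3 * y ^ 5
      + 7877625 * x ^ 2 * y ^ 6 + 29121400 * x * y ^ 7 + 46137325 * y ^ 8) * hf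

lemma pB8 (hf : f ^ 2 = f + 1) (x y : K) :
    ((5 * f + 3) * x - y) ^ 8 = 102334155 * x ^ 8 * f + 63245986 * x ^ 8 - 73819720 * x ^ 7 * y * f - 45623096 * x ^ 7 * y
      + 23297120 * x ^ 6 * y ^ 2 * f + 14398412 * x ^ 6 * y ^ 2 - 4201400 * x ^ 5 * y ^ 3 * f
      - 2596608 * x ^ 5 * y ^ 3 + 473550 * x ^ 4 * y ^ 4 * f + 292670 * x ^ 4 * y ^ 4
      - 34160 * x ^ 3 * y ^ 5 * f - 21112 * x ^ 3 * y ^ 5 + 1540 * x ^ 2 * y ^ 6 * f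
      + 952 * x ^ 2 * y ^ 6 - 40 * x * y ^ 7 * f - 24 * x * y ^ 7 + y ^ 8 := by
  rw [pow_succ, pB7 hf]
  linear_combination (46137325 * x ^ 8 - 29121400 * x ^ 7 * y + 7877625 * x ^ 6 * y ^ 2 - 1183875 * x ^ 5 * y ^ 3
      + 106750 * x ^ 4 * y ^ 4 - 5775 * x ^ 3 * y ^ 5 + 175 * x ^ 2 * y ^ 6) * hf

lemma pA9 (hf : f ^ 2 = f + 1) (x y : K) :
    (x + (5 * f + 3) * y) ^ 9 = x ^ 9 + 45 * x ^ 8 * y * f + 27 * x ^ 8 * y + 1980 * x ^ 7 * y ^ 2 * f + 1224 * x ^ 7 * y ^ 2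
      + 51240 * x ^ 6 * y ^ 3 * f + 31668 * x ^ 6 * y ^ 3 + 852390 * x ^ 5 * y ^ 4 * f
      + 526806 * x ^ 5 * y ^ 4 + 9453150 * x ^ 4 * y ^ 5 * f + 5842368 * x ^ 4 * y ^ 5
      + 69891360 * x ^ 3 * y ^ 6 * f + 43195236 * x ^ 3 * y ^ 6 + 332188740 * x ^ 2 * y ^ 7 * f
      + 205303932 * x ^ 2 * y ^ 7 + 921007395 * x * y ^ 8 * f + 569213874 * x * y ^ 8
      + 1134903170 * y ^ 9 * f + 701408733 * y ^ 9 := by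
  rw [pow_succ, pA8 hf]
  linear_combination (200 * x ^ 7 * y ^ 2 + 7700 * x ^ 6 * y ^ 3 + 170800 * x ^ 5 * y ^ 4 + 2367750 * x ^ 4 * y ^ 5
      + 21007000 * x ^ 3 * y ^ 6 + 116485600 * x ^ 2 * y ^ 7 + 369098600 * x * y ^ 8
      + 511670775 * y ^ 9) * hf

lemma pB9 (hf : f ^ 2 = f + 1) (x y : K) :
    ((5 * f + 3) * x - y) ^ 9 = 1134903170 * x ^ 9 * f + 701408733 * x ^ 9 - 921007395 * x ^ 8 * y * f - 569213874 * x ^ 8 * y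
      + 332188740 * x ^ 7 * y ^ 2 * f + 205303932 * x ^ 7 * y ^ 2 - 69891360 * x ^ 6 * y ^ 3 * f
      - 43195236 * x ^ 6 * y ^ 3 + 9453150 * x ^ 5 * y ^ 4 * f + 5842368 * x ^ 5 * y ^ 4
      - 852390 * x ^ 4 * y ^ 5 * f - 526806 * x ^ 4 * y ^ 5 + 51240 * x ^ 3 * y ^ 6 * f
      + 31668 * x ^ 3 * y ^ 6 - 1980 * x ^ 2 * y ^ 7 * f - 1224 * x ^ 2 * y ^ 7 + 45 * x * y ^ 8 * f
      + 27 * x * y ^ 8 - y ^ 9 := by
  rw [pow_succ, pB8 hf]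
  linear_combination (511670775 * x ^ 9 - 369098600 * x ^ 8 * y + 116485600 * x ^ 7 * y ^ 2
      - 21007000 * x ^ 6 * y ^ 3 + 2367750 * x ^ 5 * y ^ 4 - 170800 * x ^ 4 * y ^ 5
      + 7700 * x ^ 3 * y ^ 6 - 200 * x ^ 2 * y ^ 7) * hf

lemma pA10 (hf : f ^ 2 = f + 1) (x y : K) :
    (x + (5 * f + 3) * y) ^ 10 = x ^ 10 + 50 * x ^ 9 * y * f + 30 * x ^ 9 * y + 2475 * x ^ 8 * y ^ 2 * f + 1530 * x ^ 8 * y ^ 2
      + 73200 * x ^ 7 * y ^ 3 * f + 45240 * x ^ 7 * y ^ 3 + 1420650 * x ^ 6 * y ^ 4 * f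
      + 878010 * x ^ 6 * y ^ 4 + 18906300 * x ^ 5 * y ^ 5 * f + 11684736 * x ^ 5 * y ^ 5
      + 174728400 * x ^ 4 * y ^ 6 * f + 107988090 * x ^ 4 * y ^ 6 + 1107295800 * x ^ 3 * y ^ 7 * f
      + 684346440 * x ^ 3 * y ^ 7 + 4605036975 * x ^ 2 * y ^ 8 * f + 2846069370 * x ^ 2 * y ^ 8
      + 11349031700 * x * y ^ 9 * f + 7014087330 * x * y ^ 9 + 12586269025 * y ^ 10 * f
      + 7778742049 * y ^ 10 := by
  rw [pow_succ, pA9 hf]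
  linear_combination (225 * x ^ 8 * y ^ 2 + 9900 * x ^ 7 * y ^ 3 + 256200 * x ^ 6 * y ^ 4 + 4261950 * x ^ 5 * y ^ 5
      + 47265750 * x ^ 4 * y ^ 6 + 349456800 * x ^ 3 * y ^ 7 + 1660943700 * x ^ 2 * y ^ 8
      + 4605036975 * x * y ^ 9 + 5674515850 * y ^ 10) * hf

lemma pB10 (hf : f ^ 2 = f + 1) (x y : K) :
    ((5 * f + 3) * x - y) ^ 10 = 12586269025 * x ^ 10 * f + 7778742049 * x ^ 10 - 11349031700 * x ^ 9 * y * f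
      - 7014087330 * x ^ 9 * y + 4605036975 * x ^ 8 * y ^ 2 * f + 2846069370 * x ^ 8 * y ^ 2
      - 1107295800 * x ^ 7 * y ^ 3 * f - 684346440 * x ^ 7 * y ^ 3 + 174728400 * x ^ 6 * y ^ 4 * f
      + 107988090 * x ^ 6 * y ^ 4 - 18906300 * x ^ 5 * y ^ 5 * f - 11684736 * x ^ 5 * y ^ 5
      + 1420650 * x ^ 4 * y ^ 6 * f + 878010 * x ^ 4 * y ^ 6 - 73200 * x ^ 3 * y ^ 7 * f
      - 45240 * x ^ 3 * y ^ 7 + 2475 * x ^ 2 * y ^ 8 * f + 1530 * x ^ 2 * y ^ 8 - 50 * x * y ^ 9 * f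
      - 30 * x * y ^ 9 + y ^ 10 := by
  rw [pow_succ, pB9 hf]
  linear_combination (5674515850 * x ^ 10 - 4605036975 * x ^ 9 * y + 1660943700 * x ^ 8 * y ^ 2
      - 349456800 * x ^ 7 * y ^ 3 + 47265750 * x ^ 6 * y ^ 4 - 4261950 * x ^ 5 * y ^ 5
      + 256200 * x ^ 4 * y ^ 6 - 9900 * x ^ 3 * y ^ 7 + 225 * x ^ 2 * y ^ 8) * hf

lemma pA11 (hf : f ^ 2 = f + 1) (x y : K) :
    (x + (5 * f + 3) * y) ^ 11 = x ^ 11 + 55 * x ^ 10 * y * f + 33 * x ^ 10 * y + 3025 * x ^ 9 * y ^ 2 * f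
      + 1870 * x ^ 9 * y ^ 2 + 100650 * x ^ 8 * y ^ 3 * f + 62205 * x ^ 8 * y ^ 3
      + 2232450 * x ^ 7 * y ^ 4 * f + 1379730 * x ^ 7 * y ^ 4 + 34661550 * x ^ 6 * y ^ 5 * f
      + 21422016 * x ^ 6 * y ^ 5 + 384402480 * x ^ 5 * y ^ 6 * f + 237573798 * x ^ 5 * y ^ 6
      + 3045063450 * x ^ 4 * y ^ 7 * f + 1881952710 * x ^ 4 * y ^ 7 + 16885135575 * x ^ 3 * y ^ 8 * f
      + 10435587690 * x ^ 3 * y ^ 8 + 62419674350 * x ^ 2 * y ^ 9 * f + 38577480315 * x ^ 2 * y ^ 9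
      + 138448959275 * x * y ^ 10 * f + 85566162539 * x * y ^ 10 + 139583862445 * y ^ 11 * f
      + 86267571272 * y ^ 11 := by
  rw [pow_succ, pA10 hf]
  linear_combination (250 * x ^ 9 * y ^ 2 + 12375 * x ^ 8 * y ^ 3 + 366000 * x ^ 7 * y ^ 4 + 7103250 * x ^ 6 * y ^ 5
      + 94531500 * x ^ 5 * y ^ 6 + 873642000 * x ^ 4 * y ^ 7 + 5536479000 * x ^ 3 * y ^ 8
      + 23025184875 * x ^ 2 * y ^ 9 + 56745158500 * x * y ^ 10 + 62931345125 * y ^ 11) * hf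

lemma pB11 (hf : f ^ 2 = f + 1) (x y : K) :
    ((5 * f + 3) * x - y) ^ 11 = 139583862445 * x ^ 11 * f + 86267571272 * x ^ 11 - 138448959275 * x ^ 10 * y * f
      - 85566162539 * x ^ 10 * y + 62419674350 * x ^ 9 * y ^ 2 * f + 38577480315 * x ^ 9 * y ^ 2
      - 16885135575 * x ^ 8 * y ^ 3 * f - 10435587690 * x ^ 8 * y ^ 3
      + 3045063450 * x ^ 7 * y ^ 4 * f + 1881952710 * x ^ 7 * y ^ 4 - 384402480 * x ^ 6 * y ^ 5 * f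
      - 237573798 * x ^ 6 * y ^ 5 + 34661550 * x ^ 5 * y ^ 6 * f + 21422016 * x ^ 5 * y ^ 6
      - 2232450 * x ^ 4 * y ^ 7 * f - 1379730 * x ^ 4 * y ^ 7 + 100650 * x ^ 3 * y ^ 8 * f
      + 62205 * x ^ 3 * y ^ 8 - 3025 * x ^ 2 * y ^ 9 * f - 1870 * x ^ 2 * y ^ 9 + 55 * x * y ^ 10 * f
      + 33 * x * y ^ 10 - y ^ 11 := by
  rw [pow_succ, pB10 hf]
  linear_combination (62931345125 * x ^ 11 - 56745158500 * x ^ 10 * y + 23025184875 * x ^ 9 * y ^ 2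
      - 5536479000 * x ^ 8 * y ^ 3 + 873642000 * x ^ 7 * y ^ 4 - 94531500 * x ^ 6 * y ^ 5
      + 7103250 * x ^ 5 * y ^ 6 - 366000 * x ^ 4 * y ^ 7 + 12375 * x ^ 3 * y ^ 8
      - 250 * x ^ 2 * y ^ 9) * hf

lemma kp_pow1 : kp f ^ 1 = -11 * f - 7 := by
  unfold kp
  ring

lemma F1_U (hf : f ^ 2 = f + 1) (x y : K) :
    F1 (x + (5 * f + 3) * y) ((5 * f + 3) * x - y) =
      5 * kp f ^ 1 * (x * (-(x ^ 2 + 66 * x * y - 11 * y ^ 2)) ^ 1 +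
      (5 * f + 3) * y * (11 * x ^ 2 + 66 * x * y - y ^ 2) ^ 1) := by
  have h : F1 (x + (5 * f + 3) * y) ((5 * f + 3) * x - y) =
      (-5) * ((x + (5 * f + 3) * y) ^ 3) + (-66) * ((x + (5 * f + 3) * y) ^ 2 * ((5 * f + 3) * x - y) ^ 1) + (7) * ((x + (5 * f + 3) * y) ^ 1 * ((5 * f + 3) * x - y) ^ 2) := by
    unfold F1; ring
  rw [h, pA3 hf, pA2 hf, pA1, pB2 hf, pB1, kp_pow1]
  linear_combination (1650 * x ^ 2 * y - 350 * x * y ^ 2 - 275 * y ^ 3) * hf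

lemma G1_U (hf : f ^ 2 = f + 1) (x y : K) :
    F1 ((5 * f + 3) * x - y) (-(x + (5 * f + 3) * y)) =
      5 * kp f ^ 1 * ((5 * f + 3) * x * (-(x ^ 2 + 66 * x * y - 11 * y ^ 2)) ^ 1 -
      y * (11 * x ^ 2 + 66 * x * y - y ^ 2) ^ 1) := by
  have h : F1 ((5 * f + 3) * x - y) (-(x + (5 * f + 3) * y)) =
      (-5) * (((5 * f + 3) * x - y) ^ 3) + (66) * (((5 * f + 3) * x - y) ^ 2 * (x + (5 * f + 3) * y) ^ 1) + (7) * (((5 * f + 3) * x - y) ^ 1 * (x + (5 * f + 3) * y) ^ 2) := by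
    unfold F1; ring
  rw [h, pA2 hf, pA1, pB3 hf, pB2 hf, pB1, kp_pow1]
  linear_combination (-275 * x ^ 3 + 350 * x ^ 2 * y + 1650 * x * y ^ 2) * hf

lemma kp_pow2 (hf : f ^ 2 = f + 1) : kp f ^ 2 = 275 * f + 170 := by
  unfold kp
  linear_combination (121) * hf

lemma F2_U (hf : f ^ 2 = f + 1) (x y : K) :
    F2 (x + (5 * f + 3) * y) ((5 * f + 3) * x - y) =
      10 * kp f ^ 2 * (x * (-(x ^ 2 + 66 * x * y - 11 * y ^ 2)) ^ 2 +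
      (5 * f + 3) * y * (11 * x ^ 2 + 66 * x * y - y ^ 2) ^ 2) := by
  have h : F2 (x + (5 * f + 3) * y) ((5 * f + 3) * x - y) =
      (10) * ((x + (5 * f + 3) * y) ^ 5) + (264) * ((x + (5 * f + 3) * y) ^ 4 * ((5 * f + 3) * x - y) ^ 1) + (1772) * ((x + (5 * f + 3) * y) ^ 3 * ((5 * f + 3) * x - y) ^ 2) + (264) * ((x + (5 * f + 3) * y) ^ 2 * ((5 * f + 3) * x - y) ^ 3) + (-38) * ((x + (5 * f + 3) * y) ^ 1 * ((5 * f + 3) * x - y) ^ 4) := by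
    unfold F2; ring
  rw [h, pA5 hf, pA4 hf, pA3 hf, pA2 hf, pA1, pB4 hf, pB3 hf, pB2 hf, pB1, kp_pow2 hf]
  linear_combination (149600 * x ^ 4 * y + 5170900 * x ^ 3 * y ^ 2 - 2263800 * x ^ 2 * y ^ 3 + 157200 * x * y ^ 4
      - 13750 * y ^ 5) * hf

lemma G2_U (hf : f ^ 2 = f + 1) (x y : K) :
    F2 ((5 * f + 3) * x - y) (-(x + (5 * f + 3) * y)) =
      10 * kp f ^ 2 * ((5 * f + 3) * x * (-(x ^ 2 + 66 * x * y - 11 * y ^ 2)) ^ 2 -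
      y * (11 * x ^ 2 + 66 * x * y - y ^ 2) ^ 2) := by
  have h : F2 ((5 * f + 3) * x - y) (-(x + (5 * f + 3) * y)) =
      (10) * (((5 * f + 3) * x - y) ^ 5) + (-264) * (((5 * f + 3) * x - y) ^ 4 * (x + (5 * f + 3) * y) ^ 1) + (1772) * (((5 * f + 3) * x - y) ^ 3 * (x + (5 * f + 3) * y) ^ 2) + (-264) * (((5 * f + 3) * x - y) ^ 2 * (x + (5 * f + 3) * y) ^ 3) + (-38) * (((5 * f + 3) * x - y) ^ 1 * (x + (5 * f + 3) * y) ^ 4) := by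
    unfold F2; ring
  rw [h, pA4 hf, pA3 hf, pA2 hf, pA1, pB5 hf, pB4 hf, pB3 hf, pB2 hf, pB1, kp_pow2 hf]
  linear_combination (-13750 * x ^ 5 - 157200 * x ^ 4 * y - 2263800 * x ^ 3 * y ^ 2 - 5170900 * x ^ 2 * y ^ 3
      + 149600 * x * y ^ 4) * hf

lemma kp_pow3 (hf : f ^ 2 = f + 1) : kp f ^ 3 = -6820 * f - 4215 := by
  unfold kp
  linear_combination (-1331 * f - 3872) * hf

lemma F3_U (hf : f ^ 2 = f + 1) (x y : K) :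
    F3 (x + (5 * f + 3) * y) ((5 * f + 3) * x - y) =
      10 * kp f ^ 3 * (x * (-(x ^ 2 + 66 * x * y - 11 * y ^ 2)) ^ 3 +
      (5 * f + 3) * y * (11 * x ^ 2 + 66 * x * y - y ^ 2) ^ 3) := by
  have h : F3 (x + (5 * f + 3) * y) ((5 * f + 3) * x - y) =
      (-10) * ((x + (5 * f + 3) * y) ^ 7) + (-396) * ((x + (5 * f + 3) * y) ^ 6 * ((5 * f + 3) * x - y) ^ 1) + (-5358) * ((x + (5 * f + 3) * y) ^ 5 * ((5 * f + 3) * x - y) ^ 2) + (-24552) * ((x + (5 * f + 3) * y) ^ 4 * ((5 * f + 3) * x - y) ^ 3) + (-966) * ((x + (5 * f + 3) * y) ^ 3 * ((5 * f + 3) * x - y) ^ 4) + (-396) * ((x + (5 * f + 3) * y) ^ 2 * ((5 * f + 3) * x - y) ^ 5) + (62) * ((x + (5 * f + 3) * y) ^ 1 * ((5 * f + 3) * x - y) ^ 6) := by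
    unfold F3; ring
  rw [h, pA7 hf, pA6 hf, pA5 hf, pA4 hf, pA3 hf, pA2 hf, pA1, pB6 hf, pB5 hf, pB4 hf, pB3 hf, pB2 hf, pB1, kp_pow3 hf]
  linear_combination (9718500 * x ^ 6 * y + 463446750 * x ^ 5 * y ^ 2 + 9030078750 * x ^ 4 * y ^ 3
      - 3594616250 * x ^ 3 * y ^ 4 + 694815000 * x ^ 2 * y ^ 5 - 40264500 * x * y ^ 6
      - 341000 * y ^ 7) * hf

lemma G3_U (hf : f ^ 2 = f + 1) (x y : K) :
    F3 ((5 * f + 3) * x - y) (-(x + (5 * f + 3) * y)) =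
      10 * kp f ^ 3 * ((5 * f + 3) * x * (-(x ^ 2 + 66 * x * y - 11 * y ^ 2)) ^ 3 -
      y * (11 * x ^ 2 + 66 * x * y - y ^ 2) ^ 3) := by
  have h : F3 ((5 * f + 3) * x - y) (-(x + (5 * f + 3) * y)) =
      (-10) * (((5 * f + 3) * x - y) ^ 7) + (396) * (((5 * f + 3) * x - y) ^ 6 * (x + (5 * f + 3) * y) ^ 1) + (-5358) * (((5 * f + 3) * x - y) ^ 5 * (x + (5 * f + 3) * y) ^ 2) + (24552) * (((5 * f + 3) * x - y) ^ 4 * (x + (5 * f + 3) * y) ^ 3) + (-966) * (((5 * f + 3) * x - y) ^ 3 * (x + (5 * f + 3) * y) ^ 4) + (396) * (((5 * f + 3) * x - y) ^ 2 * (x + (5 * f + 3) * y) ^ 5) + (62) * (((5 * f + 3) * x - y) ^ 1 * (x + (5 * f + 3) * y) ^ 6) := by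
    unfold F3; ring
  rw [h, pA6 hf, pA5 hf, pA4 hf, pA3 hf, pA2 hf, pA1, pB7 hf, pB6 hf, pB5 hf, pB4 hf, pB3 hf, pB2 hf, pB1, kp_pow3 hf]
  linear_combination (-341000 * x ^ 7 + 40264500 * x ^ 6 * y + 694815000 * x ^ 5 * y ^ 2 + 3594616250 * x ^ 4 * y ^ 3
      + 9030078750 * x ^ 3 * y ^ 4 - 463446750 * x ^ 2 * y ^ 5 + 9718500 * x * y ^ 6) * hf

lemma kp_pow4 (hf : f ^ 2 = f + 1) : kp f ^ 4 = 169125 * f + 104525 := by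
  unfold kp
  linear_combination (14641 * f ^ 2 + 51909 * f + 102124) * hf

lemma F4_U (hf : f ^ 2 = f + 1) (x y : K) :
    F4 (x + (5 * f + 3) * y) ((5 * f + 3) * x - y) =
      5 * kp f ^ 4 * (x * (-(x ^ 2 + 66 * x * y - 11 * y ^ 2)) ^ 4 +
      (5 * f + 3) * y * (11 * x ^ 2 + 66 * x * y - y ^ 2) ^ 4) := by
  have h : F4 (x + (5 * f + 3) * y) ((5 * f + 3) * x - y) =
      (5) * ((x + (5 * f + 3) * y) ^ 9) + (264) * ((x + (5 * f + 3) * y) ^ 8 * ((5 * f + 3) * x - y) ^ 1) + (5372) * ((x + (5 * f + 3) * y) ^ 7 * ((5 * f + 3) * x - y) ^ 2) + (48312) * ((x + (5 * f + 3) * y) ^ 6 * ((5 * f + 3) * x - y) ^ 3) + (164046) * ((x + (5 * f + 3) * y) ^ 5 * ((5 * f + 3) * x - y) ^ 4) + (48312) * ((x + (5 * f + 3) * y) ^ 4 * ((5 * f + 3) * x - y) ^ 5) + (-3364) * ((x + (5 * f + 3) * y) ^ 3 * ((5 * f + 3) * x - y) ^ 6) + (264)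 * ((x + (5 * f + 3) * y) ^ 2 * ((5 * f + 3) * x - y) ^ 7) + (-43) * ((x + (5 * f + 3) * y) ^ 1 * ((5 * f + 3) * x - y) ^ 8) := by
    unfold F4; ring
  rw [h, pA9 hf, pA8 hf, pA7 hf, pA6 hf, pA5 hf, pA4 hf, pA3 hf, pA2 hf, pA1, pB8 hf, pB7 hf, pB6 hf, pB5 hf, pB4 hf, pB3 hf, pB2 hf, pB1, kp_pow4 hf]
  linear_combination (-399113000 * x ^ 8 * y - 2114963000 * x ^ 7 * y ^ 2 + 323942360500 * x ^ 6 * y ^ 3
      + 6530506608750 * x ^ 5 * y ^ 4 - 5375061986250 * x ^ 4 * y ^ 5 + 1232865511000 * x ^ 3 * y ^ 6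
      - 133775609000 * x ^ 2 * y ^ 7 + 5542459000 * x * y ^ 8 - 4228125 * y ^ 9) * hf

lemma G4_U (hf : f ^ 2 = f + 1) (x y : K) :
    F4 ((5 * f + 3) * x - y) (-(x + (5 * f + 3) * y)) =
      5 * kp f ^ 4 * ((5 * f + 3) * x * (-(x ^ 2 + 66 * x * y - 11 * y ^ 2)) ^ 4 -
      y * (11 * x ^ 2 + 66 * x * y - y ^ 2) ^ 4) := by
  have h : F4 ((5 * f + 3) * x - y) (-(x + (5 * f + 3) * y)) =
      (5) * (((5 * f + 3) * x - y) ^ 9) + (-264) * (((5 * f + 3) * x - y) ^ 8 * (x + (5 * f + 3) * y) ^ 1) + (5372) * (((5 * f + 3) * x - y) ^ 7 * (x + (5 * f + 3) * y) ^ 2) + (-48312) * (((5 * f + 3) * x - y) ^ 6 * (x + (5 * f + 3) * y) ^ 3) + (164046) * (((5 * f + 3) * x - y) ^ 5 * (x + (5 * f + 3) * y) ^ 4) + (-48312) * (((5 * f + 3) * x - y) ^ 4 * (x + (5 * f + 3) * y) ^ 5) + (-3364) * (((5 * f + 3) * x - y) ^ 3 * (x + (5 * f + 3)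 * y) ^ 6) + (-264) * (((5 * f + 3) * x - y) ^ 2 * (x + (5 * f + 3) * y) ^ 7) + (-43) * (((5 * f + 3) * x - y) ^ 1 * (x + (5 * f + 3) * y) ^ 8) := by
    unfold F4; ring
  rw [h, pA8 hf, pA7 hf, pA6 hf, pA5 hf, pA4 hf, pA3 hf, pA2 hf, pA1, pB9 hf, pB8 hf, pB7 hf, pB6 hf, pB5 hf, pB4 hf, pB3 hf, pB2 hf, pB1, kp_pow4 hf]
  linear_combination (-4228125 * x ^ 9 - 5542459000 * x ^ 8 * y - 133775609000 * x ^ 7 * y ^ 2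
      - 1232865511000 * x ^ 6 * y ^ 3 - 5375061986250 * x ^ 5 * y ^ 4 - 6530506608750 * x ^ 4 * y ^ 5
      + 323942360500 * x ^ 3 * y ^ 6 + 2114963000 * x ^ 2 * y ^ 7 - 399113000 * x * y ^ 8) * hf

lemma kp_pow5 (hf : f ^ 2 = f + 1) : kp f ^ 5 = -4194025 * f - 2592050 := by
  unfold kp
  linear_combination (-161051 * f ^ 3 - 673486 * f ^ 2 - 1486727 * f - 2575243) * hf

lemma F5_U (hf : f ^ 2 = f + 1) (x y : K) :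
    F5 (x + (5 * f + 3) * y) ((5 * f + 3) * x - y) =
      1 * kp f ^ 5 * (x * (-(x ^ 2 + 66 * x * y - 11 * y ^ 2)) ^ 5 +
      (5 * f + 3) * y * (11 * x ^ 2 + 66 * x * y - y ^ 2) ^ 5) := by
  have h : F5 (x + (5 * f + 3) * y) ((5 * f + 3) * x - y) =
      (-1) * ((x + (5 * f + 3) * y) ^ 11) + (-66) * ((x + (5 * f + 3) * y) ^ 10 * ((5 * f + 3) * x - y) ^ 1) + (-1793) * ((x + (5 * f + 3) * y) ^ 9 * ((5 * f + 3) * x - y) ^ 2) + (-24024) * ((x + (5 * f + 3) * y) ^ 8 * ((5 * f + 3) * x - y) ^ 3) + (-163042) * ((x + (5 * f + 3) * y) ^ 7 * ((5 * f + 3) * x - y) ^ 4) + (-475596) * ((x + (5 * f + 3) * y) ^ 6 * ((5 * f + 3) * x - y) ^ 5) + (-80938) * ((x + (5 * f + 3) * y) ^ 5 * ((5 * f + 3) * x - y) ^ 6) + (-24024) * ((x + (5 * f + 3) * y) ^ 4 * ((5 * f + 3) * x - y) ^ 7) + (2563) * ((x + (5 * f + 3) * y) ^ 3 * ((5 * f +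 3) * x - y) ^ 8) + (-66) * ((x + (5 * f + 3) * y) ^ 2 * ((5 * f + 3) * x - y) ^ 9) + (11) * ((x + (5 * f + 3) * y) ^ 1 * ((5 * f + 3) * x - y) ^ 10) := by
    unfold F5; ring
  rw [h, pA11 hf, pA10 hf, pA9 hf, pA8 hf, pA7 hf, pA6 hf, pA5 hf, pA4 hf, pA3 hf, pA2 hf, pA1, pB10 hf, pB9 hf, pB8 hf, pB7 hf, pB6 hf, pB5 hf, pB4 hf, pB3 hf, pB2 hf, pB1, kp_pow5 hf]
  linear_combination (27858567000 * x ^ 10 * y + 898730738125 * x ^ 9 * y ^ 2 + 15158322341250 * x ^ 8 * y ^ 3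
      + 233789943805000 * x ^ 7 * y ^ 4 + 2404552641026250 * x ^ 6 * y ^ 5
      - 1726644705038000 * x ^ 5 * y ^ 6 + 633376043355000 * x ^ 4 * y ^ 7
      - 108124586948125 * x ^ 3 * y ^ 8 + 9054771371250 * x ^ 2 * y ^ 9 - 302036102500 * x * y ^ 10
      - 20970125 * y ^ 11) * hf

lemma G5_U (hf : f ^ 2 = f + 1) (x y : K) :
    F5 ((5 * f + 3) * x - y) (-(x + (5 * f + 3) * y)) =
      1 * kp f ^ 5 * ((5 * f + 3) * x * (-(x ^ 2 + 66 * x * y - 11 * y ^ 2)) ^ 5 -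
      y * (11 * x ^ 2 + 66 * x * y - y ^ 2) ^ 5) := by
  have h : F5 ((5 * f + 3) * x - y) (-(x + (5 * f + 3) * y)) =
      (-1) * (((5 * f + 3) * x - y) ^ 11) + (66) * (((5 * f + 3) * x - y) ^ 10 * (x + (5 * f + 3) * y) ^ 1) + (-1793) * (((5 * f + 3) * x - y) ^ 9 * (x + (5 * f + 3) * y) ^ 2) + (24024) * (((5 * f + 3) * x - y) ^ 8 * (x + (5 * f + 3) * y) ^ 3) + (-163042) * (((5 * f + 3) * x - y) ^ 7 * (x + (5 * f + 3) * y) ^ 4) + (475596) * (((5 * f + 3) * x - y) ^ 6 * (x + (5 * f + 3) * y) ^ 5) + (-80938) * (((5 * f + 3) * x - y) ^ 5 * (x + (5 * f + 3) * y) ^ 6) + (24024) * (((5 * f + 3) * x - y) ^ 4 * (x + (5 * f + 3) * y) ^ 7) + (2563) * (((5 * f + 3) * x - y) ^ 3 * (x + (5 * f + 3) * y) ^ 8) + (66) * (((5 * f + 3) * x - y) ^ 2 * (x + (5 * f + 3) * y) ^ 9) + (11) * (((5 * f + 3) * x - y) ^ 1 * (x + (5 * f + 3)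 * y) ^ 10) := by
    unfold F5; ring
  rw [h, pA10 hf, pA9 hf, pA8 hf, pA7 hf, pA6 hf, pA5 hf, pA4 hf, pA3 hf, pA2 hf, pA1, pB11 hf, pB10 hf, pB9 hf, pB8 hf, pB7 hf, pB6 hf, pB5 hf, pB4 hf, pB3 hf, pB2 hf, pB1, kp_pow5 hf]
  linear_combination (-20970125 * x ^ 11 + 302036102500 * x ^ 10 * y + 9054771371250 * x ^ 9 * y ^ 2
      + 108124586948125 * x ^ 8 * y ^ 3 + 633376043355000 * x ^ 7 * y ^ 4
      + 1726644705038000 * x ^ 6 * y ^ 5 + 2404552641026250 * x ^ 5 * y ^ 6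
      - 233789943805000 * x ^ 4 * y ^ 7 + 15158322341250 * x ^ 3 * y ^ 8
      - 898730738125 * x ^ 2 * y ^ 9 + 27858567000 * x * y ^ 10) * hf

lemma F_U (hf : f ^ 2 = f + 1) (t x y : K) :
    Ff (A0 f x y) (B0 f x y) t = A0 f (Ux f t x y) (Uy f t x y) := by
  have h0 : F0 (x ^ 5 + (5 * f + 3) * y ^ 5) ((5 * f + 3) * x ^ 5 - y ^ 5) =
    x ^ 5 + (5 * f + 3) * y ^ 5 := by unfold F0; ring
  unfold Ff A0 B0
  rw [h0, F1_U hf, F2_U hf, F3_U hf, F4_U hf, F5_U hf]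
  unfold Ux Uy al be
  ring

lemma G_U (hf : f ^ 2 = f + 1) (t x y : K) :
    Gf (A0 f x y) (B0 f x y) t = B0 f (Ux f t x y) (Uy f t x y) := by
  have h0 : F0 ((5 * f + 3) * x ^ 5 - y ^ 5) (-(x ^ 5 + (5 * f + 3) * y ^ 5)) =
    (5 * f + 3) * x ^ 5 - y ^ 5 := by unfold F0; ring
  unfold Gf Ff A0 B0
  rw [h0, G1_U hf, G2_U hf, G3_U hf, G4_U hf, G5_U hf]
  unfold Ux Uy al be
  ring

end Fermat.Agent.Sw35
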