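import Fermat.Agent.Sw35.Forms

set_option autoImplicit false

/-!
# Semistable integral models in the family
-/

open WeierstrassCurve WeierstrassCurve.Affine Polynomial

namespace Fermat.Agent.Sw35

lemma exists_int_poly (p : ℚ[X]) : ∃ d : ℤ, d ≠ 0 ∧ ∃ q : ℤ[X],
    ∀ t : ℤ, (d : ℚ) * p.eval (t : ℚ) = (q.eval t : ℤ) := by
  obtain ⟨b, hb⟩ := IsLocalization.integerNormalization_map_to_map (nonZeroDivisors ℤ) p
  refine ⟨b, nonZeroDivisors.coe_ne_zero b,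
    IsLocalization.integerNormalization (nonZeroDivisors ℤ) p, fun t => ?_⟩
  have h := congrArg (fun q : ℚ[X] => q.eval (t : ℚ)) hb
  simp only [eval_smul] at h
  rw [zsmul_eq_mul] at h
  rw [← h]
  have e : ((t : ℤ) : ℚ) = algebraMap ℤ ℚ t := rfl
  rw [e, eval_map_algebraMap, aeval_algebraMap_apply, coe_aeval_eq_eval]
  rfl

lemma int_shift {p : ℚ[X]} {d : ℤ} (hd : d ≠ 0) {q : ℤ[X]}
    (hq : ∀ t : ℤ, (d : ℚ) * p.eval (t : ℚ) = (q.eval t : ℤ)) (k s : ℤ) (hk : d ∣ k) (N : ℤ) :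
    ∃ m : ℤ, p.eval ((k * N * s : ℤ) : ℚ) = p.eval 0 + (N * m : ℤ) := by
  obtain ⟨c, rfl⟩ := hk
  refine ⟨c * s * (q.divX.eval (d * c * N * s)), ?_⟩
  have h0 := hq 0
  have ht := hq (d * c * N * s)
  have e := congrArg (eval (d * c * N * s)) (divX_mul_X_add q)
  simp only [eval_add, eval_mul, eval_X, eval_C] at e
  have e0 : q.eval 0 = q.coeff 0 := (coeff_zero_eq_eval_zero q).symm
  rw [← e] at ht
  rw [e0] at h0
  have hdq : (d : ℚ) ≠ 0 := by exact_mod_cast hd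
  apply mul_left_cancel₀ hdq
  rw [ht, mul_add]
  have h0' : (d : ℚ) * eval 0 p = (q.coeff 0 : ℤ) := by
    rw [← h0]; norm_num
  rw [h0']
  push_cast
  ring

/-- the integral model -/
def mdl (W : WeierstrassCurve ℤ) (e m4 m6 : ℤ) : WeierstrassCurve ℤ :=
  ⟨W.a₁, W.a₂, W.a₃, W.a₄ - 864 * e * m4, W.a₆ - 72 * e * W.b₂ * m4 - 48 * e * m6⟩

lemma mdl_c4 (W : WeierstrassCurve ℤ) (e m4 m6 : ℤ) :
    (mdl W e m4 m6).c₄ = W.c₄ + 41472 * e * m4 := by
  simp only [mdl, WeierstrassCurve.c₄, WeierstrassCurve.b₂, WeierstrassCurve.b₄]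
  ring

lemma mdl_c6 (W : WeierstrassCurve ℤ) (e m4 m6 : ℤ) :
    (mdl W e m4 m6).c₆ = W.c₆ + 41472 * e * m6 := by
  simp only [mdl, WeierstrassCurve.c₆, WeierstrassCurve.b₂, WeierstrassCurve.b₄,
    WeierstrassCurve.b₆]
  ring

lemma mdl_map (W : WeierstrassCurve ℤ) {e : ℤ} (m4 m6 : ℤ) {p : ℕ} (hp : (p : ℤ) ∣ e) :
    (mdl W e m4 m6).map (Int.castRingHom (ZMod p)) = W.map (Int.castRingHom (ZMod p)) := by
  have he : ((e : ℤ) : ZMod p) = 0 := by rwa [ZMod.intCast_zmod_eq_zero_iff_dvd]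
  ext <;> simp [mdl, he]

theorem exists_family {W : WeierstrassCurve ℤ} (hΔ : W.Δ ≠ 0) (hW : W.IsSemistableModel)
    {f z x y : Qb} (h : Lev (cv W) f z x y) :
    ∃ N : ℤ, N ≠ 0 ∧ ∀ t : ℤ, N ∣ t → ∃ W' : WeierstrassCurve ℤ, W'.IsSemistableModel ∧
      Pair (cv W) (cv W') f z x y (t : Qb) := by
  obtain ⟨p4, p6, h4, h6⟩ := exists_rat_family hΔ h
  obtain ⟨u, v, huv⟩ := coprime hΔ h h4 h6
  obtain ⟨d1, hd1, q1, hq1⟩ := exists_int_poly p4
  obtain ⟨d2, hd2, q2, hq2⟩ := exists_int_poly p6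
  obtain ⟨d3, hd3, q3, hq3⟩ := exists_int_poly u
  obtain ⟨d4, hd4, q4, hq4⟩ := exists_int_poly v
  set d : ℤ := d1 * d2 * d3 * d4 with hdd
  have hd : d ≠ 0 := mul_ne_zero (mul_ne_zero (mul_ne_zero hd1 hd2) hd3) hd4
  set e : ℤ := 6 * d with hee
  refine ⟨d * (41472 * e), mul_ne_zero hd (mul_ne_zero (by norm_num) (mul_ne_zero (by norm_num) hd)),
    ?_⟩
  rintro t ⟨s, rfl⟩
  obtain ⟨m4, hm4⟩ := int_shift hd1 hq1 d s ⟨d2 * d3 * d4, by rw [hdd]; ring⟩ (41472 * e)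
  obtain ⟨m6, hm6⟩ := int_shift hd2 hq2 d s ⟨d1 * d3 * d4, by rw [hdd]; ring⟩ (41472 * e)
  set t : ℤ := d * (41472 * e) * s with ht
  have ev0 {p : ℚ[X]} : algebraMap ℚ Qb (p.eval 0) = (p.map (algebraMap ℚ Qb)).eval 0 := by
    rw [eval_zero_map]
  have evt {p : ℚ[X]} : algebraMap ℚ Qb (p.eval (t : ℚ)) =
      (p.map (algebraMap ℚ Qb)).eval (t : Qb) := by
    have : (t : Qb) = algebraMap ℚ Qb (t : ℚ) := by simp
    rw [this, eval_map_algebraMap, aeval_algebraMap_apply, coe_aeval_eq_eval]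
  have inj : Function.Injective (algebraMap ℚ Qb) := (algebraMap ℚ Qb).injective
  have e4 : p4.eval 0 = (W.c₄ : ℚ) := by
    apply inj
    rw [ev0, h4, P4_eval, Ff_zero, Gf_zero, ← h.c4, cv_c4]
    simp
  have e6 : p6.eval 0 = (W.c₆ : ℚ) := by
    apply inj
    rw [ev0, h6, P6_eval, Ff_zero, Gf_zero, ← h.c6, cv_c6]
    simp
  have c4W : p4.eval (t : ℚ) = ((mdl W e m4 m6).c₄ : ℤ) := by
    rw [hm4, e4, mdl_c4]; push_cast; ring
  have c6W : p6.eval (t : ℚ) = ((mdl W e m4 m6).c₆ : ℤ) := by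
    rw [hm6, e6, mdl_c6]; push_cast; ring
  refine ⟨mdl W e m4 m6, ?_, h, h.cst, ?_, ?_⟩
  · -- semistability
    intro p hp hpΔ hpc
    by_cases hpe : (p : ℤ) ∣ e
    · have hm := mdl_map W m4 m6 hpe
      have g1 : (p : ℤ) ∣ W.Δ := by
        rw [← ZMod.intCast_zmod_eq_zero_iff_dvd] at hpΔ ⊢
        have := congrArg WeierstrassCurve.Δ hm
        rw [map_Δ, map_Δ] at this
        simp only [eq_intCast] at this
        rw [← this]; exact hpΔ
      have g2 : (p : ℤ) ∣ W.c₄ := by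
        rw [← ZMod.intCast_zmod_eq_zero_iff_dvd] at hpc ⊢
        have := congrArg WeierstrassCurve.c₄ hm
        rw [map_c₄, map_c₄] at this
        simp only [eq_intCast] at this
        rw [← this]; exact hpc
      exact hW p hp g1 g2
    · have hpp : Prime (p : ℤ) := Nat.prime_iff_prime_int.1 hp
      have g6 : (p : ℤ) ∣ (mdl W e m4 m6).c₆ := by
        have hr := (mdl W e m4 m6).c_relation
        have : (p : ℤ) ∣ (mdl W e m4 m6).c₆ ^ 2 := by
          have e1 : (mdl W e m4 m6).c₆ ^ 2 = (mdl W e m4 m6).c₄ ^ 3 - 1728 * (mdl W e m4 m6).Δ := by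
            linear_combination hr
          rw [e1]
          exact dvd_sub (Dvd.dvd.pow hpc (by norm_num)) (Dvd.dvd.mul_left hpΔ _)
        exact hpp.dvd_of_dvd_pow this
      have hb : (d1 * d2 * q3.eval t * d4) * (mdl W e m4 m6).c₄ +
          (d1 * d2 * d3 * q4.eval t) * (mdl W e m4 m6).c₆ = d := by
        have e1 := congrArg (eval (t : ℚ)) huv
        rw [eval_add, eval_mul, eval_mul, eval_one, c4W, c6W] at e1
        have e3 := hq3 t
        have e5 := hq4 t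
        have : (((d1 * d2 * q3.eval t * d4) * (mdl W e m4 m6).c₄ +
          (d1 * d2 * d3 * q4.eval t) * (mdl W e m4 m6).c₆ : ℤ) : ℚ) = (d : ℤ) := by
          push_cast
          rw [← e3, ← e5, hdd]
          push_cast
          linear_combination (d1 * d2 * d3 * d4 : ℚ) * e1
        exact_mod_cast this
      have g7 : (p : ℤ) ∣ d := by
        rw [← hb]
        exact dvd_add (Dvd.dvd.mul_left hpc _) (Dvd.dvd.mul_left g6 _)
      exact hpe (Dvd.dvd.mul_left g7 6)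
  · rw [← F_U h.cst.hf, ← G_U h.cst.hf, ← P4_eval, ← h4, ← evt, c4W, cv_c4]
    simp
  · rw [← F_U h.cst.hf, ← G_U h.cst.hf, ← P6_eval, ← h6, ← evt, c6W, cv_c6]
    simp

end Fermat.Agent.Sw35
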