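import Fermat.Agent.Sw35.Red
import Fermat.Agent.Sw35.Model

set_option autoImplicit false
set_option maxHeartbeats 400000

/-!
# Reduction of Frobenius-fixed numbers
-/

open WeierstrassCurve WeierstrassCurve.Affine WeierstrassCurve.Affine.Point

namespace Fermat.Agent.Sw35

open Fermat.Agent.FrobDens

lemma unit_almost {b : Qb} (hb : b ≠ 0) : ∃ m : ℤ, m ≠ 0 ∧ ∀ ℓ : ℕ, ℓ.Prime → ¬ (ℓ : ℤ) ∣ m →
    ∀ A : ValuationSubring Qb, A.LiesOverPrime ℓ → A.valuation b = 1 := by
  have halg : IsAlgebraic ℤ b := (IsFractionRing.isAlgebraic_iff ℤ ℚ Qb).2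
    ((AlgebraicClosure.isAlgebraic ℚ).isAlgebraic b)
  obtain ⟨n, hn, hi⟩ := halg.exists_integral_multiple
  have hn0 : ((n : ℤ) : Qb) ≠ 0 := by exact_mod_cast hn
  rw [zsmul_eq_mul] at hi
  obtain ⟨y1, hy1, h1⟩ := exists_int_valuation_eq_one (mul_ne_zero hn0 hb) hi
  obtain ⟨y2, hy2, h2⟩ := exists_int_valuation_eq_one hn0 (isIntegral_algebraMap (R := ℤ) (x := n))
  refine ⟨y1 * y2, mul_ne_zero hy1 hy2, fun ℓ hℓ hd A hA => ?_⟩
  have e1 := h1 ℓ hℓ (fun h => hd (Dvd.dvd.mul_right h _)) A hA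
  have e2 := h2 ℓ hℓ (fun h => hd (Dvd.dvd.mul_left h _)) A hA
  rw [map_mul, e2, one_mul] at e1
  exact e1

lemma unit_almost_list (l : List Qb) (hl : ∀ b ∈ l, b ≠ 0) : ∃ m : ℤ, m ≠ 0 ∧ ∀ ℓ : ℕ, ℓ.Prime →
    ¬ (ℓ : ℤ) ∣ m → ∀ A : ValuationSubring Qb, A.LiesOverPrime ℓ →
    ∀ b ∈ l, A.valuation b = 1 := by
  induction l with
  | nil => exact ⟨1, one_ne_zero, fun _ _ _ _ _ b hb => absurd hb (by simp)⟩
  | cons a l ih =>
    obtain ⟨m1, hm1, h1⟩ := ih (fun b hb => hl b (List.mem_cons_of_mem _ hb))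
    obtain ⟨m2, hm2, h2⟩ := unit_almost (hl a List.mem_cons_self)
    refine ⟨m1 * m2, mul_ne_zero hm1 hm2, fun ℓ hℓ hd A hA b hb => ?_⟩
    rcases List.mem_cons.1 hb with rfl | hb
    · exact h2 ℓ hℓ (fun h => hd (Dvd.dvd.mul_left h _)) A hA
    · exact h1 ℓ hℓ (fun h => hd (Dvd.dvd.mul_right h _)) A hA b hb

/-- reduction of the numbers fixed by a Frobenius element -/
theorem exists_red {ℓ : ℕ} (hℓ : ℓ.Prime) {A : ValuationSubring Qb} (hA : A.LiesOverPrime ℓ)
    {τ : Qb ≃ₐ[ℚ] Qb} (hτ : A.IsFrobeniusAt τ ℓ) :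
    ∃ (B : Type) (_ : CommRing B) (ι : B →+* Qb) (ρ : B →+* ZMod ℓ), Function.Injective ι ∧
      (∀ b : Qb, A.valuation b ≤ 1 → τ b = b → ∃ β : B, ι β = b) ∧
      (∀ β : B, A.valuation (ι β) = 1 → ρ β ≠ 0) := by
  haveI := charP_residueField A hℓ hA
  haveI : Fact ℓ.Prime := ⟨hℓ⟩
  let φ : ZMod ℓ →+* IsLocalRing.ResidueField A :=
    ZMod.castHom (dvd_refl ℓ) (IsLocalRing.ResidueField A)
  let r : A →+* IsLocalRing.ResidueField A := IsLocalRing.residue A
  let g1 : A × ZMod ℓ →+* IsLocalRing.ResidueField A := r.comp (RingHom.fst A (ZMod ℓ))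
  let g2 : A × ZMod ℓ →+* IsLocalRing.ResidueField A := φ.comp (RingHom.snd A (ZMod ℓ))
  let B : Subring (A × ZMod ℓ) := RingHom.eqLocus g1 g2
  have hmem (β : B) : r β.1.1 = φ β.1.2 := β.2
  refine ⟨B, inferInstance, (A.subtype).comp ((RingHom.fst A (ZMod ℓ)).comp B.subtype),
    (RingHom.snd A (ZMod ℓ)).comp B.subtype, ?_, ?_, ?_⟩
  · intro β γ h
    have h1 : β.1.1 = γ.1.1 := Subtype.ext h
    apply Subtype.ext
    apply Prod.ext h1
    apply φ.injective
    rw [← hmem, ← hmem, h1]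
  · intro b hb hτb
    let bA : A := ⟨b, (A.valuation_le_one_iff b).1 hb⟩
    have h1 : (IsLocalRing.residue A bA) ^ ℓ = IsLocalRing.residue A bA := by
      have h := hτ.smul_residue_eq (IsLocalRing.residue A bA)
      rw [← h]
      have e : (⟨τ, hτ.mem_decompositionSubgroup⟩ : A.decompositionSubgroup ℚ) • bA = bA :=
        Subtype.ext hτb
      conv_rhs => rw [← e]
      rfl
    obtain ⟨n, hn⟩ := exists_int_of_pow_eq hℓ h1
    exact ⟨⟨(bA, n), hn.symm⟩, rfl⟩
  · intro β hβ h0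
    have h1 := hmem β
    have h2 : β.1.2 = 0 := h0
    rw [h2, _root_.map_zero] at h1
    have h3 : β.1.1 ∈ IsLocalRing.maximalIdeal A := (IsLocalRing.residue_eq_zero_iff _).1 h1
    have h4 := (A.valuation_lt_one_iff β.1.1).1 h3
    exact absurd hβ (ne_of_lt h4)

section modl

variable {F : Type*} [Field F]

lemma c4f_smul (u A B : F) : c4f (u * A) (u * B) = u ^ 4 * c4f A B := by unfold c4f; ring

lemma c6f_smul (u A B : F) : c6f (u * A) (u * B) = u ^ 6 * c6f A B := by unfold c6f; ring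

/-- solving for the parameter modulo a prime -/
lemma solve_t (h12 : (12 : F) ≠ 0) {f x y x' y' : F} (hkp : kp f ≠ 0) (hx : x ≠ 0) (hy : y ≠ 0)
    (hx' : x' ≠ 0) (hy' : y' ≠ 0) (hh : h10 x y ≠ 0)
    (hD : al x y * x * y' + be x y * y * x' ≠ 0) :
    ∃ t u : F, u ≠ 0 ∧
      c4f (A0 f (Ux f t x y) (Uy f t x y)) (B0 f (Ux f t x y) (Uy f t x y)) =
        u ^ 4 * c4f (A0 f x' y') (B0 f x' y') ∧
      c6f (A0 f (Ux f t x y) (Uy f t x y)) (B0 f (Ux f t x y) (Uy f t x y)) =
        u ^ 6 * c6f (A0 f x' y') (B0 f x' y') := by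
  set D := al x y * x * y' + be x y * y * x' with hDd
  set t := (x * y' - y * x') / (kp f * D) with ht
  have htD : t * (kp f * D) = x * y' - y * x' := by
    rw [ht]; field_simp
  have e1 : Ux f t x y * y' = Uy f t x y * x' := by
    rw [hDd] at htD
    unfold Ux Uy
    linear_combination -htD
  set c := Ux f t x y / x' with hc
  have ex : Ux f t x y = c * x' := by rw [hc]; field_simp
  have ey : Uy f t x y = c * y' := by
    apply mul_right_cancel₀ hx'
    rw [← e1, ex]; ring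
  have hc0 : c ≠ 0 := by
    intro h0
    rw [h0, zero_mul] at ex ey
    unfold Ux at ex
    unfold Uy at ey
    have e1 := (mul_eq_zero.1 ex).resolve_left hx
    have e2 := (mul_eq_zero.1 ey).resolve_left hy
    have e3 : t * kp f * (12 * h10 x y) = 0 := by
      unfold al at e1
      unfold be at e2
      unfold h10
      linear_combination e2 - e1
    rcases mul_eq_zero.1 e3 with e | e
    · rw [e] at e1
      norm_num at e1
    · exact (mul_ne_zero h12 hh) e
  refine ⟨t, c ^ 5, pow_ne_zero _ hc0, ?_, ?_⟩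
  · rw [ex, ey, ← c4f_smul]
    congr 1 <;> (first | unfold A0; ring | unfold B0; ring)
  · rw [ex, ey, ← c6f_smul]
    congr 1 <;> (first | unfold A0; ring | unfold B0; ring)

end modl

lemma A0_map {R S : Type*} [CommRing R] [CommRing S] (φ : R →+* S) (f x y : R) :
    A0 (φ f) (φ x) (φ y) = φ (A0 f x y) := by
  simp only [A0, map_add, map_mul, map_pow, map_ofNat]

lemma B0_map {R S : Type*} [CommRing R] [CommRing S] (φ : R →+* S) (f x y : R) :
    B0 (φ f) (φ x) (φ y) = φ (B0 f x y) := by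
  simp only [B0, map_add, map_sub, map_mul, map_pow, map_ofNat]

lemma h10_map {R S : Type*} [CommRing R] [CommRing S] (φ : R →+* S) (x y : R) :
    h10 (φ x) (φ y) = φ (h10 x y) := by
  simp only [h10, map_add, map_sub, map_mul, map_pow, map_ofNat]

lemma al_map {R S : Type*} [CommRing R] [CommRing S] (φ : R →+* S) (x y : R) :
    al (φ x) (φ y) = φ (al x y) := by
  simp only [al, map_add, map_sub, map_mul, map_pow, map_ofNat]

lemma be_map {R S : Type*} [CommRing R] [CommRing S] (φ : R →+* S) (x y : R) :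
    be (φ x) (φ y) = φ (be x y) := by
  simp only [be, map_add, map_sub, map_mul, map_pow, map_ofNat]

lemma kp_map {R S : Type*} [CommRing R] [CommRing S] (φ : R →+* S) (f : R) :
    kp (φ f) = φ (kp f) := by
  simp only [kp, map_neg, map_add, map_mul, map_ofNat]

lemma Ux_map {R S : Type*} [CommRing R] [CommRing S] (φ : R →+* S) (f t x y : R) :
    Ux (φ f) (φ t) (φ x) (φ y) = φ (Ux f t x y) := by
  simp only [Ux, kp_map, al_map, map_sub, map_mul, map_one]

lemma Uy_map {R S : Type*} [CommRing R] [CommRing S] (φ : R →+* S) (f t x y : R) :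
    Uy (φ f) (φ t) (φ x) (φ y) = φ (Uy f t x y) := by
  simp only [Uy, kp_map, be_map, map_add, map_mul, map_one]

/-- a level structure on the auxiliary curve in general position -/
lemma exists_lev_D {W : WeierstrassCurve ℤ} (hΔ : W.Δ ≠ 0) {f z x y : Qb}
    (h : Lev (cv W) f z x y) : ∃ x' y', Lev (cv E0) f z x' y' ∧
      al x y * x * y' + be x y * y * x' ≠ 0 := by
  obtain ⟨x', y', h'⟩ := exists_lev E0_Δ_ne h.cst
  by_cases hD : al x y * x * y' + be x y * y * x' = 0
  · have z5 := h.cst.z5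
    have hz1 : z ≠ 1 := by
      rintro rfl
      have e1 : f = 3 := by linear_combination -h.cst.hz
      have e2 := h.cst.hf
      rw [e1] at e2
      norm_num at e2
    have hz0 : z ≠ 0 := by
      rintro rfl
      norm_num at z5
    obtain ⟨hx, hy, hh⟩ := h.ne (cv_Δ_ne hΔ)
    obtain ⟨hx', hy', -⟩ := h'.ne (cv_Δ_ne E0_Δ_ne)
    refine ⟨z ^ 3 * x', z ^ 2 * y', h'.T (by rw [← pow_mul, mul_comm, pow_mul, z5, one_pow])
      (by rw [← pow_mul, mul_comm, pow_mul, z5, one_pow]), fun hD' => ?_⟩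
    have e1 : z ^ 2 * (z - 1) * (be x y * (y * x')) = 0 := by
      linear_combination hD' - z ^ 2 * hD
    have hbe : be x y = 0 :=
      ((mul_eq_zero.1 ((mul_eq_zero.1 e1).resolve_left
        (mul_ne_zero (pow_ne_zero _ hz0) (sub_ne_zero.2 hz1)))).resolve_right
          (mul_ne_zero hy hx'))
    have hal : al x y = 0 := by
      have e2 : al x y * (x * y') = 0 := by linear_combination hD - y * x' * hbe
      exact (mul_eq_zero.1 e2).resolve_right (mul_ne_zero hx hy')
    have e3 : 12 * h10 x y = 0 := by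
      unfold al at hal
      unfold be at hbe
      unfold h10
      linear_combination hal + hbe
    exact (mul_ne_zero (by norm_num) hh) e3
  · exact ⟨x', y', h', hD⟩

end Fermat.Agent.Sw35
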