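import Fermat.Agent.Sw35.Inert
import Fermat.Agent.S43Glue.Model

set_option autoImplicit false
set_option maxHeartbeats 400000

/-!
# Irreducibility modulo three, point counts
-/

open WeierstrassCurve WeierstrassCurve.Affine WeierstrassCurve.Affine.Point

namespace Fermat.Agent.Sw35

/-- the number of points only depends on `c₄, c₆` up to scaling -/
theorem trace_eq {F : Type*} [Field F] (h2 : (2 : F) ≠ 0) (h3 : (3 : F) ≠ 0)
    {W W' : WeierstrassCurve F} (hΔ : W.Δ ≠ 0) {u : F} (hu : u ≠ 0) (h4 : W'.c₄ = u ^ 4 * W.c₄)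
    (h6 : W'.c₆ = u ^ 6 * W.c₆) : W'.traceOfFrobenius = W.traceOfFrobenius := by
  let s : F := (W'.a₁ / u - W.a₁) / 2
  let r : F := (W'.a₂ / u ^ 2 - W.a₂ + s * W.a₁ + s ^ 2) / 3
  let t : F := (W'.a₃ / u ^ 3 - W.a₃ - r * W.a₁) / 2
  let C : VariableChange F := ⟨(Units.mk0 u hu)⁻¹, r, s, t⟩
  have hCu : ((C.u⁻¹ : Fˣ) : F) = u := by simp [C]
  have e1 : (C • W).a₁ = W'.a₁ := by
    rw [variableChange_a₁, hCu]
    show u * (W.a₁ + 2 * s) = W'.a₁
    simp only [s]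
    field_simp
    ring
  have e2 : (C • W).a₂ = W'.a₂ := by
    rw [variableChange_a₂, hCu]
    show u ^ 2 * (W.a₂ - s * W.a₁ + 3 * r - s ^ 2) = W'.a₂
    have : 3 * r = W'.a₂ / u ^ 2 - W.a₂ + s * W.a₁ + s ^ 2 := by
      simp only [r]; field_simp
    rw [this]
    field_simp
    ring
  have e3 : (C • W).a₃ = W'.a₃ := by
    rw [variableChange_a₃, hCu]
    show u ^ 3 * (W.a₃ + r * W.a₁ + 2 * t) = W'.a₃
    have : 2 * t = W'.a₃ / u ^ 3 - W.a₃ - r * W.a₁ := by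
      simp only [t]; field_simp
    rw [this]
    field_simp
    ring
  have c4 : (C • W).c₄ = W'.c₄ := by rw [variableChange_c₄, hCu, h4]
  have c6 : (C • W).c₆ = W'.c₆ := by rw [variableChange_c₆, hCu, h6]
  have e4 : (C • W).a₄ = W'.a₄ := by
    have h48 : (48 : F) ≠ 0 := by
      have : (48 : F) = 2 ^ 4 * 3 := by norm_num
      rw [this]; exact mul_ne_zero (pow_ne_zero _ h2) h3
    have : (48 : F) * ((C • W).a₄ - W'.a₄) = 0 := by
      simp only [WeierstrassCurve.c₄, WeierstrassCurve.b₂, WeierstrassCurve.b₄, e1, e2, e3] at c4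
      linear_combination -c4
    exact sub_eq_zero.1 ((mul_eq_zero.1 this).resolve_left h48)
  have e6 : (C • W).a₆ = W'.a₆ := by
    have h864 : (864 : F) ≠ 0 := by
      have : (864 : F) = 2 ^ 5 * 3 ^ 3 := by norm_num
      rw [this]; exact mul_ne_zero (pow_ne_zero _ h2) (pow_ne_zero _ h3)
    have : (864 : F) * ((C • W).a₆ - W'.a₆) = 0 := by
      simp only [WeierstrassCurve.c₆, WeierstrassCurve.b₂, WeierstrassCurve.b₄,
        WeierstrassCurve.b₆, e1, e2, e3, e4] at c6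
      linear_combination -c6
    exact sub_eq_zero.1 ((mul_eq_zero.1 this).resolve_left h864)
  have : C • W = W' := WeierstrassCurve.ext e1 e2 e3 e4 e6
  rw [← this]
  exact S43Glue.traceOfFrobenius_vc C W hΔ

lemma three_dvd {G : Type*} [AddCommGroup G] {P : G} (h3 : (3 : ℕ) • P = 0) (hP : P ≠ 0) {n : ℤ}
    (hn : n • P = 0) : (3 : ℤ) ∣ n := by
  by_contra hcon
  apply hP
  have hcop : IsCoprime (3 : ℤ) n := (Int.prime_three.coprime_iff_not_dvd).2 hcon
  obtain ⟨a, b, hab⟩ := hcop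
  have h3' : (3 : ℤ) • P = 0 := by rw [← h3]; norm_cast
  calc P = (a * 3 + b * n) • P := by rw [hab, one_zsmul]
    _ = 0 := by rw [add_zsmul, mul_zsmul, mul_zsmul, h3', hn, zsmul_zero, zsmul_zero, add_zero]

/-- irreducibility modulo three from one Frobenius -/
theorem irr_of_trace {W : WeierstrassCurve ℤ} (hΔ : W.Δ ≠ 0) {ℓ : ℕ} (hℓ : ℓ.Prime)
    (hg : W.IsGoodPrimeFor ℓ) (h3 : ℓ ≠ 3)
    (h : ¬ ∃ c : ℤ, (3 : ℤ) ∣ (c * c - W.apOfModel ℓ * c + ℓ)) : W.ModRepIsIrreducible 3 := by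
  haveI : Fact (Nat.Prime 3) := ⟨by norm_num⟩
  have hcard : Nat.card (Submodule.torsionBy ℤ (cv W).Point (3 : ℕ)) = 3 ^ 2 :=
    Fermat.Agent.DivPoly.card_torsionBy (K := Qb) (W := cv W) (cv_Δ_ne hΔ) (n := 3) (by norm_num)
  haveI : Finite (Submodule.torsionBy ℤ (cv W).Point (3 : ℕ)) :=
    Nat.finite_of_card_ne_zero (by rw [hcard]; norm_num)
  refine ⟨(Finite.one_lt_card_iff_nontrivial).1 (by
    show 1 < Nat.card (Submodule.torsionBy ℤ (cv W).Point (3 : ℕ))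
    rw [hcard]; norm_num), ?_⟩
  intro N hN
  by_contra hcon
  push Not at hcon
  obtain ⟨v, hv, hv0, hvs⟩ := X015.exists_line (p := 3)
    (V := Submodule.torsionBy ℤ (cv W).Point (3 : ℕ)) (by rw [hcard]; norm_num) N hcon.1 hcon.2
  obtain ⟨Av, hA, σ, hσ⟩ := Fermat.Agent.Frob.exists_place_frobenius hℓ
  obtain ⟨c, hc⟩ := hvs _ (hN σ v hv)
  have hn : ¬ ℓ ∣ 3 := fun hd => h3 ((Nat.prime_dvd_prime_iff_eq hℓ (by norm_num)).1 hd)
  have hP3 : (3 : ℕ) • (v : (cv W).Point) = 0 := by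
    have := v.2
    rw [Submodule.mem_torsionBy_iff] at this
    rw [← this]; norm_cast
  have hP0 : (v : (cv W).Point) ≠ 0 := fun e => hv0 (Subtype.ext e)
  have hσP : σ • (v : (cv W).Point) = (c.val : ℤ) • (v : (cv W).Point) := by
    have := congrArg Subtype.val hc
    rw [natCast_zsmul, ← X015.torsion_smul (E := W.map (Int.castRingHom ℚ))]
    exact this
  have hr := Fermat.Agent.ECFrob.frob_rel_torsion W hℓ hg hA hσ hn (P := (v : (cv W).Point)) hP3
  rw [hσP, g_zsmul, hσP] at hr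
  apply h
  refine ⟨(c.val : ℤ), three_dvd hP3 hP0 ?_⟩
  rw [← hr]
  module

/-- the auxiliary curve `y² = x³ - x` -/
def E0 : WeierstrassCurve ℤ := ⟨0, 0, 0, -1, 0⟩

lemma E0_Δ : E0.Δ = 64 := by
  simp [E0, WeierstrassCurve.Δ, WeierstrassCurve.b₂, WeierstrassCurve.b₄, WeierstrassCurve.b₆,
    WeierstrassCurve.b₈]

lemma E0_Δ_ne : E0.Δ ≠ 0 := by rw [E0_Δ]; norm_num

lemma E0_no_eig {s : Qb} (hs : s ^ 2 = 3) {σ : Qb ≃ₐ[ℚ] Qb} (hσ : σ s ≠ s)
    {P : (cv E0).Point} (h3 : (3 : ℕ) • P = 0) (hP : P ≠ 0) : σ • P ≠ P ∧ σ • P ≠ -P := by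
  rcases P with _ | ⟨X, Y, h⟩
  · exact absurd rfl hP
  have hψ := X015.psiThree_of_three_nsmul h3
  have hψ' : 3 * X ^ 4 - 6 * X ^ 2 - 1 = 0 := by
    have e1 : (cv E0).b₂ = 0 := by
      simp [cv, E0, WeierstrassCurve.baseChange, WeierstrassCurve.b₂]
    have e2 : (cv E0).b₄ = -2 := by
      simp [cv, E0, WeierstrassCurve.baseChange, WeierstrassCurve.b₄]
    have e3 : (cv E0).b₆ = 0 := by
      simp [cv, E0, WeierstrassCurve.baseChange, WeierstrassCurve.b₆]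
    have e4 : (cv E0).b₈ = -1 := by
      simp [cv, E0, WeierstrassCurve.baseChange, WeierstrassCurve.b₈]
    simp only [X015.psiThree, e1, e2, e3, e4] at hψ
    linear_combination hψ
  have key : σ X ≠ X := by
    intro e
    have h1 : (3 * (X ^ 2 - 1) / 2 - s) * (3 * (X ^ 2 - 1) / 2 + s) = 0 := by
      linear_combination 3 / 4 * hψ' - hs
    have h2 : σ (3 * (X ^ 2 - 1) / 2) = 3 * (X ^ 2 - 1) / 2 := by
      simp only [map_div₀, map_mul, map_sub, map_pow, map_one, map_ofNat, e]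
    rcases mul_eq_zero.1 h1 with h | h
    · rw [sub_eq_zero.1 h] at h2
      exact hσ h2
    · rw [eq_neg_of_add_eq_zero_left h, map_neg] at h2
      exact hσ (neg_injective h2)
  constructor
  · intro e
    apply key
    obtain ⟨h', e'⟩ := X015.smul_some (E0.map (Int.castRingHom ℚ)) σ h
    rw [e'] at e
    rw [Point.some.injEq] at e
    exact e.1
  · intro e
    apply key
    obtain ⟨h', e'⟩ := X015.smul_some (E0.map (Int.castRingHom ℚ)) σ h
    rw [e', Point.neg_some] at e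
    rw [Point.some.injEq] at e
    exact e.1

lemma exists_three_tor : ∃ P : (cv E0).Point, P ≠ 0 ∧ (3 : ℕ) • P = 0 :=
  X015.exists_three_torsion (K := Qb) (W := cv E0) (by norm_num) (cv_Δ_ne E0_Δ_ne)

lemma smul_pm {G : Type*} [AddCommGroup G] {P : G} (h3 : (3 : ℕ) • P = 0) {c : ℤ}
    (hc : ¬ (3 : ℤ) ∣ c) : c • P = P ∨ c • P = -P := by
  have h3' : (3 : ℤ) • P = 0 := by rw [← h3]; norm_cast
  have h1 : c = 3 * (c / 3) + c % 3 := (Int.mul_ediv_add_emod c 3).symm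
  have h2 : c • P = (c % 3) • P := by
    conv_lhs => rw [h1]
    rw [add_zsmul, mul_comm, mul_zsmul, h3', zsmul_zero, zero_add]
  have h4 : c % 3 = 1 ∨ c % 3 = 2 := by omega
  rcases h4 with h | h
  · left; rw [h2, h, one_zsmul]
  · right
    rw [h2, h]
    apply eq_neg_of_add_eq_zero_left
    rw [← h3']
    module

lemma alg_aux {G : Type*} [AddCommGroup G] (T P : G) (a c n : ℤ) :
    a • T - n • P - (a - c) • T - c • (T - (a - c) • P) = -((c * c - a * c + n) • P) := by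
  module

/-- the trace of the auxiliary curve at primes whose Frobenius moves `√3` -/
theorem E0_trace {s : Qb} (hs : s ^ 2 = 3) {ℓ : ℕ} (hℓ : ℓ.Prime) (h2 : ℓ ≠ 2) (h3 : ℓ ≠ 3)
    {Av : ValuationSubring Qb} (hA : Av.LiesOverPrime ℓ) {τ : Qb ≃ₐ[ℚ] Qb}
    (hτ : Av.IsFrobeniusAt τ ℓ) (hτs : τ s ≠ s) :
    ¬ ∃ c : ℤ, (3 : ℤ) ∣ (c * c - E0.apOfModel ℓ * c + ℓ) := by
  rintro ⟨c, hc⟩
  have hg : E0.IsGoodPrimeFor ℓ := by
    unfold WeierstrassCurve.IsGoodPrimeFor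
    rw [E0_Δ]
    intro hd
    have : ℓ ∣ 2 ^ 6 := by exact_mod_cast hd
    exact h2 ((Nat.prime_dvd_prime_iff_eq hℓ Nat.prime_two).1 (hℓ.dvd_of_dvd_pow this))
  have hn : ¬ ℓ ∣ 3 := fun hd => h3 ((Nat.prime_dvd_prime_iff_eq hℓ (by norm_num)).1 hd)
  obtain ⟨P, hP, hP3⟩ := exists_three_tor
  have hr := Fermat.Agent.ECFrob.frob_rel_torsion E0 hℓ hg hA hτ hn (P := P) hP3
  set a := E0.apOfModel ℓ with ha
  have h3l : ¬ (3 : ℤ) ∣ ℓ := by
    intro hd
    have : 3 ∣ ℓ := by exact_mod_cast hd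
    exact h3 ((Nat.prime_dvd_prime_iff_eq (by norm_num) hℓ).1 this).symm
  have hcc : ¬ (3 : ℤ) ∣ c := by
    intro hd
    apply h3l
    have : (ℓ : ℤ) = (c * c - a * c + ℓ) - (c - a) * c := by ring
    rw [this]
    exact dvd_sub hc (Dvd.dvd.mul_left hd _)
  have hcc' : ¬ (3 : ℤ) ∣ (a - c) := by
    intro hd
    apply h3l
    have : (ℓ : ℤ) = (c * c - a * c + ℓ) + (a - c) * c := by ring
    rw [this]
    exact dvd_add hc (Dvd.dvd.mul_right hd _)
  have hτ3 : (3 : ℕ) • (τ • P) = 0 := by rw [← g_nsmul, hP3, g_zero]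
  set R := τ • P - (a - c) • P with hR
  have hR3 : (3 : ℕ) • R = 0 := by
    rw [hR, nsmul_sub, hτ3, smul_comm (3 : ℕ) (a - c) P, hP3, zsmul_zero, sub_zero]
  by_cases hR0 : R = 0
  · have e : τ • P = (a - c) • P := sub_eq_zero.1 hR0
    rcases smul_pm hP3 hcc' with h | h
    · exact (E0_no_eig hs hτs hP3 hP).1 (e.trans h)
    · exact (E0_no_eig hs hτs hP3 hP).2 (e.trans h)
  · have e : τ • R = c • R := by
      obtain ⟨k, hk⟩ := hc
      have h5 : (c * c - a * c + ℓ) • P = 0 := by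
        rw [hk, mul_comm, mul_zsmul]
        have : (3 : ℤ) • P = 0 := by rw [← hP3]; norm_cast
        rw [this, zsmul_zero]
      have e1 : τ • R = τ • τ • P - (a - c) • (τ • P) := by
        have := (Point.map (W' := E0.map (Int.castRingHom ℚ)) τ.toAlgHom).map_sub (τ • P)
          ((a - c) • P)
        rw [← g_zsmul]
        exact this
      rw [e1, hR]
      have e2 : τ • τ • P = a • (τ • P) - (ℓ : ℤ) • P := by
        rw [← sub_eq_zero, ← hr]; abel
      rw [e2]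
      rw [← sub_eq_zero, alg_aux, h5, _root_.neg_zero]
    rcases smul_pm hR3 hcc with h | h
    · exact (E0_no_eig hs hτs hR3 hR0).1 (e.trans h)
    · exact (E0_no_eig hs hτs hR3 hR0).2 (e.trans h)

end Fermat.Agent.Sw35
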