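import Mathlib

set_option autoImplicit false

/-!
# Points of order five in normalised coordinates

`ξ = 12 X + b₂`, `η = 2 Y + a₁ X + a₃`, so that `432 η² = ξ³ − 3 c₄ ξ − 2 c₆`.
-/

open WeierstrassCurve WeierstrassCurve.Affine

namespace Fermat.Agent.Sw35

/-- `c₄` of the Tate normal form `y² + (A − B) x y − A² B y = x³ − A B x²`. -/
def c4f {R : Type*} [CommRing R] (A B : R) : R :=
  A ^ 4 + 12 * A ^ 3 * B + 14 * A ^ 2 * B ^ 2 - 12 * A * B ^ 3 + B ^ 4

/-- `c₆` of the Tate normal form. -/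
def c6f {R : Type*} [CommRing R] (A B : R) : R :=
  -(A ^ 2 - 6 * A * B + B ^ 2) ^ 3 + 36 * (A ^ 2 - 6 * A * B + B ^ 2) * (-(A - B) * (A ^ 2 * B))
    - 216 * (A ^ 2 * B) ^ 2

variable {K : Type*} [Field K]

lemma disc_f (A B : K) :
    c4f A B ^ 3 - c6f A B ^ 2 = 1728 * (A ^ 5 * B ^ 5 * (B ^ 2 - 11 * A * B - A ^ 2)) := by
  unfold c4f c6f; ring

variable {W : WeierstrassCurve.Affine K}

/-- `P` has normalised coordinates `(ξ, η)`. -/
def IsPt (W : WeierstrassCurve.Affine K) (P : W.Point) (ξ η : K) : Prop :=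
  ∃ (X Y : K) (h : W.Nonsingular X Y), P = Point.some X Y h ∧ 12 * X + W.b₂ = ξ ∧
    2 * Y + W.a₁ * X + W.a₃ = η

/-- `P` has Tate parameters `(A, B)`. -/
def IsTate (W : WeierstrassCurve.Affine K) (P : W.Point) (A B : K) : Prop :=
  IsPt W P (A ^ 2 - 6 * A * B + B ^ 2) (-(A ^ 2 * B)) ∧ W.c₄ = c4f A B ∧ W.c₆ = c6f A B

lemma IsPt.ne_zero {P : W.Point} {ξ η : K} (h : IsPt W P ξ η) : P ≠ 0 := by
  obtain ⟨X, Y, h, rfl, -, -⟩ := h
  exact Point.some_ne_zero h

lemma exists_isPt {P : W.Point} (h : P ≠ 0) : ∃ ξ η, IsPt W P ξ η := by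
  rcases P with _ | ⟨X, Y, h'⟩
  · exact absurd rfl h
  · exact ⟨_, _, X, Y, h', rfl, rfl, rfl⟩

lemma IsPt.eqn {P : W.Point} {ξ η : K} (h : IsPt W P ξ η) :
    432 * η ^ 2 = ξ ^ 3 - 3 * W.c₄ * ξ - 2 * W.c₆ := by
  obtain ⟨X, Y, h, rfl, rfl, rfl⟩ := h
  have := (W.equation_iff X Y).1 h.1
  simp only [WeierstrassCurve.c₄, WeierstrassCurve.c₆, WeierstrassCurve.b₂, WeierstrassCurve.b₄,
    WeierstrassCurve.b₆]
  linear_combination 1728 * this

section char
variable [CharZero K]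

lemma IsPt.unique {P Q : W.Point} {ξ η : K} (h : IsPt W P ξ η) (h' : IsPt W Q ξ η) : P = Q := by
  obtain ⟨X, Y, h, rfl, h1, h2⟩ := h
  obtain ⟨X', Y', h', rfl, h1', h2'⟩ := h'
  have hX : X = X' := by
    have : (12 : K) * (X - X') = 0 := by linear_combination h1 - h1'
    rcases mul_eq_zero.1 this with h | h
    · norm_num at h
    · exact sub_eq_zero.1 h
  subst hX
  have hY : Y = Y' := by
    have : (2 : K) * (Y - Y') = 0 := by linear_combination h2 - h2'
    rcases mul_eq_zero.1 this with h | h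
    · norm_num at h
    · exact sub_eq_zero.1 h
  subst hY
  rfl

lemma IsPt.coords {P : W.Point} {ξ η ξ' η' : K} (h : IsPt W P ξ η) (h' : IsPt W P ξ' η') :
    ξ = ξ' ∧ η = η' := by
  obtain ⟨X, Y, h, rfl, h1, h2⟩ := h
  obtain ⟨X', Y', h', e, h1', h2'⟩ := h'
  rw [Point.some.injEq] at e
  obtain ⟨rfl, rfl⟩ := e
  exact ⟨h1.symm.trans h1', h2.symm.trans h2'⟩

lemma IsPt.neg {P : W.Point} {ξ η : K} (h : IsPt W P ξ η) : IsPt W (-P) ξ (-η) := by
  obtain ⟨X, Y, h, rfl, h1, h2⟩ := h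
  refine ⟨X, W.negY X Y, (nonsingular_neg ..).mpr h, rfl, h1, ?_⟩
  simp only [WeierstrassCurve.Affine.negY]
  linear_combination -h2

lemma exists_pt (hΔ : W.Δ ≠ 0) {ξ η : K} (h : 432 * η ^ 2 = ξ ^ 3 - 3 * W.c₄ * ξ - 2 * W.c₆) :
    ∃ P : W.Point, IsPt W P ξ η := by
  have h12 : (12 : K) ≠ 0 := by norm_num
  have h2 : (2 : K) ≠ 0 := by norm_num
  set X : K := (ξ - W.b₂) / 12 with hX
  set Y : K := (η - W.a₁ * X - W.a₃) / 2 with hY
  have hX' : ξ = 12 * X + W.b₂ := by rw [hX]; field_simp; ring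
  have hY' : η = 2 * Y + W.a₁ * X + W.a₃ := by rw [hY]; field_simp; ring
  have he : W.Equation X Y := by
    rw [W.equation_iff]
    rw [hX', hY'] at h
    simp only [WeierstrassCurve.c₄, WeierstrassCurve.c₆, WeierstrassCurve.b₂, WeierstrassCurve.b₄,
      WeierstrassCurve.b₆] at h
    have : (1728 : K) * (Y ^ 2 + W.a₁ * X * Y + W.a₃ * Y -
        (X ^ 3 + W.a₂ * X ^ 2 + W.a₄ * X + W.a₆)) = 0 := by
      linear_combination h
    rcases mul_eq_zero.1 this with h | h
    · norm_num at h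
    · exact sub_eq_zero.1 h
  exact ⟨Point.some X Y ((equation_iff_nonsingular_of_Δ_ne_zero hΔ).1 he), X, Y, _, rfl, hX'.symm,
    hY'.symm⟩

variable [DecidableEq K]

lemma IsPt.eq_or {P Q : W.Point} {ξ η η' : K} (h : IsPt W P ξ η) (h' : IsPt W Q ξ η') :
    P = Q ∨ P = -Q := by
  have e1 := h.eqn
  have e2 := h'.eqn
  have : (η - η') * (η + η') = 0 := by
    have : (432 : K) * ((η - η') * (η + η')) = 0 := by linear_combination e1 - e2
    rcases mul_eq_zero.1 this with h | h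
    · norm_num at h
    · exact h
  rcases mul_eq_zero.1 this with e | e
  · left
    rw [sub_eq_zero.1 e] at h
    exact h.unique h'
  · right
    rw [eq_neg_of_add_eq_zero_left e] at h
    exact h.unique h'.neg

lemma IsPt.add {P Q : W.Point} {ξ η ξ' η' M : K} (h : IsPt W P ξ η) (h' : IsPt W Q ξ' η')
    (hne : ξ ≠ ξ') (hM : M * (ξ' - ξ) = 12 * (η' - η)) :
    IsPt W (P + Q) (3 * M ^ 2 - ξ - ξ') (-η - M * (3 * M ^ 2 - 2 * ξ - ξ') / 12) := by
  obtain ⟨X, Y, h, rfl, rfl, rfl⟩ := h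
  obtain ⟨X', Y', h', rfl, rfl, rfl⟩ := h'
  have hX : X ≠ X' := fun e => hne (by rw [e])
  have hX' : X - X' ≠ 0 := sub_ne_zero.2 hX
  rw [Point.add_of_X_ne hX]
  refine ⟨_, _, _, rfl, ?_, ?_⟩
  all_goals
    have hs : W.slope X X' Y Y' * (X - X') = Y - Y' := by
      rw [slope_of_X_ne hX]; field_simp
    set l := W.slope X X' Y Y' with hl
    have hMl : M = 2 * l + W.a₁ := by
      have : (12 : K) * (X - X') * (M - (2 * l + W.a₁)) = 0 := by
        linear_combination -hM - 24 * hs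
      rcases mul_eq_zero.1 this with h | h
      · rcases mul_eq_zero.1 h with h | h
        · norm_num at h
        · exact absurd h hX'
      · exact sub_eq_zero.1 h
    simp only [WeierstrassCurve.Affine.addX, WeierstrassCurve.Affine.addY,
      WeierstrassCurve.Affine.negAddY, WeierstrassCurve.Affine.negY, WeierstrassCurve.b₂, hMl]
  · ring
  · ring

lemma IsPt.dbl {P : W.Point} {ξ η M : K} (h : IsPt W P ξ η) (hη : η ≠ 0)
    (hM : 24 * η * M = ξ ^ 2 - W.c₄) :
    IsPt W (P + P) (3 * M ^ 2 - 2 * ξ) (-η - M * (3 * M ^ 2 - 3 * ξ) / 12) := by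
  obtain ⟨X, Y, h, rfl, rfl, rfl⟩ := h
  have hY : Y ≠ W.negY X Y := by
    intro e
    apply hη
    simp only [WeierstrassCurve.Affine.negY] at e
    linear_combination e
  have hY' : Y - W.negY X Y ≠ 0 := sub_ne_zero.2 hY
  rw [Point.add_self_of_Y_ne hY]
  refine ⟨_, _, _, rfl, ?_, ?_⟩
  all_goals
    have hs : W.slope X X Y Y * (2 * Y + W.a₁ * X + W.a₃) =
        3 * X ^ 2 + 2 * W.a₂ * X + W.a₄ - W.a₁ * Y := by
      rw [slope_of_Y_ne rfl hY]
      have : 2 * Y + W.a₁ * X + W.a₃ = Y - W.negY X Y := by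
        simp only [WeierstrassCurve.Affine.negY]; ring
      rw [this]
      field_simp
    set l := W.slope X X Y Y with hl
    have hMl : M = 2 * l + W.a₁ := by
      have : (24 : K) * (2 * Y + W.a₁ * X + W.a₃) * (M - (2 * l + W.a₁)) = 0 := by
        simp only [WeierstrassCurve.c₄, WeierstrassCurve.b₂, WeierstrassCurve.b₄] at hM
        linear_combination hM - 48 * hs
      rcases mul_eq_zero.1 this with h | h
      · rcases mul_eq_zero.1 h with h | h
        · norm_num at h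
        · exact absurd h hη
      · exact sub_eq_zero.1 h
    simp only [WeierstrassCurve.Affine.addX, WeierstrassCurve.Affine.addY,
      WeierstrassCurve.Affine.negAddY, WeierstrassCurve.Affine.negY, WeierstrassCurve.b₂, hMl]
  · ring
  · ring

lemma IsPt.two_tor {P : W.Point} {ξ : K} (h : IsPt W P ξ 0) : P + P = 0 := by
  have := h.unique (by simpa using h.neg)
  nth_rewrite 1 [this]
  exact neg_add_cancel P

end char

end Fermat.Agent.Sw35
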