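import Fermat.Agent.Sw35.Tate

set_option autoImplicit false

open WeierstrassCurve WeierstrassCurve.Affine

namespace Fermat.Agent.Sw35

variable {K : Type*} [Field K] [CharZero K] {W : WeierstrassCurve.Affine K}

lemma IsTate.disc {P : W.Point} {A B : K} (h : IsTate W P A B) :
    W.Δ = A ^ 5 * B ^ 5 * (B ^ 2 - 11 * A * B - A ^ 2) := by
  have h1 := disc_f A B
  rw [← h.2.1, ← h.2.2] at h1
  have h2 := W.c_relation
  have : (1728 : K) * (W.Δ - A ^ 5 * B ^ 5 * (B ^ 2 - 11 * A * B - A ^ 2)) = 0 := by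
    linear_combination h2 + h1
  rcases mul_eq_zero.1 this with h | h
  · norm_num at h
  · exact sub_eq_zero.1 h

lemma IsTate.ne (hΔ : W.Δ ≠ 0) {P : W.Point} {A B : K} (h : IsTate W P A B) : A ≠ 0 ∧ B ≠ 0 := by
  constructor
  · rintro rfl
    apply hΔ
    rw [h.disc]; ring
  · rintro rfl
    apply hΔ
    rw [h.disc]; ring

lemma IsTate.unique {P Q : W.Point} {A B : K} (h : IsTate W P A B) (h' : IsTate W Q A B) : P = Q :=
  h.1.unique h'.1

lemma IsTate.neg {P : W.Point} {A B : K} (h : IsTate W P A B) : IsTate W (-P) (-A) (-B) := by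
  refine ⟨?_, ?_, ?_⟩
  · convert h.1.neg using 1 <;> ring
  · rw [h.2.1]; unfold c4f; ring
  · rw [h.2.2]; unfold c6f; ring

lemma IsTate.params (hΔ : W.Δ ≠ 0) {P : W.Point} {A B A' B' : K} (h : IsTate W P A B)
    (h' : IsTate W P A' B') : A = A' ∧ B = B' := by
  obtain ⟨e1, e2⟩ := h.1.coords h'.1
  have e3 : c4f A B = c4f A' B' := h.2.1.symm.trans h'.2.1
  obtain ⟨hA, hB⟩ := h.ne hΔ
  obtain ⟨hA', hB'⟩ := h'.ne hΔ
  have hη : A ^ 2 * B ≠ 0 := mul_ne_zero (pow_ne_zero _ hA) hB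
  have hM : A - B = A' - B' := by
    have : (24 : K) * (A ^ 2 * B) * ((A - B) - (A' - B')) = 0 := by
      unfold c4f at e3
      linear_combination e3 - (A ^ 2 - 6 * A * B + B ^ 2 + (A' ^ 2 - 6 * A' * B' + B' ^ 2)) * e1 +
        24 * (A' - B') * e2
    rcases mul_eq_zero.1 this with h | h
    · rcases mul_eq_zero.1 h with h | h
      · norm_num at h
      · exact absurd h hη
    · exact sub_eq_zero.1 h
  have hAB : A * B = A' * B' := by
    have : (4 : K) * (A * B - A' * B') = 0 := by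
      linear_combination (A - B + (A' - B')) * hM - e1
    rcases mul_eq_zero.1 this with h | h
    · norm_num at h
    · exact sub_eq_zero.1 h
  have hAA : A = A' := by
    have : (A - A') * (A * B) = 0 := by linear_combination -e2 - A' * hAB
    rcases mul_eq_zero.1 this with h | h
    · exact sub_eq_zero.1 h
    · exact absurd h (mul_ne_zero hA hB)
  subst hAA
  exact ⟨rfl, by linear_combination -hM⟩

variable [DecidableEq K]

lemma IsTate.two (hΔ : W.Δ ≠ 0) {P : W.Point} {A B : K} (h : IsTate W P A B) :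
    IsTate W (P + P) B (-A) := by
  obtain ⟨hA, hB⟩ := h.ne hΔ
  have hη : -(A ^ 2 * B) ≠ 0 := neg_ne_zero.2 (mul_ne_zero (pow_ne_zero _ hA) hB)
  refine ⟨?_, ?_, ?_⟩
  · have := h.1.dbl (M := A - B) hη (by rw [h.2.1]; unfold c4f; ring)
    convert this using 1
    · ring
    · field_simp; ring
  · rw [h.2.1]; unfold c4f; ring
  · rw [h.2.2]; unfold c6f; ring

lemma IsTate.five (hΔ : W.Δ ≠ 0) {P : W.Point} {A B : K} (h : IsTate W P A B) :
    (5 : ℕ) • P = 0 := by
  have h4 : IsTate W (P + P + (P + P)) (-A) (-B) := (h.two hΔ).two hΔ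
  have e : P + P + (P + P) = -P := h4.unique h.neg
  have : (5 : ℕ) • P = P + P + (P + P) + P := by
    rw [show (5 : ℕ) = 1 + 1 + (1 + 1) + 1 from rfl, add_smul, add_smul, add_smul, one_smul]
  rw [this, e, neg_add_cancel]

lemma exists_isTate (hΔ : W.Δ ≠ 0) {P : W.Point} (hP : P ≠ 0) (h5 : (5 : ℕ) • P = 0) :
    ∃ A B, IsTate W P A B := by
  obtain ⟨ξ, η, h⟩ := exists_isPt hP
  have h5' : P + P + (P + P) + P = 0 := by
    rw [← h5, show (5 : ℕ) = 1 + 1 + (1 + 1) + 1 from rfl, add_smul, add_smul, add_smul, one_smul]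
  have hη : η ≠ 0 := by
    rintro rfl
    have := h.two_tor
    rw [this, zero_add, zero_add] at h5'
    exact hP h5'
  have h24 : (24 : K) ≠ 0 := by norm_num
  obtain ⟨M, hM⟩ : ∃ M : K, 24 * η * M = ξ ^ 2 - W.c₄ :=
    ⟨(ξ ^ 2 - W.c₄) / (24 * η), by field_simp⟩
  have h2 := h.dbl hη hM
  set ξ₂ := 3 * M ^ 2 - 2 * ξ with hξ₂
  set η₂ := -η - M * (3 * M ^ 2 - 3 * ξ) / 12 with hη₂
  have h2ne : P + P ≠ 0 := h2.ne_zero
  have hx : ξ ≠ ξ₂ := by
    intro e
    rw [e] at h
    rcases h.eq_or h2 with e | e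
    · have : P = 0 := by
        have : P + P - P = P - P := by rw [← e]
        simpa using this
      exact hP this
    · have e3 : P + P + P = 0 := by
        nth_rewrite 3 [e]
        exact add_neg_cancel _
      apply h2ne
      have : P + P + (P + P) + P = (P + P + P) + (P + P) := by abel
      rw [this, e3, zero_add] at h5'
      exact h5'
  have hx2 : ξ₂ - ξ ≠ 0 := sub_ne_zero.2 (Ne.symm hx)
  obtain ⟨M', hM'⟩ : ∃ M' : K, M' * (ξ₂ - ξ) = 12 * (η₂ - η) :=
    ⟨12 * (η₂ - η) / (ξ₂ - ξ), by field_simp⟩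
  have h3 := h.add h2 hx hM'
  have e3 : P + (P + P) = -(P + P) := by
    apply eq_neg_of_add_eq_zero_left
    rw [← h5']; abel
  rw [e3] at h3
  have hrel := (h2.neg.coords h3).1
  -- Tate parameters
  have ha2 : (ξ - M ^ 2) ≠ 0 := by
    intro e
    apply hx2
    rw [hξ₂]; linear_combination -3 * e
  obtain ⟨a2, ha2'⟩ : ∃ a2 : K, ξ = M ^ 2 + 4 * a2 := ⟨(ξ - M ^ 2) / 4, by field_simp; ring⟩
  have ha2n : a2 ≠ 0 := by
    intro e; apply ha2; rw [ha2', e]; ring
  obtain ⟨A, hA⟩ : ∃ A : K, η = A * a2 := ⟨η / a2, by field_simp⟩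
  have hM2 : M' = 2 * A - M := by
    have : (ξ₂ - ξ) * (M' - (2 * A - M)) = 0 := by
      rw [mul_sub, mul_comm (ξ₂ - ξ) M', hM', hξ₂, hη₂, ha2', hA]
      field_simp
      ring
    rcases mul_eq_zero.1 this with h | h
    · exact absurd h hx2
    · exact sub_eq_zero.1 h
  have hAB : A * (A - M) = -a2 := by
    have : (12 : K) * (A * (A - M) + a2) = 0 := by
      rw [hM2, hξ₂, ha2'] at hrel
      linear_combination -hrel
    rcases mul_eq_zero.1 this with h | h
    · norm_num at h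
    · exact eq_neg_of_add_eq_zero_left h
  have hξ' : ξ = A ^ 2 - 6 * A * (A - M) + (A - M) ^ 2 := by
    rw [ha2']; linear_combination 4 * hAB
  have hη' : η = -(A ^ 2 * (A - M)) := by
    rw [hA]; linear_combination A * hAB
  have hc4 : W.c₄ = c4f A (A - M) := by
    have : W.c₄ = ξ ^ 2 - 24 * η * M := by rw [hM]; ring
    rw [this, hξ', hη']; unfold c4f; ring
  refine ⟨A, A - M, ?_, hc4, ?_⟩
  · rw [← hξ', ← hη']; exact h
  · have e := h.eqn
    have : (2 : K) * (W.c₆ - c6f A (A - M)) = 0 := by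
      rw [hξ', hη', hc4] at e
      unfold c4f at e
      unfold c6f
      linear_combination e
    rcases mul_eq_zero.1 this with h | h
    · norm_num at h
    · exact sub_eq_zero.1 h

lemma exists_pt_tate (hΔ : W.Δ ≠ 0) {A B : K} (h4 : W.c₄ = c4f A B) (h6 : W.c₆ = c6f A B) :
    ∃ P : W.Point, IsTate W P A B := by
  obtain ⟨P, hP⟩ := exists_pt (W := W) hΔ (ξ := A ^ 2 - 6 * A * B + B ^ 2) (η := -(A ^ 2 * B))
    (by rw [h4, h6]; unfold c4f c6f; ring)
  exact ⟨P, hP, h4, h6⟩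

end Fermat.Agent.Sw35
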