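import Fermat.Agent.Sw35.Good
import Fermat.Agent.X015.Line
import Fermat.Agent.FrobDens.Main
import Fermat.Agent.ECFrob.Qbar
import Fermat.Agent.DivPoly.Card

set_option autoImplicit false

/-!
# Congruence of traces of Frobenius modulo five
-/

open WeierstrassCurve WeierstrassCurve.Affine
open Fermat.Agent.X015 (smul_some)

namespace Fermat.Agent.Sw35

abbrev Qb := AlgebraicClosure ℚ

/-- the curve over `ℚbar` -/
noncomputable abbrev cv (W : WeierstrassCurve ℤ) : WeierstrassCurve.Affine Qb :=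
  ((W.map (Int.castRingHom ℚ))⁄Qb)

variable {W W' : WeierstrassCurve ℤ}

lemma cv_Δ (W : WeierstrassCurve ℤ) : (cv W).Δ = (W.Δ : Qb) := by
  simp [cv, WeierstrassCurve.baseChange, WeierstrassCurve.map_Δ]

lemma cv_c4 (W : WeierstrassCurve ℤ) : (cv W).c₄ = (W.c₄ : Qb) := by
  simp [cv, WeierstrassCurve.baseChange, WeierstrassCurve.map_c₄]

lemma cv_c6 (W : WeierstrassCurve ℤ) : (cv W).c₆ = (W.c₆ : Qb) := by
  simp [cv, WeierstrassCurve.baseChange, WeierstrassCurve.map_c₆]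

lemma cv_Δ_ne (hΔ : W.Δ ≠ 0) : (cv W).Δ ≠ 0 := by
  rw [cv_Δ]; exact_mod_cast hΔ

lemma isPt_smul (σ : Qb ≃ₐ[ℚ] Qb) {P : (cv W).Point} {ξ η : Qb} (h : IsPt (cv W) P ξ η) :
    IsPt (cv W) (σ • P) (σ ξ) (σ η) := by
  obtain ⟨X, Y, h, rfl, rfl, rfl⟩ := h
  obtain ⟨h', e⟩ := smul_some (W.map (Int.castRingHom ℚ)) σ h
  refine ⟨σ X, σ Y, h', e, ?_, ?_⟩
  · have : (cv W).b₂ = algebraMap ℚ Qb (W.map (Int.castRingHom ℚ)).b₂ :=
      WeierstrassCurve.map_b₂ _ _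
    rw [this, map_add, map_mul, AlgEquiv.commutes, map_ofNat]
  · have h1 : (cv W).a₁ = algebraMap ℚ Qb (W.map (Int.castRingHom ℚ)).a₁ :=
      WeierstrassCurve.map_a₁ _ _
    have h3 : (cv W).a₃ = algebraMap ℚ Qb (W.map (Int.castRingHom ℚ)).a₃ :=
      WeierstrassCurve.map_a₃ _ _
    rw [h1, h3, map_add, map_add, map_mul, map_mul, AlgEquiv.commutes, AlgEquiv.commutes,
      map_ofNat]

lemma c4f_map {R S : Type*} [CommRing R] [CommRing S] (φ : R →+* S) (A B : R) :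
    c4f (φ A) (φ B) = φ (c4f A B) := by
  simp only [c4f, map_add, map_mul, map_sub, map_pow, map_ofNat]

lemma c6f_map {R S : Type*} [CommRing R] [CommRing S] (φ : R →+* S) (A B : R) :
    c6f (φ A) (φ B) = φ (c6f A B) := by
  simp only [c6f, map_add, map_mul, map_sub, map_neg, map_pow, map_ofNat]

lemma isTate_smul (σ : Qb ≃ₐ[ℚ] Qb) {P : (cv W).Point} {A B : Qb} (h : IsTate (cv W) P A B) :
    IsTate (cv W) (σ • P) (σ A) (σ B) := by
  refine ⟨?_, ?_, ?_⟩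
  · convert isPt_smul σ h.1 using 1
    · simp only [map_add, map_mul, map_sub, map_pow, map_ofNat]
    · simp only [map_mul, map_neg, map_pow]
  · have := congrArg σ h.2.1
    rw [cv_c4, map_intCast] at this
    rw [cv_c4, this]
    exact (c4f_map (σ : Qb →+* Qb) A B).symm
  · have := congrArg σ h.2.2
    rw [cv_c6, map_intCast] at this
    rw [cv_c6, this]
    exact (c6f_map (σ : Qb →+* Qb) A B).symm

lemma good_smul (σ : Qb ≃ₐ[ℚ] Qb) {t : Qb} (ht : σ t = t) {P : (cv W).Point} {P' : (cv W').Point}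
    (h : Good (cv W) (cv W') t P P') : Good (cv W) (cv W') t (σ • P) (σ • P') := by
  obtain ⟨A, B, h1, h2⟩ := h
  refine ⟨σ A, σ B, isTate_smul σ h1, ?_⟩
  have h3 := isTate_smul σ h2
  have e1 : Ff (σ A) (σ B) t = σ (Ff A B t) := by
    have e := Ff_map (σ : Qb →+* Qb) A B t
    rw [show (σ : Qb →+* Qb) t = t from ht] at e
    exact e
  have e2 : Gf (σ A) (σ B) t = σ (Gf A B t) := by
    have e := Gf_map (σ : Qb →+* Qb) A B t
    rw [show (σ : Qb →+* Qb) t = t from ht] at e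
    exact e
  rw [e1, e2]
  exact h3

lemma comb5 {G : Type*} [AddCommGroup G] {P Q : G} (hP : (5 : ℕ) • P = 0) (hQ : (5 : ℕ) • Q = 0)
    (j k : ℤ) : (5 : ℕ) • (j • P + k • Q) = 0 := by
  rw [nsmul_add, smul_comm (5 : ℕ) j P, smul_comm (5 : ℕ) k Q, hP, hQ, zsmul_zero, zsmul_zero,
    add_zero]

lemma comb_inj {G : Type*} [AddCommGroup G] {P Q : G} {a b c d : ℤ}
    (h : a • P + b • Q = c • P + d • Q) : (a - c) • P + (b - d) • Q = 0 := by
  rw [sub_zsmul, sub_zsmul, ← sub_eq_zero.2 h]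
  abel

lemma g_add (σ : Qb ≃ₐ[ℚ] Qb) (P Q : (cv W).Point) : σ • (P + Q) = σ • P + σ • Q :=
  (Point.map (W' := W.map (Int.castRingHom ℚ)) σ.toAlgHom).map_add P Q

lemma g_zero (σ : Qb ≃ₐ[ℚ] Qb) : σ • (0 : (cv W).Point) = 0 := rfl

lemma g_zsmul (σ : Qb ≃ₐ[ℚ] Qb) (n : ℤ) (P : (cv W).Point) : σ • (n • P) = n • (σ • P) :=
  (Point.map (W' := W.map (Int.castRingHom ℚ)) σ.toAlgHom).map_zsmul n P

lemma g_nsmul (σ : Qb ≃ₐ[ℚ] Qb) (n : ℕ) (P : (cv W).Point) : σ • (n • P) = n • (σ • P) :=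
  (Point.map (W' := W.map (Int.castRingHom ℚ)) σ.toAlgHom).map_nsmul n P

lemma comb_mod {G : Type*} [AddCommGroup G] {P Q : G} (hP : (5 : ℕ) • P = 0)
    (hQ : (5 : ℕ) • Q = 0) {j k : ℤ} (h : (5 : ℤ) ∣ j ∧ (5 : ℤ) ∣ k) : j • P + k • Q = 0 := by
  rw [smul_mod hP, smul_mod hQ, Int.emod_eq_zero_of_dvd h.1, Int.emod_eq_zero_of_dvd h.2,
    zero_smul, zero_smul, add_zero]

lemma comb_sq {G : Type*} [AddCommGroup G] (s : G →+ G) {P Q : G} {j k l m a : ℤ} {n : ℤ}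
    (e1 : s P = j • P + k • Q) (e2 : s Q = l • P + m • Q)
    (hr : s (s P) - a • s P + n • P = 0) :
    (j * j + k * l - a * j + n) • P + (j * k + k * m - a * k) • Q = 0 := by
  rw [e1, map_add, map_zsmul, map_zsmul, e1, e2] at hr
  rw [← hr]
  module

/-- every five-torsion point is an integral combination of a basis -/
lemma span_of_indep {W : WeierstrassCurve.Affine Qb} (hΔ : W.Δ ≠ 0) {P Q : W.Point}
    (hP : (5 : ℕ) • P = 0) (hQ : (5 : ℕ) • Q = 0)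
    (hind : ∀ j k : ℤ, ¬ ((5 : ℤ) ∣ j ∧ (5 : ℤ) ∣ k) → j • P + k • Q ≠ 0)
    {R : W.Point} (hR : (5 : ℕ) • R = 0) : ∃ j k : ℤ, R = j • P + k • Q := by
  classical
  have hcard := Fermat.Agent.DivPoly.card_torsion (K := Qb) (W := W) hΔ (n := 5) (by norm_num)
  have hfin : Finite {P : W.Point // 5 • P = 0} := Nat.finite_of_card_ne_zero (by rw [hcard]; norm_num)
  let g : Fin 5 × Fin 5 → {P : W.Point // 5 • P = 0} := fun jk =>
    ⟨(jk.1.val : ℤ) • P + (jk.2.val : ℤ) • Q, comb5 hP hQ _ _⟩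
  have hinj : Function.Injective g := by
    intro a b hab
    have h1 : (a.1.val : ℤ) • P + (a.2.val : ℤ) • Q = (b.1.val : ℤ) • P + (b.2.val : ℤ) • Q :=
      congrArg Subtype.val hab
    by_contra hne
    have h2 : ((a.1.val : ℤ) - b.1.val) • P + ((a.2.val : ℤ) - b.2.val) • Q = 0 := comb_inj h1
    refine hind _ _ ?_ h2
    rintro ⟨d1, d2⟩
    apply hne
    have l1 := a.1.isLt
    have l2 := a.2.isLt
    have l3 := b.1.isLt
    have l4 := b.2.isLt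
    ext
    · omega
    · omega
  have : Function.Bijective g := by
    rw [Nat.bijective_iff_injective_and_card]
    refine ⟨hinj, ?_⟩
    rw [hcard]
    simp
  obtain ⟨jk, hjk⟩ := this.2 ⟨R, hR⟩
  exact ⟨_, _, (congrArg Subtype.val hjk).symm⟩

/-- **Congruence of traces** -/
theorem trace_congr {f z x y t : Qb} (ht : ∀ σ : Qb ≃ₐ[ℚ] Qb, σ t = t)
    (h : Pair (cv W) (cv W') f z x y t) (hΔ : W.Δ ≠ 0) (hΔ' : W'.Δ ≠ 0) {ℓ : ℕ} (hℓ : ℓ.Prime)
    (hg : W.IsGoodPrimeFor ℓ) (hg' : W'.IsGoodPrimeFor ℓ) (h5 : ℓ ≠ 5) :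
    (5 : ℤ) ∣ (W'.apOfModel ℓ - W.apOfModel ℓ) := by
  have d := cv_Δ_ne hΔ
  have d' := cv_Δ_ne hΔ'
  obtain ⟨P, Q, P', Q', hP5, hQ5, hP5', hQ5', hgood⟩ := h.exists_basis d d'
  have hind : ∀ j k : ℤ, ¬ ((5 : ℤ) ∣ j ∧ (5 : ℤ) ∣ k) → j • P + k • Q ≠ 0 := by
    intro j k hjk
    obtain ⟨A, B, h1, -⟩ := hgood j k hjk
    exact h1.1.ne_zero
  have hind' : ∀ j k : ℤ, ¬ ((5 : ℤ) ∣ j ∧ (5 : ℤ) ∣ k) → j • P' + k • Q' ≠ 0 := by
    intro j k hjk
    obtain ⟨A, B, -, h1⟩ := hgood j k hjk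
    exact h1.1.ne_zero
  obtain ⟨Av, hA, σ, hσ⟩ := Fermat.Agent.Frob.exists_place_frobenius hℓ
  have hn : ¬ ℓ ∣ 5 := fun hd => h5 ((Nat.prime_dvd_prime_iff_eq hℓ (by norm_num)).1 hd)
  have hsm {W : WeierstrassCurve ℤ} {R : (cv W).Point} (hR : (5 : ℕ) • R = 0) :
      (5 : ℕ) • (σ • R) = 0 := by
    rw [← g_nsmul, hR, g_zero]
  -- coordinates of `σ P`, `σ Q`
  obtain ⟨j, k, hjk⟩ := span_of_indep d hP5 hQ5 hind (hsm hP5)
  obtain ⟨l, m, hlm⟩ := span_of_indep d hP5 hQ5 hind (hsm hQ5)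
  have g1 : Good (cv W) (cv W') t P P' := by
    have := hgood 1 0 (by rintro ⟨h, -⟩; norm_num at h)
    simpa using this
  have g2 : Good (cv W) (cv W') t Q Q' := by
    have := hgood 0 1 (by rintro ⟨-, h⟩; norm_num at h)
    simpa using this
  have njk : ¬ ((5 : ℤ) ∣ j ∧ (5 : ℤ) ∣ k) := by
    intro e1
    have : σ • P = 0 := by rw [hjk, comb_mod hP5 hQ5 e1]
    exact (good_smul σ (ht σ) g1).choose_spec.choose_spec.1.1.ne_zero this
  have nlm : ¬ ((5 : ℤ) ∣ l ∧ (5 : ℤ) ∣ m) := by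
    intro e1
    have : σ • Q = 0 := by rw [hlm, comb_mod hP5 hQ5 e1]
    exact (good_smul σ (ht σ) g2).choose_spec.choose_spec.1.1.ne_zero this
  have hjk' : σ • P' = j • P' + k • Q' := by
    have e1 := good_smul σ (ht σ) g1
    rw [hjk] at e1
    exact e1.unique d (hgood j k njk)
  have hlm' : σ • Q' = l • P' + m • Q' := by
    have e1 := good_smul σ (ht σ) g2
    rw [hlm] at e1
    exact e1.unique d (hgood l m nlm)
  have r1 := Fermat.Agent.ECFrob.frob_rel_torsion W hℓ hg hA hσ hn (P := P) hP5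
  have r2 := Fermat.Agent.ECFrob.frob_rel_torsion W' hℓ hg' hA hσ hn (P := P') hP5'
  have key {W : WeierstrassCurve ℤ} {P Q : (cv W).Point} {a : ℤ} (e1 : σ • P = j • P + k • Q)
      (e2 : σ • Q = l • P + m • Q)
      (hind : ∀ j k : ℤ, ¬ ((5 : ℤ) ∣ j ∧ (5 : ℤ) ∣ k) → j • P + k • Q ≠ 0)
      (hr : σ • σ • P - a • (σ • P) + (ℓ : ℤ) • P = 0) :
      (5 : ℤ) ∣ (j * j + k * l - a * j + ℓ) ∧ (5 : ℤ) ∣ (j * k + k * m - a * k) := by
    by_contra hcon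
    exact hind _ _ hcon (comb_sq (Point.map (W' := W.map (Int.castRingHom ℚ)) σ.toAlgHom)
      e1 e2 hr)
  obtain ⟨k1, k2⟩ := key hjk hlm hind r1
  obtain ⟨k1', k2'⟩ := key hjk' hlm' hind' r2
  have q1 : (5 : ℤ) ∣ (W'.apOfModel ℓ - W.apOfModel ℓ) * j := by
    have e := dvd_sub k1 k1'
    rw [show j * j + k * l - W.apOfModel ℓ * j + (ℓ : ℤ) - (j * j + k * l - W'.apOfModel ℓ * j + ℓ)
      = (W'.apOfModel ℓ - W.apOfModel ℓ) * j by ring] at e
    exact e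
  have q2 : (5 : ℤ) ∣ (W'.apOfModel ℓ - W.apOfModel ℓ) * k := by
    have e := dvd_sub k2 k2'
    rw [show j * k + k * m - W.apOfModel ℓ * k - (j * k + k * m - W'.apOfModel ℓ * k)
      = (W'.apOfModel ℓ - W.apOfModel ℓ) * k by ring] at e
    exact e
  have p5 : Prime (5 : ℤ) := Nat.prime_iff_prime_int.1 (by norm_num)
  rcases p5.dvd_or_dvd q1 with h | h
  · exact h
  rcases p5.dvd_or_dvd q2 with h' | h'
  · exact h'
  exact absurd ⟨h, h'⟩ njk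

end Fermat.Agent.Sw35
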